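import Fermat.Agent.AttachedLocal.Classes
import Fermat.Agent.Semistable.Frobenius

/-!
# Frobenius on classes on the two sheets, away from the residue characteristic

On a class killed by `m` prime to the residue characteristic which lives on the two sheets and
whose Kummer function is an eigenfunction of the norm, Frobenius is multiplication by `q a`.
-/

set_option autoImplicit false

noncomputable section

namespace Fermat.Agent.AttachedLocal

open HahnSeries AlgebraicCurve ModularCurve Fermat.Agent.Reduction Fermat.Agent.Semistable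

variable {K F k : Type*} [Field K] [Field F] [Algebra K F] [Field k] {A : ValuationSubring K}
  {π : A →+* k} {q : ℕ} [NeZero q] {S : Sheets A π q F} {m : ℕ}

theorem flip_flip (u : S.Pt) : S.flip (S.flip u) = u := (S.flip).left_inv u

/-- The partner of a node is a node. -/
def flipNode (u : S.Node) : S.Node :=
  ⟨S.flip u.1, fun b hb => by
    rw [flip_flip]
    exact (u.2 (b.2, b.1) hb.swap).symm⟩

theorem Pt.apply_sigC (u : S.Pt) (x : S.C) : u (S.sigC x) = S.flip u x ^ q := by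
  conv_lhs => rw [← flip_flip u]
  rw [Sheets.flip_apply, Sheets.frC_sigC]
  exact _root_.map_pow (S.flip u).1 _ _

/-- Rescaling the Kummer function of a datum. -/
def scaleDatum (d : S.Datum m) (c : A) (hc : π c ≠ 0) : S.Datum m :=
  have hcK : (c : K) ≠ 0 := fun h => hc (by rw [show c = 0 from Subtype.ext h, map_zero])
  { d with
    G := (c : K) • d.G
    ū := (π c * d.ū.1, π c * d.ū.2)
    G_ne := smul_ne_zero hcK d.G_ne
    ord_G := fun v => by
      rw [Algebra.smul_def, v.ord_mul ((map_ne_zero _).mpr hcK) d.G_ne, FF.ord_algebraMap,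
        zero_add, d.ord_G]
    red_G := by
      have := d.red_G.smul c
      rw [← map_smul] at this
      simpa only [scale2, Prod.smul_mk, smul_smul] using this
    u₁_ne := mul_ne_zero hc d.u₁_ne
    u₂_ne := mul_ne_zero hc d.u₂_ne }

variable [FF.IsFunctionField K F] [IsAlgClosed K]

theorem conjDatum_mem_V (σ : Frob S) {d : S.Datum m} (hm : 0 < m) {n : ℤ} {b : Ser2 k}
    (hb : b ∈ d.V n) :
    (coeffMap (S.σ : k →+* k) b.1, coeffMap (S.σ : k →+* k) b.2) ∈ (conjDatum σ d).V n := by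
  obtain ⟨-, f, hf, hfb⟩ := hb
  refine (conjDatum σ d).mem_V_of_red hm (f := σ.g f) (σ.mem_L_act hf) ?_
  have h := σ.red2 hfb
  simpa only [conjDatum, mulPair_apply, Prod.fst_mul, Prod.snd_mul, map_mul, Prod.mk_mul_mk]
    using h

theorem swapDatum_mem_V {d : S.Datum m} (hm : 0 < m) {n : ℤ} {b : Ser2 k} (hb : b ∈ d.V n) :
    b.swap ∈ (swapDatum d).V n := by
  obtain ⟨-, f, hf, hfb⟩ := hb
  refine (swapDatum d).mem_V_of_red hm (f := S.w f) (mem_L_actW hf) ?_
  rw [S.T_w]
  exact hfb.swap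

/-- **Frobenius is multiplication by `q a`.** -/
theorem frob_sub_smul_mem_principal [IsAlgClosed k] [Fact q.Prime] [CharP k q] (σ : Frob S)
    (hm : 0 < m) (hmk : (m : k) ≠ 0) {a : ℤ} {E : Divisor K F} (hE : Split S m E)
    (hrel : RelClass S a m E) :
    σ.act E - ((q : ℤ) * a) • E ∈ Divisor.principal (K := K) (F := F) := by
  obtain ⟨d, hd⟩ := hE
  have hW := actW_add_smul_mem_principal hm d.G_ne d.ord_G (hrel d.E d.G hd d.G_ne d.ord_G)
  obtain ⟨e, heE, heu, hV⟩ := (swapDatum d).exists_pow hm q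
  have hu0 : (d.ū.1 * d.ū.2) ^ q ≠ 0 := pow_ne_zero q (mul_ne_zero d.u₁_ne d.u₂_ne)
  obtain ⟨c, hc⟩ := S.surj ((d.ū.1 * d.ū.2) ^ q)⁻¹
  have hc0 : π c ≠ 0 := hc ▸ inv_ne_zero hu0
  set P := scaleDatum ((conjDatum σ d).mul e) c hc0 with hP
  have hū : P.ū = 1 := by
    show (π c * (S.σ d.ū.1 * e.ū.1), π c * (S.σ d.ū.2 * e.ū.2)) = 1
    rw [heu, hc, Sheets.σ_eq_pow, Sheets.σ_eq_pow]
    show (_ * (_ * d.ū.2 ^ q), _ * (_ * d.ū.1 ^ q)) = (1 : k × k)
    rw [← mul_pow, ← mul_pow, mul_comm d.ū.2 d.ū.1, inv_mul_cancel₀ hu0]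
    rfl
  obtain ⟨N, hN⟩ := d.exists_value_ne_zero hm
  have htriv : P.IsTrivial := by
    refine Sheets.Datum.isTrivial_of_witness P hm hū fun u => ?_
    obtain ⟨b, hb, hb1, hb2⟩ := hN N le_rfl (flipNode u)
    have hconj := conjDatum_mem_V σ hm hb
    have hsw := swapDatum_mem_V hm hb
    obtain ⟨p, x, hx, hxv⟩ := hV N ⟨_, hsw.1⟩ hsw
    have hmem := Sheets.Datum.mul_mem_V hm hconj hx
    have hσv : S.evNode N ⟨_, hconj.1⟩ u =
        ((S.evNode N b (flipNode u)).1 ^ q, (S.evNode N b (flipNode u)).2 ^ q) := by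
      refine Prod.ext ?_ ?_
      · exact Pt.apply_sigC u.1 (S.elt b).1
      · exact Pt.apply_sigC (S.flip u.1) (S.elt b).2
    have hswv : S.evNode N ⟨_, hsw.1⟩ u =
        ((S.evNode N b (flipNode u)).2, (S.evNode N b (flipNode u)).1) := by
      refine Prod.ext ?_ rfl
      show (u.1 : S.Pt) _ = S.flip (S.flip u.1) _
      rw [flip_flip]
      rfl
    refine ⟨N + p, ⟨_, hmem.1⟩, hmem, ?_, ?_⟩
    · rw [Sheets.value_mul ⟨_, hconj.1⟩ x ⟨_, hmem.1⟩ rfl u, hxv, hσv, hswv]
      exact mul_comm _ _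
    · rw [Sheets.value_mul ⟨_, hconj.1⟩ x ⟨_, hmem.1⟩ rfl u, hxv, hσv, hswv]
      exact mul_ne_zero (pow_ne_zero q hb1) (pow_ne_zero q hb2)
  have hp : σ.act d.E + (q : ℤ) • actW S d.E ∈ Divisor.principal (K := K) (F := F) := by
    have h := Sheets.Datum.IsTrivial.mem_principal' P hm hmk hū htriv
    rwa [show P.E = σ.act d.E + e.E from rfl, heE,
      show (swapDatum d).E = actW S d.E from rfl] at h
  have hd' : σ.act (d.E - E) ∈ Divisor.principal (K := K) (F := F) := σ.toSemi.act_principal hd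
  have key : σ.act E - ((q : ℤ) * a) • E = σ.act d.E + (q : ℤ) • actW S d.E -
      σ.act (d.E - E) - (q : ℤ) • (actW S d.E + a • d.E) +
      ((q : ℤ) * a) • (d.E - E) := by
    rw [map_sub σ.act d.E E, smul_add, smul_sub, mul_smul, mul_smul]
    abel
  rw [key]
  exact add_mem (sub_mem (sub_mem hp hd') (AddSubgroup.zsmul_mem _ hW _))
    (AddSubgroup.zsmul_mem _ hd _)

end Fermat.Agent.AttachedLocal
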