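import Fermat.Agent.AttachedLocal.Root

/-!
# Best approximations and a criterion for principal classes

A pair which is not a normalised expansion has a best approximation, whose scaled error reduces to
a pair outside the reduced pairs. If the normalised expansion of some function is close enough to
`1` then the linear term of its `m`-th power shows that the class is principal.
-/

set_option autoImplicit false

noncomputable section

namespace Fermat.Agent.AttachedLocal

open HahnSeries AlgebraicCurve ModularCurve Fermat.Agent.Reduction Fermat.Agent.Semistable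

local notation "ℚbar" => AlgebraicClosure ℚ

section Pairs

variable {K k : Type*} [Field K] [Field k] {A : ValuationSubring K} {π : A →+* k}

theorem red2_sum {ι : Type*} (s : Finset ι) {y : ι → Ser2 K} {x : ι → Ser2 k}
    (h : ∀ i ∈ s, Red2 A π (y i) (x i)) : Red2 A π (∑ i ∈ s, y i) (∑ i ∈ s, x i) := by
  classical
  induction s using Finset.induction with
  | empty => simpa using (red2_zero : Red2 A π (0 : Ser2 K) 0)
  | insert a s ha ih =>
    rw [Finset.sum_insert ha, Finset.sum_insert ha]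
    exact (h a (Finset.mem_insert_self a s)).add (ih fun i hi => h i (Finset.mem_insert_of_mem hi))

theorem bdd2_smul {y : Ser2 K} {r : A.ValueGroup} (h : Bdd2 A y r) (c : K) :
    Bdd2 A (c • y) (A.valuation c * r) :=
  ⟨boundedBy_smul h.1 c, boundedBy_smul h.2 c⟩

theorem bdd2_of_red {y : Ser2 K} {c : K} (hc : c ≠ 0) {x : Ser2 k} (h : Red2 A π (c • y) x) :
    Bdd2 A y (A.valuation c)⁻¹ :=
  ⟨boundedBy_inv_of_red hc h.1, boundedBy_inv_of_red hc h.2⟩

theorem smul_pow_ser2 (c : K) (y : Ser2 K) (i : ℕ) : (c • y) ^ i = c ^ i • y ^ i := by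
  refine Prod.ext ?_ ?_ <;>
    simp only [Prod.pow_fst, Prod.pow_snd, Prod.smul_fst, Prod.smul_snd, smul_eq_algebraMap_mul,
      mul_pow, map_pow]

/-- The reduction of a scaled `m`-th power when one term of the binomial expansion dominates. -/
theorem red2_pow_sub_one (hπ : Function.Surjective π) {η : Ser2 K} {e : Ser2 k} {c : K}
    (hc : c ≠ 0) (he : Red2 A π (c • η) e) {m i₀ : ℕ} (hi₀ : 1 ≤ i₀) (hi₀m : i₀ ≤ m) {c' : K}
    {u : A} (hu : c' * (m.choose i₀ : K) = (u : K) * c ^ i₀)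
    (hsmall : ∀ i, 1 ≤ i → i ≤ m → i ≠ i₀ →
      A.valuation (c' * (m.choose i : K)) * (A.valuation c)⁻¹ ^ i < 1) :
    Red2 A π (c' • ((1 + η) ^ m - 1)) (π u • e ^ i₀) := by
  classical
  have hexp : c' • ((1 + η) ^ m - 1) =
      ∑ i ∈ Finset.Icc 1 m, (c' * (m.choose i : K) / c ^ i) • (c • η) ^ i := by
    have hterm : ∀ i, (c' * (m.choose i : K) / c ^ i) • (c • η) ^ i =
        c' • (η ^ i * (m.choose i : Ser2 K)) := fun i => by
      rw [smul_pow_ser2, smul_smul, div_mul_cancel₀ _ (pow_ne_zero i hc)]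
      refine Prod.ext ?_ ?_ <;>
        simp only [Prod.smul_fst, Prod.smul_snd, Prod.fst_mul, Prod.snd_mul, Prod.fst_natCast,
          Prod.snd_natCast, smul_eq_algebraMap_mul, map_mul, map_natCast] <;> ring
    simp only [hterm]
    rw [← Finset.smul_sum]
    congr 1
    rw [add_comm (1 : Ser2 K), add_pow, Finset.range_eq_Ico,
      show Finset.Ico 0 (m + 1) = insert 0 (Finset.Icc 1 m) by
        ext i; simp only [Finset.mem_Ico, Finset.mem_insert, Finset.mem_Icc]; omega,
      Finset.sum_insert (by simp)]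
    simp only [pow_zero, one_pow, mul_one, Nat.choose_zero_right, Nat.cast_one]
    exact add_sub_cancel_left _ _
  rw [hexp, show π u • e ^ i₀ = ∑ i ∈ Finset.Icc 1 m, if i = i₀ then π u • e ^ i₀ else 0 by
    rw [Finset.sum_ite_eq' , if_pos (Finset.mem_Icc.mpr ⟨hi₀, hi₀m⟩)]]
  refine red2_sum _ fun i hi => ?_
  rw [Finset.mem_Icc] at hi
  split_ifs with h
  · subst h
    rw [hu, mul_div_cancel_right₀ _ (pow_ne_zero i hc)]
    exact (he.pow i).smul u
  · have hlt : A.valuation (c' * (m.choose i : K) / c ^ i) < 1 := by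
      rw [map_div₀, map_pow, div_eq_mul_inv, ← inv_pow]
      exact hsmall i hi.1 hi.2 h
    have := (he.pow i).smul (⟨_, (A.valuation_le_one_iff _).mp hlt.le⟩ : A)
    rwa [(residue_eq_zero_iff hπ ⟨_, _⟩).mpr hlt, zero_smul] at this

end Pairs

variable {F k : Type*} [Field F] [Algebra ℚbar F] [Field k] {A : ValuationSubring ℚbar}
  {π : A →+* k} {q : ℕ} [NeZero q] {S : Sheets A π q F} {m : ℕ}

namespace Root

variable (R : Root S m)

theorem T'_injective : Function.Injective R.T' := by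
  rw [injective_iff_map_eq_zero]
  intro f hf
  have h := congrArg Prod.fst (R.s_mul_T' f)
  rw [hf, mul_zero] at h
  exact Sheets.ι_injective (h.symm.trans (map_zero S.ι).symm)

theorem reg_pow_div {n : ℤ} {f : F} (hf : f ∈ S.L R.E n) : S.Reg (f ^ m / R.G) := by
  have h : f ^ m / R.G ∈ S.L ((m : ℤ) • R.E + -((m : ℤ) • R.E)) (m * n) :=
    Sheets.div_mem_L (Sheets.pow_mem_L hf m) R.G_ne fun v => by simp [R.ord_G]
  rw [add_neg_cancel] at h
  exact Sheets.reg_of_mem_L S.neg_zero' h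

/-- The reduction of a scalar multiple of `(T' f) ^ m - 1` is a reduced pair. -/
theorem isCbar_of_red_pow {n : ℤ} {f : F} (hf : f ∈ S.L R.E n) {c : ℚbar} {x : Ser2 k}
    (h : Red2 A π (c • (R.T' f ^ m - 1)) x) : S.IsCbar x := by
  refine ⟨c • (f ^ m / R.G - 1), ((R.reg_pow_div hf).sub Sheets.reg_one).smul c, ?_⟩
  rwa [map_smul, map_sub, S.T_one, ← R.T'_pow]

theorem E_mem_principal_of_T'_eq_one (hm : 0 < m) {g : F} (h : R.T' g = 1) :
    R.E ∈ Divisor.principal (K := ℚbar) (F := F) := by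
  have h1 := R.T'_pow g
  rw [h, one_pow, ← S.T_one] at h1
  have h2 : g ^ m = R.G := by
    have := Sheets.ι_injective (congrArg Prod.fst h1)
    rw [eq_comm, div_eq_one_iff_eq R.G_ne] at this
    exact this
  have hg : g ≠ 0 := fun h0 => R.G_ne (by rw [← h2, h0, zero_pow hm.ne'])
  refine ⟨g⁻¹, inv_ne_zero hg, fun v => ?_⟩
  have h3 := R.ord_G v
  rw [← h2, FF.ord_pow] at h3
  rw [v.ord_inv]
  have hm' : (m : ℤ) ≠ 0 := by exact_mod_cast hm.ne'
  exact mul_left_cancel₀ hm' (by linarith)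

variable [FF.IsFunctionField ℚbar F]

/-- **Best approximation by normalised expansions.** -/
theorem exists_best (har : Arith S) (hq : q.Prime) (n : ℤ) {y : Ser2 ℚbar} (hy₁ : y.1 ∈ numField)
    (hy₂ : y.2 ∈ numField) {b : ℚbar} (hb : Bdd2 A y (A.valuation b))
    (hne : ∀ f ∈ S.L R.E n, R.T' f ≠ y) :
    ∃ f ∈ S.L R.E n, ∃ c : ℚbar, c ≠ 0 ∧ ∃ e : Ser2 k, Red2 A π (c • (R.T' f - y)) e ∧
      e ∉ redPair S.surj R.T' (S.L R.E n) ∧
        ∀ g ∈ S.L R.E n, ∀ r : A.ValueGroup, Bdd2 A (R.T' g - y) r →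
          (A.valuation c)⁻¹ ≤ r := by
  set L := S.L R.E n with hL
  let T₂ : ℚbar × F →ₗ[ℚbar] Ser2 ℚbar :=
    R.T'.comp (LinearMap.snd ℚbar ℚbar F) -
      ((LinearMap.id : ℚbar →ₗ[ℚbar] ℚbar).smulRight y).comp (LinearMap.fst ℚbar ℚbar F)
  have hT₂ : ∀ t f, T₂ (t, f) = R.T' f - t • y := fun t f => rfl
  set V : Submodule ℚbar (ℚbar × F) := (⊤ : Submodule ℚbar ℚbar).prod L with hV
  have hnorm : ∀ (t : ℚbar) (f : F), f ∈ L → R.T' f - t • y ≠ 0 →
      Normalizable2 A π (R.T' f - t • y) := by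
    intro t f hf hne'
    obtain ⟨h1, h2⟩ := R.T'_num har f
    obtain ⟨c, hc, hcb⟩ := R.exists_bdd_T' hf
    obtain ⟨d, hd⟩ :=
      A.valuation_surjective (max (A.valuation c) (A.valuation t * A.valuation b))
    refine normalizable2_of_numField hq har.hA (sub_mem h1 (smul_mem_numField hy₁ t))
      (sub_mem h2 (smul_mem_numField hy₂ t)) hne' (c := d) ?_
      ((hcb.mono (hd ▸ le_max_left _ _)).sub ((bdd2_smul hb t).mono (hd ▸ le_max_right _ _)))
    intro h
    rw [h, map_zero] at hd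
    exact (A.valuation.ne_zero_iff).mpr hc (le_antisymm (hd ▸ le_max_left _ _) zero_le)
  have hN₂ : ∀ x ∈ V, x ≠ 0 → Normalizable2 A π (T₂ x) := by
    rintro ⟨t, f⟩ ⟨-, hf⟩ hx
    rw [hT₂]
    refine hnorm t f hf fun h0 => ?_
    rcases eq_or_ne t 0 with rfl | ht
    · rw [zero_smul, sub_zero] at h0
      exact hx (by rw [R.T'_injective (h0.trans (map_zero R.T').symm)]; rfl)
    · refine hne (t⁻¹ • f) (L.smul_mem _ hf) ?_
      rw [map_smul, sub_eq_zero.mp h0, smul_smul, inv_mul_cancel₀ ht, one_smul]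
  have hN₁ : ∀ f ∈ L, f ≠ 0 → Normalizable2 A π (R.T' f) := fun f hf hf0 => by
    have hne0 : R.T' f - (0 : ℚbar) • y ≠ 0 := by
      rw [zero_smul, sub_zero]
      exact fun h => hf0 (R.T'_injective (h.trans (map_zero R.T').symm))
    have := hnorm 0 f hf hne0
    rwa [zero_smul, sub_zero] at this
  let eV : V ≃ₗ[ℚbar] ℚbar × L :=
    { toFun := fun x => (x.1.1, ⟨x.1.2, x.2.2⟩)
      invFun := fun x => ⟨(x.1, (x.2 : F)), trivial, x.2.2⟩
      map_add' := fun _ _ => rfl
      map_smul' := fun _ _ => rfl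
      left_inv := fun _ => rfl
      right_inv := fun _ => rfl }
  have := Module.Finite.equiv eV.symm
  have hfin : Module.finrank ℚbar V = Module.finrank ℚbar L + 1 := by
    rw [eV.finrank_eq, Module.finrank_prod, Module.finrank_self, add_comm]
  obtain ⟨e, ⟨⟨t, f⟩, ⟨-, hf⟩, he⟩, hnot⟩ :
      ∃ e ∈ redPair S.surj T₂ V, e ∉ redPair S.surj R.T' L := by
    by_contra hcon
    push Not at hcon
    have := finiteDimensional_redPair S.surj R.T' L
    have h := Submodule.finrank_mono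
      (show redPair S.surj T₂ V ≤ redPair S.surj R.T' L from fun x hx => hcon x hx)
    rw [finrank_redPair S.surj T₂ V hN₂, finrank_redPair S.surj R.T' L hN₁, hfin] at h
    omega
  rw [hT₂] at he
  have ht : t ≠ 0 := by
    rintro rfl
    rw [zero_smul, sub_zero] at he
    exact hnot ⟨f, hf, he⟩
  have he' : Red2 A π (t • (R.T' (t⁻¹ • f) - y)) e := by
    rwa [smul_sub, map_smul, smul_smul, mul_inv_cancel₀ ht, one_smul]
  refine ⟨t⁻¹ • f, L.smul_mem _ hf, t, ht, e, he', hnot, fun g hg r hgr => ?_⟩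
  refine not_lt.mp fun hlt => hnot ?_
  have hlt' : A.valuation t * r < 1 := by
    calc A.valuation t * r < A.valuation t * (A.valuation t)⁻¹ :=
          mul_lt_mul_of_pos_left hlt ((Valuation.pos_iff _).mpr ht)
      _ = 1 := mul_inv_cancel₀ ((A.valuation.ne_zero_iff).mpr ht)
  have h := he'.sub ((bdd2_smul hgr t).red2_zero S.surj hlt')
  rw [sub_zero] at h
  refine ⟨t • (t⁻¹ • f - g), L.smul_mem _ (L.sub_mem (L.smul_mem _ hf) hg), ?_⟩
  convert h using 1
  rw [← smul_sub, sub_sub_sub_cancel_right, map_smul, map_sub]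

variable [IsAlgClosed k] [Fact q.Prime] [CharP k q]

/-- **A class with a function close to `1` is principal.** -/
theorem mem_principal_of_close {e : ℕ} (R : Root S (q ^ e)) (har : Arith S) {n : ℤ} {f : F}
    (hf : f ∈ S.L R.E n) {r : A.ValueGroup} (_hr : r ≤ 1) (hb : Bdd2 A (R.T' f - 1) r)
    (hbin : ∀ i, 2 ≤ i → i ≤ q ^ e →
      A.valuation ((q ^ e).choose i : ℚbar) * r ^ (i - 1) < A.valuation ((q ^ e : ℕ) : ℚbar)) :
    R.E ∈ Divisor.principal (K := ℚbar) (F := F) := by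
  have hm : 0 < q ^ e := pow_pos (NeZero.pos q) e
  obtain ⟨N, hN0, hN⟩ := R.exists_redPair_T'
  set n' := max n N with hn'
  have hf' : f ∈ S.L R.E n' := S.L_mono _ (le_max_left _ _) hf
  by_cases hex : ∃ g ∈ S.L R.E n', R.T' g = 1
  · obtain ⟨g, -, hg⟩ := hex
    exact R.E_mem_principal_of_T'_eq_one hm hg
  exfalso
  push Not at hex
  obtain ⟨g, hg, c, hc, x, hx, hxnot, hmin⟩ := R.exists_best har Fact.out n'
    (y := (1 : Ser2 ℚbar)) (one_mem _) (one_mem _) (b := 1)
    (by rw [map_one]; exact ⟨boundedBy_one_one, boundedBy_one_one⟩) hex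
  have hcr := hmin f hf' r hb
  have hmK : ((q ^ e : ℕ) : ℚbar) ≠ 0 := Nat.cast_ne_zero.mpr hm.ne'
  have hred := red2_pow_sub_one S.surj hc hx (m := q ^ e) (i₀ := 1) le_rfl hm
    (c' := c / ((q ^ e : ℕ) : ℚbar)) (u := 1)
    (by rw [Nat.choose_one_right, div_mul_cancel₀ _ hmK]; simp) (fun i h1 h2 h3 => by
      obtain ⟨l, rfl⟩ : ∃ l, i = l + 2 := ⟨i - 2, by omega⟩
      have hvm : 0 < A.valuation ((q ^ e : ℕ) : ℚbar) := (Valuation.pos_iff _).mpr hmK
      rw [map_mul, map_div₀, div_mul_eq_mul_div, div_mul_eq_mul_div, div_lt_one₀ hvm]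
      refine lt_of_le_of_lt ?_ (hbin (l + 2) (by omega) h2)
      rw [show l + 2 - 1 = l + 1 by omega, mul_comm (A.valuation c), mul_assoc,
        pow_succ' _ (l + 1), ← mul_assoc (A.valuation c),
        mul_inv_cancel₀ ((A.valuation.ne_zero_iff).mpr hc), one_mul]
      exact mul_le_mul' le_rfl (pow_le_pow_left₀ zero_le hcr _))
  rw [add_sub_cancel, map_one, one_smul, pow_one] at hred
  have hC := R.isCbar_of_red_pow hg hred
  obtain ⟨hp1, hp2⟩ := R.poleLE_T' hm hg
  have hpx : PoleLE n' x.1 ∧ PoleLE n' x.2 := by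
    refine ⟨hx.1.poleLE fun i hi => ?_, hx.2.poleLE fun i hi => ?_⟩ <;>
    · simp only [Prod.smul_fst, Prod.smul_snd, Prod.fst_sub, Prod.snd_sub, Prod.fst_one,
        Prod.snd_one, coeff_smulC, HahnSeries.coeff_sub, HahnSeries.coeff_one, hp1 i hi, hp2 i hi]
      rw [if_neg (by omega), sub_zero, mul_zero]
  rw [hN n' (le_max_right _ _)] at hxnot
  exact hxnot ⟨⟨⟨hpx.1, hC.mem.1⟩, ⟨hpx.2, hC.mem.2⟩⟩, hC⟩

end Root

end Fermat.Agent.AttachedLocal
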