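import Fermat.Agent.AttachedLocal.Mem

/-!
# Classes on the two sheets

Classes with a datum form a group. They contain `τ D - D` for `τ` in the inertia group and, when
the Kummer function of `D` is an eigenfunction of the norm and of the involution, `φ D - a D` for
a Frobenius element `φ`.
-/

set_option autoImplicit false

noncomputable section

namespace Fermat.Agent.AttachedLocal

open HahnSeries AlgebraicCurve ModularCurve Fermat.Agent.Reduction Fermat.Agent.Semistable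
open Fermat.Agent.LevelLowerP (seriesNorm seriesNorm_mul seriesNorm_C seriesNorm_ne_zero)

variable {K F k : Type*} [Field K] [Field F] [Algebra K F] [Field k] {A : ValuationSubring K}
  {π : A →+* k} {q : ℕ} [NeZero q] {S : Sheets A π q F}

/-! ### Frobenius elements and the involution -/

variable (S) in
/-- An element of the decomposition group acting as the Frobenius of `k`. -/
structure Frob extends Sheets.Semi S where
  res : ∀ a : A, π ⟨τ a, mem a a.2⟩ = S.σ (π a)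

namespace Frob

variable (σ : Frob S)

theorem red {y : LaurentSeries K} {x : LaurentSeries k} (h : Red A π y x) :
    Red A π (coeffMap (σ.τ : K →+* K) y) (coeffMap (S.σ : k →+* k) x) := fun i => by
  obtain ⟨hi, hv⟩ := h i
  exact ⟨σ.mem _ hi, (σ.res ⟨_, hi⟩).trans (congrArg (fun z => S.σ z) hv)⟩

theorem red2 {f : F} {x : Ser2 k} (h : Red2 A π (S.T f) x) :
    Red2 A π (S.T (σ.g f)) (coeffMap (S.σ : k →+* k) x.1, coeffMap (S.σ : k →+* k) x.2) := by
  rw [σ.T_g]
  exact ⟨σ.red h.1, σ.red h.2⟩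

end Frob

variable (S) in
/-- The involution on places. -/
def wPlace : Place K F ≃ Place K F := MulAction.toPerm (SemilinearAut.ofAlgAut S.w)

theorem ord_wPlace (v : Place K F) (f : F) : (wPlace S v).ord (S.w f) = v.ord f :=
  SemilinearAut.ord_smul (SemilinearAut.ofAlgAut S.w) v f

theorem wPlace_inf : wPlace S S.inf = S.zero := place_eq_of_ord fun f => by
  conv_lhs => rw [← S.w_w f]
  rw [ord_wPlace, S.ord_inf, S.ord_zero]

theorem wPlace_zero : wPlace S S.zero = S.inf := place_eq_of_ord fun f => by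
  conv_lhs => rw [← S.w_w f]
  rw [ord_wPlace, S.ord_zero, S.w_w, S.ord_inf]

variable (S) in
/-- The involution on divisors. -/
def actW : Divisor K F →+ Divisor K F := Finsupp.mapDomain.addMonoidHom (wPlace S)

theorem actW_apply (E : Divisor K F) (v : Place K F) : actW S E (wPlace S v) = E v :=
  Finsupp.mapDomain_apply (wPlace S).injective E v

theorem neg_actW {E : Divisor K F} (hE : S.Neg E) : S.Neg (actW S E) := fun v h1 h2 => by
  obtain ⟨v, rfl⟩ := (wPlace S).surjective v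
  rw [actW_apply]
  exact hE v (fun h => h2 (by rw [h, wPlace_inf])) (fun h => h1 (by rw [h, wPlace_zero]))

/-- The eigen relations of a Kummer function. -/
structure Rel (S : Sheets A π q F) (a : ℤ) (m : ℕ) (G : F) : Prop where
  U : ∃ (c : K) (h : F), c ≠ 0 ∧ h ≠ 0 ∧ seriesNorm q (S.ι G) = c • (S.ι G ^ a * S.ι h ^ m)
  W : ∃ (c : K) (h : F), c ≠ 0 ∧ h ≠ 0 ∧ S.w G = algebraMap K F c * G ^ (-a) * h ^ m

variable (S) in
/-- All Kummer functions of a class satisfy the eigen relations. -/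
def RelClass (a : ℤ) (m : ℕ) (D : Divisor K F) : Prop :=
  ∀ (E : Divisor K F) (G : F), E - D ∈ Divisor.principal (K := K) (F := F) → G ≠ 0 →
    (∀ v, v.ord G = -((m : ℤ) * E v)) → Rel S a m G

variable (S) in
/-- The class of `E` lives on the two sheets. -/
def Split (m : ℕ) (E : Divisor K F) : Prop :=
  ∃ d : S.Datum m, d.E - E ∈ Divisor.principal (K := K) (F := F)

theorem exists_eq_const_of_pow_eq [IsAlgClosed k] {y : LaurentSeries k} {c : k} {j : ℕ}
    (hj : 0 < j) (h : y ^ j = algebraMap k (LaurentSeries k) c) :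
    ∃ r : k, algebraMap k (LaurentSeries k) r = y := by
  have hint : IsIntegral k y := IsIntegral.of_pow hj (h ▸ isIntegral_algebraMap)
  exact minpoly.mem_range_of_degree_eq_one k y
    (IsAlgClosed.degree_eq_one_of_irreducible k (minpoly.irreducible hint))

theorem valuation_eq_one_of_red (hπ : Function.Surjective π) {y : LaurentSeries K} {c : K}
    (hc : c ≠ 0) {g h : LaurentSeries k} (hy : Red A π y g) (hcy : Red A π (c • y) h) (hg : g ≠ 0)
    (hh : h ≠ 0) : A.valuation c = 1 := by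
  have key : ∀ {c : K} {y : LaurentSeries K} {g h : LaurentSeries k}, Red A π y g →
      Red A π (c • y) h → g ≠ 0 → A.valuation c ≤ 1 := by
    intro c y g h hy hcy hg
    obtain ⟨i, hi⟩ : ∃ i, g.coeff i ≠ 0 :=
      ⟨g.order, fun h => hg (HahnSeries.coeff_order_eq_zero.mp h)⟩
    have h1 := hy.coeff_valuation_eq_one hπ hi
    have h2 := (A.valuation_le_one_iff _).mpr (hcy.coeff_mem i)
    rwa [coeff_smulC, map_mul, h1, mul_one] at h2
  refine le_antisymm (key hy hcy hg) ?_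
  have h1 := key (c := c⁻¹) hcy (h := g) (by rwa [smul_smul, inv_mul_cancel₀ hc, one_smul]) hh
  rw [map_inv₀] at h1
  exact (inv_le_one₀ ((Valuation.pos_iff _).mpr hc)).mp h1

section FunctionField

variable [FF.IsFunctionField K F] [IsAlgClosed K]

theorem degree_actW (E : Divisor K F) : Divisor.degree (actW S E) = Divisor.degree E := by
  induction E using Finsupp.induction with
  | zero => simp
  | single_add v n E _ _ ih =>
    rw [map_add, map_add, map_add, ih]
    simp [actW, FF.deg_eq_one]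

omit [FF.IsFunctionField K F] [IsAlgClosed K] in
theorem mem_L_actW {E : Divisor K F} {n : ℤ} {f : F} (hf : f ∈ S.L E n) :
    S.w f ∈ S.L (actW S E) n := by
  rw [Sheets.mem_L] at hf ⊢
  intro v
  obtain ⟨v, rfl⟩ := (wPlace S).surjective v
  have hbd : S.bd n (wPlace S v) = S.bd n v := by
    by_cases h1 : v = S.inf
    · subst h1; rw [wPlace_inf, S.bd_zero, S.bd_inf]
    by_cases h2 : v = S.zero
    · subst h2; rw [wPlace_zero, S.bd_zero, S.bd_inf]
    rw [S.bd_of_ne n h1 h2, S.bd_of_ne n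
      (fun h => h2 ((wPlace S).injective (h.trans wPlace_zero.symm)))
      (fun h => h1 ((wPlace S).injective (h.trans wPlace_inf.symm)))]
  rw [Finsupp.add_apply, actW_apply, hbd, ← Finsupp.add_apply]
  rcases eq_or_ne f 0 with rfl | hf0
  · rw [map_zero]; exact Submodule.zero_mem _
  · refine FF.mem_ordGE_of_le_ord _ ?_
    rw [ord_wPlace]
    exact (FF.mem_ordGE_of_ne_zero v hf0).mp (hf v)

omit [FF.IsFunctionField K F] [IsAlgClosed K] in
/-- The involution acts on an eigen class as `-a`. -/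
theorem actW_add_smul_mem_principal {a : ℤ} {m : ℕ} (hm : 0 < m) {G : F} (hG : G ≠ 0)
    {D : Divisor K F} (hord : ∀ v, v.ord G = -((m : ℤ) * D v)) (hrel : Rel S a m G) :
    actW S D + a • D ∈ Divisor.principal (K := K) (F := F) := by
  obtain ⟨c, h, hc, hh, he⟩ := hrel.W
  refine ⟨h⁻¹, inv_ne_zero hh, fun v => ?_⟩
  obtain ⟨u, rfl⟩ := (wPlace S).surjective v
  have h1 : (wPlace S u).ord (S.w G) = (wPlace S u).ord (algebraMap K F c) +
      (-a) * (wPlace S u).ord G + (m : ℤ) * (wPlace S u).ord h := by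
    rw [he, Place.ord_mul _ (mul_ne_zero ((map_ne_zero _).mpr hc) (zpow_ne_zero _ hG))
      (pow_ne_zero m hh), Place.ord_mul _ ((map_ne_zero _).mpr hc) (zpow_ne_zero _ hG),
      Place.ord_zpow, FF.ord_pow]
  rw [ord_wPlace, hord, FF.ord_algebraMap, zero_add, hord] at h1
  rw [Place.ord_inv, Finsupp.add_apply, actW_apply, Finsupp.smul_apply, smul_eq_mul]
  have hm' : (m : ℤ) ≠ 0 := by exact_mod_cast hm.ne'
  refine mul_left_cancel₀ hm' ?_
  linear_combination -h1

/-- The datum of the conjugate class. -/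
def conjDatum {m : ℕ} (σ : Frob S) (d : S.Datum m) : S.Datum m where
  E := σ.act d.E
  G := σ.g d.G
  η := (coeffMap (S.σ : k →+* k) d.η.1, coeffMap (S.σ : k →+* k) d.η.2)
  ū := (S.σ d.ū.1, S.σ d.ū.2)
  neg := σ.neg_act d.neg
  deg := by rw [σ.degree_act, d.deg]
  G_ne := fun h => d.G_ne (σ.g.injective (h.trans (map_zero σ.g).symm))
  ord_G := fun v => by
    obtain ⟨v, rfl⟩ := σ.P.surjective v
    rw [σ.ord_P, σ.act_apply, d.ord_G]
  red_G := by
    have h := σ.red2 d.red_G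
    have e : ∀ (c : k) (x : LaurentSeries k), coeffMap (S.σ : k →+* k) (c • x) =
        S.σ c • coeffMap (S.σ : k →+* k) x := fun c x => by
      simp only [smul_eq_algebraMap_mul, map_mul, coeffMap_algebraMap, RingHom.coe_coe]
    simpa only [scale2, e, Prod.pow_fst, Prod.pow_snd, map_pow] using h
  η₁_mem := S.σ_mem _ d.η₁_mem
  η₂_mem := S.σ_mem _ d.η₂_mem
  η₁_ne := fun h => d.η₁_ne ((coeffMap (S.σ : k →+* k)).injective (h.trans (map_zero _).symm))
  η₂_ne := fun h => d.η₂_ne ((coeffMap (S.σ : k →+* k)).injective (h.trans (map_zero _).symm))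
  u₁_ne := (map_ne_zero S.σ).mpr d.u₁_ne
  u₂_ne := (map_ne_zero S.σ).mpr d.u₂_ne

/-- The datum of the image under the involution. -/
def swapDatum {m : ℕ} (d : S.Datum m) : S.Datum m where
  E := actW S d.E
  G := S.w d.G
  η := d.η.swap
  ū := d.ū.swap
  neg := neg_actW d.neg
  deg := by rw [degree_actW, d.deg]
  G_ne := (map_ne_zero S.w).mpr d.G_ne
  ord_G := fun v => by
    obtain ⟨v, rfl⟩ := (wPlace S).surjective v
    rw [ord_wPlace, actW_apply, d.ord_G]
  red_G := by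
    rw [S.T_w]
    exact d.red_G.swap
  η₁_mem := d.η₂_mem
  η₂_mem := d.η₁_mem
  η₁_ne := d.η₂_ne
  η₂_ne := d.η₁_ne
  u₁_ne := d.u₂_ne
  u₂_ne := d.u₁_ne

namespace Split

variable {m : ℕ} {D E : Divisor K F}

omit [FF.IsFunctionField K F] [IsAlgClosed K] in
theorem congr (h : Split S m E) (hD : E - D ∈ Divisor.principal (K := K) (F := F)) :
    Split S m D := by
  obtain ⟨d, hd⟩ := h
  exact ⟨d, by simpa using add_mem hd hD⟩

omit [FF.IsFunctionField K F] [IsAlgClosed K] in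
theorem add (hD : Split S m D) (hE : Split S m E) : Split S m (D + E) := by
  obtain ⟨d, hd⟩ := hD
  obtain ⟨e, he⟩ := hE
  refine ⟨d.mul e, ?_⟩
  show d.E + e.E - (D + E) ∈ _
  rw [add_sub_add_comm]
  exact add_mem hd he

omit [FF.IsFunctionField K F] [IsAlgClosed K] in
theorem zero : Split S m (0 : Divisor K F) :=
  ⟨{ E := 0
     G := 1
     η := 1
     ū := 1
     neg := S.neg_zero'
     deg := map_zero _
     G_ne := one_ne_zero
     ord_G := fun v => by rw [v.ord_one]; simp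
     red_G := by rw [S.T_one, one_pow, scale2_one]; exact red2_one
     η₁_mem := S.C.one_mem
     η₂_mem := S.C.one_mem
     η₁_ne := one_ne_zero
     η₂_ne := one_ne_zero
     u₁_ne := one_ne_zero
     u₂_ne := one_ne_zero }, by simp⟩

theorem neg [IsAlgClosed k] (hm : 0 < m) (hE : Split S m E) : Split S m (-E) := by
  obtain ⟨d, hd⟩ := hE
  obtain ⟨n, a, ha, ha1, ha2⟩ := d.exists_both hm
  obtain ⟨-, h, hh, hred⟩ := id ha
  obtain ⟨di, hEi, -, -, hh0⟩ := d.exists_inv hh hred ha.1 ha1 ha2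
  refine ⟨di, ?_⟩
  rw [hEi, show -d.E - FF.divOf K h - -E = -(d.E - E) - FF.divOf K h by abel]
  exact sub_mem (neg_mem hd) (Sheets.divOf_mem_principal hh0)

/-- A class of smaller order keeps its datum at that order. -/
theorem drop [IsAlgClosed k] {l j : ℕ} (hj : 0 < j) (h : Split S (l * j) E)
    (hlE : (l : ℤ) • E ∈ Divisor.principal (K := K) (F := F)) : Split S l E := by
  obtain ⟨d, hd⟩ := h
  have hl : -((l : ℤ) • d.E) ∈ Divisor.principal (K := K) (F := F) := by
    rw [show d.E = d.E - E + E by abel, smul_add, neg_mem_iff]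
    exact add_mem (AddSubgroup.zsmul_mem _ hd _) hlE
  obtain ⟨G₀, hG₀, hordG₀⟩ := hl
  have hordG₀' : ∀ v, v.ord G₀ = -((l : ℤ) * d.E v) := fun v => by
    rw [← hordG₀ v]; simp
  obtain ⟨c, hc⟩ := Kummer.exists_algebraMap_eq (K := K) (u := d.G / G₀ ^ j) fun v => by
    rw [FF.ord_div v d.G_ne (pow_ne_zero j hG₀), FF.ord_pow, d.ord_G, hordG₀']
    push_cast
    ring
  have hc0 : c ≠ 0 := fun h => by
    rw [h, map_zero, eq_comm, div_eq_zero_iff] at hc
    exact hc.elim d.G_ne (pow_ne_zero j hG₀)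
  obtain ⟨c₀, hc₀⟩ := IsAlgClosed.exists_pow_nat_eq c hj
  have hc₀0 : c₀ ≠ 0 := fun h => hc0 (by rw [← hc₀, h, zero_pow hj.ne'])
  set G := algebraMap K F c₀ * G₀ with hG
  have hGne : G ≠ 0 := mul_ne_zero ((map_ne_zero _).mpr hc₀0) hG₀
  have hGj : G ^ j = d.G := by
    rw [hG, mul_pow, ← map_pow, hc₀, hc, div_mul_cancel₀ _ (pow_ne_zero j hG₀)]
  have hord : ∀ v, v.ord G = -((l : ℤ) * d.E v) := fun v => by
    rw [hG, v.ord_mul ((map_ne_zero _).mpr hc₀0) hG₀, FF.ord_algebraMap, zero_add, hordG₀']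
  have hreg : S.Reg G := fun v h1 h2 => by
    refine FF.mem_ordGE_of_le_ord v ?_
    rw [hord]
    nlinarith [d.neg v h1 h2, Int.natCast_nonneg l]
  have key : ∀ {y : LaurentSeries K} {u : k} {η : LaurentSeries k}, Normalizable A π y → u ≠ 0 →
      η ≠ 0 → Red A π (y ^ j) (u • η ^ (l * j)) →
      ∃ u' : k, u' ≠ 0 ∧ Red A π y (u' • η ^ l) := by
    intro y u η hy hu hη hred
    obtain ⟨e, he, x, hx, hex⟩ := hy
    have hne : u • η ^ (l * j) ≠ 0 := by
      rw [smul_eq_algebraMap_mul]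
      exact mul_ne_zero ((map_ne_zero _).mpr hu) (pow_ne_zero _ hη)
    have hex' : Red A π (e ^ j • y ^ j) (x ^ j) := by
      have := hex.pow j
      rwa [smul_eq_algebraMap_mul, mul_pow, ← map_pow, ← smul_eq_algebraMap_mul] at this
    have hv : A.valuation (e⁻¹) = 1 := by
      have h1 := valuation_eq_one_of_red S.surj (pow_ne_zero j he) hred hex' hne (pow_ne_zero j hx)
      rw [map_pow] at h1
      rw [map_inv₀, (pow_left_inj₀ zero_le zero_le hj.ne').mp (h1.trans (one_pow j).symm), inv_one]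
    have hmem : e⁻¹ ∈ A := (A.valuation_le_one_iff _).mp hv.le
    have hred' : Red A π y (π ⟨_, hmem⟩ • x) := by
      have := hex.smul (⟨_, hmem⟩ : A)
      rwa [smul_smul, inv_mul_cancel₀ he, one_smul] at this
    have heq := (hred'.pow j).unique hred
    obtain ⟨r, hr⟩ := exists_eq_const_of_pow_eq (c := u) hj
      (y := π ⟨_, hmem⟩ • x / η ^ l) (by
        rw [div_pow, heq, ← pow_mul, smul_eq_algebraMap_mul,
          mul_div_cancel_right₀ _ (pow_ne_zero _ hη)])
    have hxr : π ⟨_, hmem⟩ • x = r • η ^ l := by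
      rw [smul_eq_algebraMap_mul r, hr, div_mul_cancel₀ _ (pow_ne_zero _ hη)]
    refine ⟨r, fun h => ?_, hxr ▸ hred'⟩
    rw [h, zero_smul, smul_eq_algebraMap_mul, mul_eq_zero, map_eq_zero] at hxr
    exact hxr.elim ((residue_ne_zero_iff S.surj _).mpr hv) hx
  have hred := d.red_G
  rw [← hGj, S.T_pow] at hred
  obtain ⟨u₁, hu₁, r₁⟩ := key (S.normalizable G hreg hGne) d.u₁_ne d.η₁_ne hred.1
  obtain ⟨u₂, hu₂, r₂⟩ := key (S.normalizable _ (Sheets.Reg.apply_w hreg)
    ((map_ne_zero S.w).mpr hGne)) d.u₂_ne d.η₂_ne hred.2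
  exact ⟨{ d with G := G, ū := (u₁, u₂), G_ne := hGne, ord_G := hord, red_G := ⟨r₁, r₂⟩,
                  u₁_ne := hu₁, u₂_ne := hu₂ }, hd⟩

end Split

variable {m : ℕ}

/-- **`τ D - D` lives on the two sheets.** -/
theorem split_inertia (σ : S.Inertia) {D : Divisor K F} (hdeg : Divisor.degree D = 0)
    (hD : (m : ℤ) • D ∈ Divisor.principal (K := K) (F := F)) : Split S m (σ.act D - D) := by
  obtain ⟨h₀, hh₀, hneg⟩ := S.exists_neg_rep D
  set D₁ := D - FF.divOf K h₀ with hD₁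
  have hdeg₁ : Divisor.degree D₁ = 0 := by rw [hD₁, map_sub, hdeg, FF.degree_divOf, sub_zero]
  have hmD : -((m : ℤ) • D₁) ∈ Divisor.principal (K := K) (F := F) := by
    rw [hD₁, smul_sub, neg_sub]
    exact sub_mem (AddSubgroup.zsmul_mem _ (Sheets.divOf_mem_principal hh₀) _) hD
  obtain ⟨G, hG, hGD⟩ := hmD
  obtain ⟨d, h₁, hh₁, hd⟩ := σ.exists_datum (m := m) hneg hdeg₁ hG fun v => by
    rw [← hGD v]; simp
  refine ⟨d, ?_⟩
  rw [hd, hD₁, map_sub]
  have : σ.act D - σ.act (FF.divOf K h₀) - (D - FF.divOf K h₀) - FF.divOf K h₁ - (σ.act D - D) =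
      -(σ.act (FF.divOf K h₀) - FF.divOf K h₀ + FF.divOf K h₁) := by abel
  rw [this]
  exact neg_mem (add_mem (sub_mem (σ.act_principal (Sheets.divOf_mem_principal hh₀))
    (Sheets.divOf_mem_principal hh₀)) (Sheets.divOf_mem_principal hh₁))

/-- The relation between the normalised reductions of an eigen relation. -/
theorem lead_rel [IsAlgClosed k] {y z : LaurentSeries K} {g g' : LaurentSeries k}
    (hy : Lead A π y g) (hz : Lead A π z g') {a : ℤ} (ha : a = 1 ∨ a = -1) {c : K} (hc : c ≠ 0)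
    {h : F} (hh : h ≠ 0) (he : z = c • (y ^ a * S.ι h ^ m)) :
    ∃ κ : k, κ ≠ 0 ∧ ∃ ξ, InFracC S ξ ∧ ξ ≠ 0 ∧ g' = κ • (g ^ a * ξ ^ m) := by
  obtain ⟨u, hu, hru, hrhu⟩ := exists_clear S hh
  obtain ⟨e, hle, heF⟩ := exists_lead hru hu
  obtain ⟨e', hle', he'F⟩ := exists_lead hrhu (mul_ne_zero hh hu)
  have hy0 : y ≠ 0 := by
    rintro rfl
    obtain ⟨hg, d, -, hd⟩ := hy
    rw [smul_zero] at hd
    exact hg (hd.unique red_zero)
  have he0 : e ≠ 0 := hle.1
  refine ?_
  rw [map_mul] at hle'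
  rcases ha with rfl | rfl
  · have h1 : z * S.ι u ^ m = c • (y * (S.ι h * S.ι u) ^ m) := by
      rw [he, zpow_one, smul_eq_algebraMap_mul, smul_eq_algebraMap_mul, mul_pow]; ring
    obtain ⟨κ, hκ, hκe⟩ := ((hy.mul (hle'.pow m)).smul hc).exists_eq_smul S.surj
      (h1 ▸ hz.mul (hle.pow m))
    refine ⟨κ, hκ, e' / e, ?_, div_ne_zero hle'.1 he0, ?_⟩
    · rw [div_eq_mul_inv]; exact he'F.mul (heF.inv he0)
    · rw [smul_eq_algebraMap_mul] at hκe ⊢
      rw [zpow_one, div_pow, mul_div, mul_div, eq_div_iff (pow_ne_zero m he0)]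
      exact hκe
  · have h1 : z * y * S.ι u ^ m = c • (S.ι h * S.ι u) ^ m := by
      rw [he, zpow_neg_one, smul_eq_algebraMap_mul, smul_eq_algebraMap_mul, mul_pow]
      field_simp
    obtain ⟨κ, hκ, hκe⟩ := ((hle'.pow m).smul hc).exists_eq_smul S.surj
      (h1 ▸ (hz.mul hy).mul (hle.pow m))
    refine ⟨κ, hκ, e' / e, ?_, div_ne_zero hle'.1 he0, ?_⟩
    · rw [div_eq_mul_inv]; exact he'F.mul (heF.inv he0)
    · rw [smul_eq_algebraMap_mul] at hκe ⊢
      have := hy.1
      rw [zpow_neg_one, div_pow]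
      field_simp
      linear_combination hκe

/-- The datum of `φ D + w D`. -/
theorem exists_frob_datum [IsAlgClosed k] [Fact q.Prime] [CharP k q] (σ : Frob S) (hm : 0 < m)
    {a : ℤ} (ha : a = 1 ∨ a = -1) {D : Divisor K F} (hD : S.Neg D)
    (hdeg : Divisor.degree D = 0) {G : F} (hG : G ≠ 0)
    (hordG : ∀ v, v.ord G = -((m : ℤ) * D v)) (hrel : Rel S a m G) :
    ∃ d : S.Datum m, d.E = σ.act D + actW S D := by
  have hregG : S.Reg G := fun v h1 h2 => by
    refine FF.mem_ordGE_of_le_ord v ?_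
    rw [hordG]
    nlinarith [hD v h1 h2, Int.natCast_nonneg m]
  obtain ⟨c₁, hc₁, g₁, hg₁, hcg₁⟩ := S.normalizable G hregG hG
  obtain ⟨c₂, hc₂, g₂, hg₂, hcg₂⟩ :=
    S.normalizable _ (Sheets.Reg.apply_w hregG) ((map_ne_zero S.w).mpr hG)
  have hl₁ : Lead A π (S.ι G) g₁ := ⟨hg₁, c₁, hc₁, hcg₁⟩
  have hl₂ : Lead A π (S.ι (S.w G)) g₂ := ⟨hg₂, c₂, hc₂, hcg₂⟩
  have hσ0 : ∀ {x : LaurentSeries k}, x ≠ 0 → coeffMap (S.σ : k →+* k) x ≠ 0 := fun {x} hx h =>
    hx ((coeffMap (S.σ : k →+* k)).injective (h.trans (map_zero _).symm))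
  obtain ⟨cU, hU, hcU, hhU, eU⟩ := hrel.U
  have hN := hl₁.seriesNorm (q := q) (seriesNorm_ne_zero q hg₁)
  rw [seriesNorm_eq_coeffMap (S.σ : k →+* k) S.frob_eq] at hN
  obtain ⟨κ₁, hκ₁, ξ, hξF, hξ0, e₁⟩ := lead_rel hl₁ hN ha hcU hhU eU
  obtain ⟨cW, hW, hcW, hhW, eW⟩ := hrel.W
  obtain ⟨κ₂, hκ₂, ξ', hξ'F, hξ'0, e₂⟩ := lead_rel hl₁ hl₂ (a := -a)
    (by rcases ha with rfl | rfl <;> simp) hcW hhW (by
      rw [eW, map_mul, map_mul, map_pow, map_zpow₀, AlgHom.commutes, smul_eq_algebraMap_mul,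
        mul_assoc])
  have hτ : ∀ {c : K}, c ≠ 0 → σ.τ c ≠ 0 := fun hc => (map_ne_zero σ.τ).mpr hc
  set c := σ.τ c₁ * c₂ with hc
  have hc0 : c ≠ 0 := mul_ne_zero (hτ hc₁) hc₂
  have hu : A.valuation (c / (σ.τ c₂ * c₁)) = 1 := by
    rw [hc, map_div₀, map_mul, map_mul, σ.val, σ.val, mul_comm (A.valuation c₂), div_self]
    exact mul_ne_zero ((A.valuation.ne_zero_iff).mpr hc₁) ((A.valuation.ne_zero_iff).mpr hc₂)
  have humem : c / (σ.τ c₂ * c₁) ∈ A := (A.valuation_le_one_iff _).mp hu.le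
  have hgG : σ.g G ≠ 0 := fun h' => hG (σ.g.injective (h'.trans (map_zero σ.g).symm))
  set G₁ : F := algebraMap K F c * (σ.g G * S.w G) with hG₁
  have hG₁0 : G₁ ≠ 0 :=
    mul_ne_zero ((map_ne_zero _).mpr hc0) (mul_ne_zero hgG ((map_ne_zero S.w).mpr hG))
  set u := π ⟨_, humem⟩ with huu
  have hu0 : u ≠ 0 := (residue_ne_zero_iff S.surj _).mpr hu
  have hred : Red2 A π (S.T G₁)
      (coeffMap (S.σ : k →+* k) g₁ * g₂, u • (coeffMap (S.σ : k →+* k) g₂ * g₁)) := by
    refine ⟨?_, ?_⟩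
    · convert (σ.red hcg₁).mul hcg₂ using 1
      simp only [hG₁, Sheets.T_fst, map_mul, AlgHom.commutes, σ.ι_g, hc, smul_eq_algebraMap_mul,
        coeffMap_algebraMap, RingHom.coe_coe]
      ring
    · convert ((σ.red hcg₂).mul hcg₁).smul (⟨_, humem⟩ : A) using 1
      simp only [hG₁, Sheets.T_snd, map_mul, AlgEquiv.commutes, AlgHom.commutes, σ.w_g, σ.ι_g,
        S.w_w, smul_eq_algebraMap_mul, coeffMap_algebraMap, RingHom.coe_coe]
      have h1 : algebraMap K (LaurentSeries K) (c / (σ.τ c₂ * c₁)) *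
          algebraMap K (LaurentSeries K) (σ.τ c₂) * algebraMap K (LaurentSeries K) c₁ =
          algebraMap K (LaurentSeries K) c := by
        rw [← map_mul, ← map_mul, mul_assoc,
          div_mul_cancel₀ _ (mul_ne_zero (hτ hc₂) hc₁)]
      linear_combination -(coeffMap (σ.τ : K →+* K) (S.ι (S.w G)) * S.ι G) * h1
  have hreg₁ : S.Reg G₁ :=
    Sheets.Reg.mul (Sheets.reg_algebraMap c) (Sheets.Reg.mul (fun v h1 h2 => by
      refine FF.mem_ordGE_of_le_ord v ?_
      obtain ⟨w, rfl⟩ := σ.P.surjective v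
      rw [σ.ord_P, hordG]
      have := hD w (fun h => h1 (by rw [h, σ.P_inf])) (fun h => h2 (by rw [h, σ.P_zero]))
      nlinarith [Int.natCast_nonneg m]) (Sheets.Reg.apply_w hregG))
  obtain ⟨hmem₁, hmem₂⟩ := hreg₁.red_mem hred
  set η₁ := ξ * ξ' with hη₁
  set η₂ := ξ ^ (-a) * coeffMap (S.σ : k →+* k) ξ' with hη₂
  have haa : a * a = 1 := by rcases ha with rfl | rfl <;> norm_num
  have r₁ : coeffMap (S.σ : k →+* k) g₁ * g₂ = (κ₁ * κ₂) • η₁ ^ m := by
    rw [e₁, e₂, hη₁, smul_eq_algebraMap_mul, smul_eq_algebraMap_mul, smul_eq_algebraMap_mul,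
      zpow_neg, map_mul, mul_pow]
    field_simp [zpow_ne_zero a hg₁]
  have r₂ : coeffMap (S.σ : k →+* k) g₂ * g₁ = (S.σ κ₂ * κ₁ ^ (-a)) • η₂ ^ m := by
    rw [e₂, smul_eq_algebraMap_mul, map_mul, map_mul, map_zpow₀, map_pow, coeffMap_algebraMap,
      RingHom.coe_coe, e₁, smul_eq_algebraMap_mul, smul_eq_algebraMap_mul, mul_zpow, mul_zpow,
      ← zpow_mul, mul_neg, haa, zpow_neg_one, map_mul, map_zpow₀, hη₂, mul_pow,
      ← zpow_natCast (ξ ^ (-a)) m, ← zpow_mul, ← zpow_natCast ξ m, ← zpow_mul, mul_comm (m : ℤ)]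
    field_simp
  have hCmem : ∀ {κ : k} {η : LaurentSeries k}, κ ≠ 0 → InFracC S η → κ • η ^ m ∈ S.C →
      η ∈ S.C := fun {κ η} hκ hη h => by
    refine hη.mem_of_pow hm ?_
    have h' := Sheets.mem_of_scale (S := S) (c := κ⁻¹) h
    rwa [smul_smul, inv_mul_cancel₀ hκ, one_smul] at h'
  have hk₂ : S.σ κ₂ * κ₁ ^ (-a) ≠ 0 := mul_ne_zero ((map_ne_zero S.σ).mpr hκ₂) (zpow_ne_zero _ hκ₁)
  simp only [r₁, r₂, smul_smul] at hred hmem₁ hmem₂
  refine ⟨
    { E := σ.act D + actW S D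
      G := G₁
      η := (η₁, η₂)
      ū := (κ₁ * κ₂, u * (S.σ κ₂ * κ₁ ^ (-a)))
      neg := fun v h1 h2 => by
        have := σ.neg_act hD v h1 h2
        have := neg_actW hD v h1 h2
        rw [Finsupp.add_apply]
        omega
      deg := by rw [map_add, σ.degree_act, degree_actW, hdeg, add_zero]
      G_ne := hG₁0
      ord_G := fun v => by
        rw [hG₁, v.ord_mul ((map_ne_zero _).mpr hc0) (mul_ne_zero hgG ((map_ne_zero S.w).mpr hG)),
          FF.ord_algebraMap, zero_add, v.ord_mul hgG ((map_ne_zero S.w).mpr hG)]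
        have e1 : v.ord (σ.g G) = -((m : ℤ) * σ.act D v) := by
          obtain ⟨w, rfl⟩ := σ.P.surjective v
          rw [σ.ord_P, hordG, σ.act_apply]
        have e2 : v.ord (S.w G) = -((m : ℤ) * actW S D v) := by
          obtain ⟨w, rfl⟩ := (wPlace S).surjective v
          rw [ord_wPlace, hordG, actW_apply]
        rw [e1, e2, Finsupp.add_apply]
        ring
      red_G := hred
      η₁_mem := hCmem (mul_ne_zero hκ₁ hκ₂) (hξF.mul hξ'F) hmem₁
      η₂_mem := hCmem (mul_ne_zero hu0 hk₂) ((hξF.zpow hξ0 _).mul hξ'F.coeffMap) hmem₂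
      η₁_ne := mul_ne_zero hξ0 hξ'0
      η₂_ne := mul_ne_zero (zpow_ne_zero _ hξ0) (hσ0 hξ'0)
      u₁_ne := mul_ne_zero hκ₁ hκ₂
      u₂_ne := mul_ne_zero hu0 hk₂ }, rfl⟩

/-- **`φ D - a D` lives on the two sheets.** -/
theorem split_frob [IsAlgClosed k] [Fact q.Prime] [CharP k q] (σ : Frob S) (hm : 0 < m) {a : ℤ}
    (ha : a = 1 ∨ a = -1) {D : Divisor K F} (hdeg : Divisor.degree D = 0)
    (hD : (m : ℤ) • D ∈ Divisor.principal (K := K) (F := F)) (hrel : RelClass S a m D) :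
    Split S m (σ.act D - a • D) := by
  obtain ⟨h₀, hh₀, hneg⟩ := S.exists_neg_rep D
  set D₁ := D - FF.divOf K h₀ with hD₁
  have hdeg₁ : Divisor.degree D₁ = 0 := by rw [hD₁, map_sub, hdeg, FF.degree_divOf, sub_zero]
  have hp : D₁ - D ∈ Divisor.principal (K := K) (F := F) := by
    rw [hD₁, sub_sub_cancel_left]; exact neg_mem (Sheets.divOf_mem_principal hh₀)
  have hmD : -((m : ℤ) • D₁) ∈ Divisor.principal (K := K) (F := F) := by
    rw [hD₁, smul_sub, neg_sub]
    exact sub_mem (AddSubgroup.zsmul_mem _ (Sheets.divOf_mem_principal hh₀) _) hD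
  obtain ⟨G, hG, hGD⟩ := hmD
  have hord : ∀ v, v.ord G = -((m : ℤ) * D₁ v) := fun v => by rw [← hGD v]; simp
  have hR := hrel D₁ G hp hG hord
  obtain ⟨d, hd⟩ := exists_frob_datum σ hm ha hneg hdeg₁ hG hord hR
  refine ⟨d, ?_⟩
  have hW := actW_add_smul_mem_principal hm hG hord hR
  rw [hd, show σ.act D₁ + actW S D₁ - (σ.act D - a • D) =
      σ.act (D₁ - D) + (actW S D₁ + a • D₁) - a • (D₁ - D) by
        rw [map_sub σ.act D₁ D, smul_sub a D₁ D]; abel]
  exact sub_mem (add_mem (σ.toSemi.act_principal hp) hW) (AddSubgroup.zsmul_mem _ hp _)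

end FunctionField

end Fermat.Agent.AttachedLocal
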