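import Fermat.Agent.GalRep.Coeff
import Mathlib.RingTheory.AdicCompletion.Noetherian
import Mathlib.LinearAlgebra.FreeModule.PID

/-!
# Vectors over a finite extension of `ℤ_p` read modulo powers of `p`
-/

set_option autoImplicit false

noncomputable section

namespace Fermat.Agent.AttachedLocal

open IsLocalRing Matrix

/-- A complete discrete valuation ring of residue characteristic `p` and characteristic zero with
finite residue field is finite over `ℤ_p`. -/
theorem moduleFinite_padicInt (p : ℕ) [Fact p.Prime] (O : Type) [CommRing O] [IsDomain O]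
    [IsDiscreteValuationRing O] [IsAdicComplete (maximalIdeal O) O] [Finite (ResidueField O)]
    [CharZero O] [Algebra ℤ_[p] O] (hp : (p : O) ∈ maximalIdeal O) : Module.Finite ℤ_[p] O := by
  classical
  obtain ⟨ϖ, hϖ⟩ := IsDiscreteValuationRing.exists_irreducible O
  obtain ⟨e, he⟩ := IsDiscreteValuationRing.ideal_eq_span_pow_irreducible
    (Ideal.span_singleton_eq_bot.not.mpr
      (Nat.cast_ne_zero.mpr (Fact.out : p.Prime).ne_zero : (p : O) ≠ 0)) hϖ
  have hspan : Ideal.span {(p : O)} = maximalIdeal O ^ e := by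
    rw [he, hϖ.maximalIdeal_eq, Ideal.span_singleton_pow]
  have : Finite (O ⧸ maximalIdeal O) := ‹Finite (ResidueField O)›
  have := Ideal.finite_quotient_pow (IsNoetherian.noetherian (maximalIdeal O)) e
  rw [← hspan] at this
  obtain ⟨d, ⟨eqv⟩⟩ := Finite.exists_equiv_fin (O ⧸ Ideal.span {(p : O)})
  choose rep hrep using fun j => Ideal.Quotient.mk_surjective (eqv.symm j)
  let f : (Fin d → ℤ_[p]) →ₗ[ℤ_[p]] O := Fintype.linearCombination ℤ_[p] rep
  refine Module.Finite.of_surjective f ?_
  let I : Ideal ℤ_[p] := Ideal.span {(p : ℤ_[p])}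
  have hI : (I • ⊤ : Submodule ℤ_[p] O) = (Ideal.span {(p : O)}).restrictScalars ℤ_[p] := by
    rw [Ideal.smul_top_eq_map, Ideal.map_span, Set.image_singleton, map_natCast]
  have : IsHausdorff I O := ⟨fun x hx => IsHausdorff.haus (I := maximalIdeal O) inferInstance x
    fun n => by
      have h := hx n
      rw [SModEq.zero, Ideal.smul_top_eq_map, Ideal.map_pow, Ideal.map_span, Set.image_singleton,
        map_natCast] at h
      rw [SModEq.zero, smul_eq_mul, Ideal.mul_top]
      exact Ideal.pow_right_mono ((Ideal.span_singleton_le_iff_mem _).mpr hp) n h⟩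
  have : IsAdicComplete I ℤ_[p] := by
    have h := (inferInstance : IsAdicComplete (maximalIdeal ℤ_[p]) ℤ_[p])
    rwa [PadicInt.maximalIdeal_eq_span_p] at h
  have : IsPrecomplete I (Fin d → ℤ_[p]) := ⟨fun v hv => by
    have hc : ∀ j, ∃ L : ℤ_[p], ∀ m, v m j ≡ L [SMOD (I ^ m • ⊤ : Submodule ℤ_[p] ℤ_[p])] :=
      fun j => IsPrecomplete.prec inferInstance fun {m m'} hmm => by
        have h := hv hmm
        rw [SModEq.sub_mem] at h ⊢
        have := Submodule.mem_map_of_mem
          (f := (LinearMap.proj j : (Fin d → ℤ_[p]) →ₗ[ℤ_[p]] ℤ_[p])) h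
        rw [Submodule.map_smul''] at this
        exact Submodule.smul_mono le_rfl le_top this
    choose L hL using hc
    refine ⟨L, fun m => ?_⟩
    rw [SModEq.sub_mem, ← Finset.univ_sum_single (v m - L)]
    refine Submodule.sum_mem _ fun j _ => ?_
    have := Submodule.mem_map_of_mem
      (f := LinearMap.single ℤ_[p] (fun _ : Fin d => ℤ_[p]) j) (SModEq.sub_mem.mp (hL j m))
    rw [Submodule.map_smul''] at this
    exact Submodule.smul_mono le_rfl le_top this⟩
  refine surjective_of_mkQ_comp_surjective (I := I) fun y => ?_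
  obtain ⟨x, rfl⟩ := Submodule.mkQ_surjective _ y
  refine ⟨Pi.single (eqv (Ideal.Quotient.mk _ x)) 1, ?_⟩
  rw [LinearMap.comp_apply, Submodule.mkQ_apply, Submodule.mkQ_apply, Submodule.Quotient.eq, hI,
    Submodule.restrictScalars_mem, ← Ideal.Quotient.eq]
  simp [f, Fintype.linearCombination_apply_single, hrep]

variable {p : ℕ} [Fact p.Prime] {O : Type} [CommRing O] [Algebra ℤ_[p] O] {ι : Type*}
  (b : Module.Basis ι ℤ_[p] O) {d : ℕ}

/-- The `i`-th coordinate of a vector, modulo `p ^ n`. -/
def coordVec (i : ι) (n : ℕ) : (Fin d → O) →+ (Fin d → ZMod (p ^ n)) where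
  toFun v := fun k => PadicInt.toZModPow n (b.repr (v k) i)
  map_zero' := funext fun k => by simp
  map_add' v w := funext fun k => by simp

theorem coordVec_apply (i : ι) (n : ℕ) (v : Fin d → O) (k : Fin d) :
    coordVec b i n v k = PadicInt.toZModPow n (b.repr (v k) i) := rfl

theorem coordVec_mulVec (i : ι) (n : ℕ) (X : Matrix (Fin d) (Fin d) ℤ_[p]) (v : Fin d → O) :
    coordVec b i n (X.map (algebraMap ℤ_[p] O) *ᵥ v) =
      (PadicInt.toZModPow n).mapMatrix X *ᵥ coordVec b i n v := by
  funext k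
  simp only [coordVec_apply, Matrix.mulVec, dotProduct, Matrix.map_apply, RingHom.mapMatrix_apply]
  simp only [← Algebra.smul_def, map_sum, map_smul, Finsupp.coe_finsetSum, Finset.sum_apply,
    Finsupp.smul_apply, smul_eq_mul, map_mul]

theorem coordVec_intMat {d' : ℕ} (i : ι) (n : ℕ) (X : Matrix (Fin d') (Fin d) ℤ)
    (v : Fin d → O) :
    coordVec b i n (X.map (Int.cast : ℤ → O) *ᵥ v) =
      X.map (Int.cast : ℤ → ZMod (p ^ n)) *ᵥ coordVec b i n v := by
  funext k
  simp only [coordVec_apply, Matrix.mulVec, dotProduct, Matrix.map_apply]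
  simp only [← zsmul_eq_mul, map_sum, map_zsmul, Finsupp.coe_finsetSum, Finset.sum_apply,
    Finsupp.smul_apply]

theorem coordVec_natSmul (i : ι) (n : ℕ) (c : ℕ) (v : Fin d → O) :
    coordVec b i n ((c : O) • v) = c • coordVec b i n v := by
  rw [← map_nsmul, Nat.cast_smul_eq_nsmul]

theorem coordVec_cast (i : ι) {n n' : ℕ} (h : n ≤ n') (v : Fin d → O) :
    (ZMod.castHom (pow_dvd_pow p h) (ZMod (p ^ n))) ∘ coordVec b i n' v = coordVec b i n v := by
  funext k
  exact DFunLike.congr_fun (PadicInt.zmod_cast_comp_toZModPow n n' h) (b.repr (v k) i)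

theorem eq_zero_of_coordVec_eq_zero {v : Fin d → O} (h : ∀ i n, coordVec b i n v = 0) : v = 0 := by
  funext k
  refine b.repr.injective (Finsupp.ext fun i => ?_)
  rw [Pi.zero_apply, map_zero, Finsupp.zero_apply]
  exact PadicInt.ext_of_toZModPow.mp fun n => by
    rw [map_zero]; exact congrFun (h i n) k

/-- A vector whose coordinates all vanish modulo `p ^ n` is divisible by `p ^ n`. -/
theorem mem_span_of_coordVec_eq_zero [Fintype ι] {n : ℕ} {v : Fin d → O}
    (h : ∀ i, coordVec b i n v = 0) (k : Fin d) : v k ∈ Ideal.span {(p : O) ^ n} := by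
  rw [← b.sum_repr (v k)]
  refine sum_mem fun i _ => ?_
  have h1 : b.repr (v k) i ∈ Ideal.span {(p : ℤ_[p]) ^ n} := by
    rw [← PadicInt.ker_toZModPow, RingHom.mem_ker]
    exact congrFun (h i) k
  obtain ⟨c, hc⟩ := Ideal.mem_span_singleton'.mp h1
  rw [Algebra.smul_def, ← hc, map_mul, map_pow, map_natCast, mul_comm (algebraMap ℤ_[p] O c),
    mul_assoc]
  exact Ideal.mul_mem_right _ _ (Ideal.mem_span_singleton_self _)

end Fermat.Agent.AttachedLocal
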