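import Fermat.Agent.AttachedLocal.Classes
import Fermat.Agent.LevelLowerP.ArithPointData

/-!
# New eigen classes of `J₀(M q)` at a place over `q`

The Kummer functions of a torsion class killed by the trace to level `M`, on which the involution
is `-a`, are eigenfunctions of the norm and of the involution on the two sheets.
-/

set_option autoImplicit false

noncomputable section

open CongruenceSubgroup ModularCurve AlgebraicCurve Matrix
open scoped MatrixGroups

namespace Fermat.Agent.AttachedLocal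

open Fermat.Agent.Kummer Fermat.Agent.Kummer.MeroH
open Fermat.Agent.Cosets (parEllHoms parCoord homRank parCoord_apply)
open Fermat.Agent.Ihara
open Fermat.Agent.GalRep (torsCoord parCoord_torsCoord)
open Fermat.Agent.Semistable (LevelData ALData wEquiv)
open Fermat.Agent.LevelLowerP (seriesNorm twist_zsmul twist_wSys corSys_twist
  embed_wEquiv exists_embed_eq_uSys exists_eq_zpow_mul_pow det_uRep coe_zpow_fun)

local notation "ℚbar" => AlgebraicClosure ℚ

/-- A correspondence with an eigen coordinate vector acts by a scalar on the Kummer class. -/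
theorem op_kummer_eq_zsmul {N n : ℕ} [NeZero N] [NeZero n] {ι : Type*} [Fintype ι]
    (S : CosetSys (Gamma0 N) (Gamma0 N) ι) {x : Tors N n} {c : ℤ}
    (h : (opMat S).map (Int.cast : ℤ → ZMod n) *ᵥ torsCoord N n x = c • torsCoord N n x) :
    S.op ℤ (ZMod n) (kummer N n x : Additive (Gamma0 N) →+ ZMod n) =
      c • (kummer N n x : Additive (Gamma0 N) →+ ZMod n) := by
  have hφ : (kummer N n x : Additive (Gamma0 N) →+ ZMod n) =
      (parCoord N ℤ (ZMod n) (torsCoord N n x) : Additive (Gamma0 N) →+ ZMod n) := by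
    rw [← parCoord_torsCoord]
    refine AddMonoidHom.ext fun γ => ?_
    obtain ⟨γ, rfl⟩ := Additive.ofMul.surjective γ
    rw [parCoord_apply, parCoord_apply]
  rw [hφ, op_parCoord_mulVec, h, map_zsmul, Submodule.coe_smul]

variable (M q : ℕ) [NeZero M] [Fact q.Prime] (hqM : ¬ q ∣ M)

/-- The conditions on the coordinates of a class which is new at `q`, with eigenvalue `a`. -/
def IsNewVec (a : ℤ) {R : Type*} [CommRing R] (v : Fin (homRank (M * q)) → R) : Prop :=
  (invMat M q hqM).map (Int.cast : ℤ → R) *ᵥ v = (-a) • v ∧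
    (corMat M q hqM).map (Int.cast : ℤ → R) *ᵥ
      ((invMat M q hqM).map (Int.cast : ℤ → R) *ᵥ v) = 0

variable {M q} {hqM}

theorem IsNewVec.neg {a : ℤ} {R : Type*} [CommRing R] {v : Fin (homRank (M * q)) → R}
    (h : IsNewVec M q hqM a v) : IsNewVec M q hqM a (-v) := by
  refine ⟨?_, ?_⟩
  · rw [Matrix.mulVec_neg, h.1, smul_neg]
  · rw [Matrix.mulVec_neg, Matrix.mulVec_neg, h.2, neg_zero]

variable [NeZero q] {n : ℕ} [NeZero n] {a : ℤ}

/-- The two relations on the multiplier of a new eigen class. -/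
theorem op_multHom_of_isNewVec (ha : a = 1 ∨ a = -1) {x : Tors (M * q) n}
    (hx : IsNewVec M q hqM a (torsCoord (M * q) n x)) :
    (wSys M q hqM).op ℤ (ZMod n)
        (multHom ιbar (M * q) n x : Additive (Gamma0 (M * q)) →+ ZMod n) =
      (-a) • (multHom ιbar (M * q) n x : Additive (Gamma0 (M * q)) →+ ZMod n) ∧
    (uSys M q).op ℤ (ZMod n)
        (multHom ιbar (M * q) n x : Additive (Gamma0 (M * q)) →+ ZMod n) =
      a • (multHom ιbar (M * q) n x : Additive (Gamma0 (M * q)) →+ ZMod n) := by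
  set φ := (kummer (M * q) n x : Additive (Gamma0 (M * q)) →+ ZMod n) with hφdef
  set ψ := (multHom ιbar (M * q) n x : Additive (Gamma0 (M * q)) →+ ZMod n) with hψdef
  have hψ : ψ = twist φ := by rw [hφdef, coe_kummer, twist_twist]
  have hwφ : (wSys M q hqM).op ℤ (ZMod n) φ = (-a) • φ := op_kummer_eq_zsmul _ hx.1
  have hwψ : (wSys M q hqM).op ℤ (ZMod n) ψ = (-a) • ψ := by
    rw [hψ, twist_wSys, hwφ, twist_zsmul]
  have hcorψ : (corSys M q hqM).op ℤ (ZMod n) ψ = 0 := by
    rw [hψ, corSys_twist, traceSys_op]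
    have h1 : (corSys M q hqM).op ℤ (ZMod n) ((wSys M q hqM).op ℤ (ZMod n) φ) = 0 := by
      have e : φ = (parCoord (M * q) ℤ (ZMod n) (torsCoord (M * q) n x) :
          Additive (Gamma0 (M * q)) →+ ZMod n) := by
        rw [hφdef, ← parCoord_torsCoord]
        refine AddMonoidHom.ext fun γ => ?_
        obtain ⟨γ, rfl⟩ := Additive.ofMul.surjective γ
        rw [parCoord_apply, parCoord_apply]
      rw [e, op_parCoord_mulVec, op_parCoord_mulVec]
      change ((parCoord M ℤ (ZMod n) ((corMat M q hqM).map Int.cast *ᵥ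
        ((invMat M q hqM).map Int.cast *ᵥ torsCoord (M * q) n x)) : _) :
          Additive (Gamma0 M) →+ ZMod n) = 0
      rw [hx.2, map_zero, Submodule.coe_zero]
    rw [h1]
    rfl
  refine ⟨hwψ, ?_⟩
  have h1 := resSys_corSys M q hqM ψ
  rw [hcorψ, map_zero, hwψ, map_zsmul, neg_smul, eq_comm, add_neg_eq_zero] at h1
  conv_rhs => rw [h1]
  rw [← mul_smul]
  rcases ha with rfl | rfl <;> simp

variable {k : Type*} [Field k] [IsAlgClosed k] [CharP k q] {A : ValuationSubring ℚbar}
  {π : A →+* k} (L : LevelData A π M) (w : ALData q M) (hq : q.Prime) (hA : A.LiesOverPrime q)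
  (hπ : Function.Surjective π)

/-- **The Kummer functions of a new eigen class are eigenfunctions on the two sheets.** -/
theorem relClass_of_isNewVec (ha : a = 1 ∨ a = -1) {x : Tors (M * q) n}
    (hx : IsNewVec M q hqM a (torsCoord (M * q) n x))
    {D : Divisor.degZero (K := ℚbar) (F := modularFunctionFieldBar (M * q))}
    (hD : Pic0.mk D = (x : JZero (M * q))) :
    RelClass (L.sheets w hq hA hπ hqM) a n
      (D : Divisor ℚbar (modularFunctionFieldBar (M * q))) := by
  intro E G hED hG hord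
  have hdegE : Divisor.degree E = 0 := by
    obtain ⟨h, hh, he⟩ := hED
    have h1 : E - (D : Divisor ℚbar (modularFunctionFieldBar (M * q))) = FF.divOf ℚbar h :=
      Finsupp.ext fun v => by rw [FF.divOf_apply, he v]
    have h2 := FF.degree_divOf (K := ℚbar) h
    rw [← h1, map_sub, sub_eq_zero] at h2
    exact h2.trans D.2
  set E₀ : Divisor.degZero (K := ℚbar) (F := modularFunctionFieldBar (M * q)) := ⟨E, hdegE⟩
  have hEx : Pic0.mk E₀ = (x : JZero (M * q)) := by
    rw [← hD, ← sub_eq_zero]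
    refine (QuotientAddGroup.eq_zero_iff (E₀ - D)).mpr ?_
    rw [AddSubgroup.mem_addSubgroupOf]
    exact hED
  have hdiv : ∀ v, (n : ℤ) * ((-E₀ : Divisor.degZero (K := ℚbar)
      (F := modularFunctionFieldBar (M * q))) : Divisor ℚbar (modularFunctionFieldBar (M * q))) v =
      v.ord G := fun v => by
    rw [hord]
    show (n : ℤ) * (-E v) = _
    rw [mul_neg]
  obtain ⟨G₀, hG₀⟩ := exists_root ιbar hG hdiv
  obtain ⟨φ, hφ⟩ := exists_hasMult_root ιbar hG hG₀
  have hK : IsKummer ιbar ((-x : Tors (M * q) n) : JZero (M * q)) φ :=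
    ⟨-E₀, G, G₀, show -(Pic0.mk E₀) = _ by rw [hEx]; rfl, hG, hdiv, hG₀, hφ⟩
  obtain ⟨hw, hU⟩ := op_multHom_of_isNewVec (x := -x) ha (by rw [map_neg]; exact hx.neg)
  have hmult := multHom_eq ιbar (x := -x) hK
  rw [hmult] at hw hU
  have hmem : φ ∈ parEllHoms ℤ (Gamma0 (M * q)) (ZMod n) := by
    have h := (multHom ιbar (M * q) n (-x)).2
    intro γ hγ
    rw [← hmult]
    exact h γ hγ
  have hGc : MeroAtCusps (M * q) G₀ := meroAtCusps_root ιbar hG hdiv hG₀
  have hdw : ∀ i, ((wSys M q hqM).α i).det = (q : ℤ) := fun _ => det_wMat M q hqM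
  refine ⟨?_, ?_⟩
  · obtain ⟨y, hy, hye⟩ := exists_embed_eq_uSys (ℓ := q) ιbar M G
    obtain ⟨h, hh, he⟩ := exists_eq_zpow_mul_pow (uSys M q) ιbar (det_uRep q) hG hG₀ hGc hφ hmem a
      hU hye
    refine ⟨1, h, one_ne_zero, hh, ?_⟩
    show seriesNorm q (G : LaurentSeries ℚbar) =
      (1 : ℚbar) • ((G : LaurentSeries ℚbar) ^ a * (h : LaurentSeries ℚbar) ^ n)
    rw [one_smul, ← hy, he, MulMemClass.coe_mul, SubmonoidClass.coe_pow, coe_zpow_fun]
  · obtain ⟨h, hh, he⟩ := exists_eq_zpow_mul_pow (wSys M q hqM) ιbar hdw hG hG₀ hGc hφ hmem (-a)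
      hw (embed_wEquiv hqM w G)
    refine ⟨1, h, one_ne_zero, hh, ?_⟩
    show wEquiv w hq G = _
    rw [map_one, one_mul]
    exact he

end Fermat.Agent.AttachedLocal
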