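import Fermat.Agent.AttachedLocal.Num
import Fermat.Agent.Carayol.Descent.InertiaField

/-!
# Lifts fixed by the inertia group

Residues of a number field form a finite ring, so they lift to roots of unity fixed by inertia.
An element fixed by inertia which is not a unit is divisible by `q`. Reduced pairs with lifts
fixed by inertia therefore lift to regular functions up to `q`.
-/

set_option autoImplicit false

noncomputable section

namespace Fermat.Agent.AttachedLocal

open HahnSeries AlgebraicCurve ModularCurve Fermat.Agent.Reduction Fermat.Agent.Semistable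

local notation "ℚbar" => AlgebraicClosure ℚ

variable {k : Type*} [Field k] {A : ValuationSubring ℚbar} {π : A →+* k} {q : ℕ}

variable (A) in
/-- Fixed by the inertia group. -/
def InertiaFixed (x : ℚbar) : Prop := ∀ τ ∈ A.inertiaSubgroupIn ℚ, τ x = x

/-- A fixed element which is not a unit is divisible by `q`. -/
theorem valuation_le_of_inertiaFixed (hq : q.Prime) (hA : A.LiesOverPrime q) {x : ℚbar}
    (hfix : InertiaFixed A x) (hlt : A.valuation x < 1) :
    A.valuation x ≤ A.valuation (q : ℚbar) := by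
  rcases eq_or_ne x 0 with rfl | hx0
  · simp
  obtain ⟨n, h1, h2⟩ := Carayol.InertiaField.exists_zpow_mul_unit hq hA hfix hx0
  have hqp : 0 < A.valuation (q : ℚbar) :=
    (Valuation.pos_iff _).mpr (Nat.cast_ne_zero.mpr hq.ne_zero)
  rw [← A.valuation_le_one_iff, map_div₀, map_zpow₀,
    div_le_one₀ (zpow_pos hqp n)] at h1
  rw [← A.valuation_le_one_iff, map_div₀, map_zpow₀,
    div_le_one₀ ((Valuation.pos_iff _).mpr hx0)] at h2
  have hn : 1 ≤ n := by
    by_contra hneg
    have : 1 ≤ A.valuation (q : ℚbar) ^ n :=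
      one_le_zpow_of_nonpos₀ hqp (valuation_q_lt_one hA).le (by omega)
    exact absurd hlt (not_lt.mpr (this.trans h2))
  refine h1.trans ?_
  obtain ⟨l, rfl⟩ : ∃ l : ℕ, n = (l : ℤ) + 1 := ⟨(n - 1).toNat, by omega⟩
  rw [zpow_add₀ hqp.ne', zpow_natCast, zpow_one]
  exact mul_le_of_le_one_left zero_le (pow_le_one₀ zero_le (valuation_q_lt_one hA).le)

section Residues

variable [hqF : Fact q.Prime] [hqC : CharP k q]

omit [CharP k q] in
/-- The residue of an integral rational number lies in the prime field. -/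
theorem exists_zmod_residue_eq [Algebra (ZMod q) k] (_hπ : Function.Surjective π) {t : ℚ}
    (ht : algebraMap ℚ ℚbar t ∈ A) :
    ∃ c : ZMod q, algebraMap (ZMod q) k c = π ⟨_, ht⟩ := by
  have : CharP k q := charP_of_injective_algebraMap (algebraMap (ZMod q) k).injective q
  set s : A := ⟨_, ht⟩
  have hmul : s * (t.den : A) = (t.num : A) := by
    refine Subtype.ext ?_
    show algebraMap ℚ ℚbar t * ((t.den : A) : ℚbar) = ((t.num : A) : ℚbar)
    push_cast
    rw [← map_natCast (algebraMap ℚ ℚbar), ← map_intCast (algebraMap ℚ ℚbar), ← map_mul,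
      Rat.mul_den_eq_num]
  have hk : π s * (t.den : k) = (t.num : k) := by
    rw [← map_natCast π, ← map_mul, hmul, map_intCast]
  have hden : (t.den : k) ≠ 0 := fun h0 => by
    rw [h0, mul_zero, eq_comm, CharP.intCast_eq_zero_iff k q] at hk
    rw [CharP.cast_eq_zero_iff k q] at h0
    have h := Nat.dvd_gcd (Int.natCast_dvd.mp hk) h0
    rw [Nat.Coprime.gcd_eq_one t.reduced, Nat.dvd_one] at h
    exact (Fact.out : q.Prime).ne_one h
  exact ⟨(t.num : ZMod q) / (t.den : ZMod q), by
    rw [map_div₀, map_intCast, map_natCast, eq_comm, eq_div_iff hden, hk]⟩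

include q hqF hqC

/-- The residues of a number field form a finite set. -/
theorem finite_residues (hπ : Function.Surjective π) (L : IntermediateField ℚ ℚbar)
    [FiniteDimensional ℚ L] : {x : k | ∃ a : A, (a : ℚbar) ∈ L ∧ π a = x}.Finite := by
  classical
  let := ZMod.algebra k q
  let W : Submodule (ZMod q) k :=
    { carrier := {x : k | ∃ a : A, (a : ℚbar) ∈ L ∧ π a = x}
      add_mem' := fun {x y} ⟨a, ha, hax⟩ ⟨b, hb, hby⟩ =>
        ⟨a + b, add_mem ha hb, by rw [map_add, hax, hby]⟩
      zero_mem' := ⟨0, zero_mem L, map_zero π⟩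
      smul_mem' := fun c x ⟨a, ha, hax⟩ => by
        refine ⟨(c.val : A) * a, ?_, ?_⟩
        · show ((c.val : A) : ℚbar) * (a : ℚbar) ∈ L
          push_cast
          exact mul_mem (natCast_mem L _) ha
        · rw [map_mul, map_natCast, hax, Algebra.smul_def,
            ← map_natCast (algebraMap (ZMod q) k), ZMod.natCast_zmod_val] }
  suffices h : Module.rank (ZMod q) W ≤ (Module.finrank ℚ L : ℕ) by
    have := Module.rank_lt_aleph0_iff.mp (h.trans_lt (Cardinal.natCast_lt_aleph0))
    have : Finite W := Module.finite_of_finite (ZMod q)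
    exact Set.toFinite (W : Set k)
  refine rank_le fun s hs => ?_
  choose a haL haπ using fun x : s => (x.1 : W).2
  have hli : LinearIndependent ℚ (fun x : s => (⟨(a x : ℚbar), haL x⟩ : L)) := by
    rw [Fintype.linearIndependent_iff]
    intro r hr
    by_contra hne
    push Not at hne
    obtain ⟨x₁, hx₁⟩ := hne
    obtain ⟨x₀, -, hx₀⟩ := Finset.exists_max_image (Finset.univ : Finset s)
      (fun x => A.valuation (algebraMap ℚ ℚbar (r x))) ⟨x₁, Finset.mem_univ _⟩
    have hr₀ : r x₀ ≠ 0 := fun h0 => by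
      have := hx₀ x₁ (Finset.mem_univ _)
      rw [h0, map_zero, map_zero] at this
      exact (A.valuation.ne_zero_iff).mpr ((map_ne_zero _).mpr hx₁) (le_antisymm this zero_le)
    have ht : ∀ x, algebraMap ℚ ℚbar (r x / r x₀) ∈ A := fun x => by
      rw [← A.valuation_le_one_iff, map_div₀, map_div₀,
        div_le_one₀ ((Valuation.pos_iff _).mpr ((map_ne_zero _).mpr hr₀))]
      exact hx₀ x (Finset.mem_univ _)
    choose c hc using fun x => exists_zmod_residue_eq (q := q) hπ (ht x)
    have hrel : ∑ x, c x • ((x.1 : W) : k) = 0 := by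
      simp only [Algebra.smul_def, hc, ← haπ, ← map_mul, ← map_sum]
      rw [← map_zero π]
      congr 1
      refine Subtype.ext ?_
      rw [AddSubmonoidClass.coe_finsetSum]
      have h := congrArg (fun z : L => (r x₀)⁻¹ • (z : ℚbar)) hr
      simp only [AddSubmonoidClass.coe_finsetSum, SetLike.val_smul, ZeroMemClass.coe_zero,
        smul_zero, Finset.smul_sum, smul_smul] at h
      refine Eq.trans (Finset.sum_congr rfl fun x _ => ?_) h
      show algebraMap ℚ ℚbar (r x / r x₀) * (a x : ℚbar) = _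
      rw [Algebra.smul_def, div_eq_mul_inv, mul_comm (r x)]
    have h0 := Fintype.linearIndependent_iff.mp hs c (Subtype.ext (by
      rw [AddSubmonoidClass.coe_finsetSum]
      exact hrel)) x₀
    have h1 := hc x₀
    rw [h0, map_zero, eq_comm] at h1
    simp only [div_self hr₀, map_one] at h1
    exact one_ne_zero ((map_one π).symm.trans h1)
  have := hli.fintype_card_le_finrank
  rwa [Fintype.card_coe] at this

/-- **Residues of a number field lift to elements fixed by inertia.** -/
theorem exists_fixed_lift (hπ : Function.Surjective π)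
    (hres : ∀ τ ∈ A.inertiaSubgroupIn ℚ, ∀ a : A, ∃ h : τ a ∈ A, π ⟨τ a, h⟩ = π a)
    (L : IntermediateField ℚ ℚbar) [FiniteDimensional ℚ L] {a : A} (ha : (a : ℚbar) ∈ L) :
    ∃ z : A, π z = π a ∧ InertiaFixed A (z : ℚbar) := by
  rcases eq_or_ne (π a) 0 with h0 | h0
  · exact ⟨0, by rw [h0, map_zero], fun τ _ => map_zero τ⟩
  have hfin := finite_residues (q := q) hπ L
  have hord : IsOfFinOrder (π a) := by
    have hmem : ∀ n : ℕ, π a ^ n ∈ {x : k | ∃ b : A, (b : ℚbar) ∈ L ∧ π b = x} :=
      fun n => ⟨a ^ n, pow_mem ha n, map_pow π a n⟩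
    obtain ⟨i, j, hij, he⟩ := hfin.exists_lt_map_eq_of_forall_mem hmem
    refine isOfFinOrder_iff_pow_eq_one.mpr ⟨j - i, by omega, ?_⟩
    refine mul_left_cancel₀ (pow_ne_zero i h0) ?_
    rw [← _root_.pow_add, Nat.add_sub_cancel' hij.le, mul_one]
    exact he.symm
  set N := orderOf (π a) with hN
  have hNpos : 0 < N := hord.orderOf_pos
  have hNk : (N : k) ≠ 0 := by
    rw [Ne, CharP.cast_eq_zero_iff k q]
    rintro ⟨l, hl⟩
    have h1 : (π a ^ l) ^ q = (1 : k) ^ q := by
      rw [← pow_mul, mul_comm, ← hl, hN, pow_orderOf_eq_one, one_pow]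
    have h2 := Nat.le_of_dvd (Nat.pos_of_ne_zero fun h => by rw [hl, h, mul_zero] at hNpos; omega)
      (orderOf_dvd_of_pow_eq_one (frobenius_inj k q h1))
    rw [← hN, hl] at h2
    have := (Fact.out : q.Prime).two_le
    nlinarith [hl, hNpos]
  have : NeZero N := ⟨hNpos.ne'⟩
  obtain ⟨η, hη⟩ := HasEnoughRootsOfUnity.exists_primitiveRoot ℚbar N
  have hmem : η ∈ A := by
    rw [← A.valuation_le_one_iff]
    refine (pow_le_one_iff hNpos.ne').mp ?_
    rw [← map_pow, hη.pow_eq_one, map_one]
  -- a root of unity with residue `1` is `1`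
  have key : ∀ w : A, (w : ℚbar) ^ N = 1 → π w = 1 → (w : ℚbar) = 1 := by
    intro w hw hπw
    by_contra hne
    have hsum : ∑ i ∈ Finset.range N, (w : ℚbar) ^ i = 0 := by
      rw [geom_sum_eq hne, hw, sub_self, zero_div]
    have h1 : (∑ i ∈ Finset.range N, w ^ i : A) = 0 := Subtype.ext (by
      rw [AddSubmonoidClass.coe_finsetSum]
      exact hsum)
    have h2 := congrArg π h1
    simp only [map_sum, map_pow, hπw, one_pow, Finset.sum_const, Finset.card_range,
      nsmul_eq_mul, mul_one, map_zero] at h2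
    exact hNk h2
  have hprim : IsPrimitiveRoot (π ⟨η, hmem⟩) N :=
    { pow_eq_one := by
        rw [← map_pow, ← map_one π]
        exact congrArg π (Subtype.ext hη.pow_eq_one)
      dvd_of_pow_eq_one := fun l hl => hη.dvd_of_pow_eq_one l (key (⟨η, hmem⟩ ^ l) (by
        show (η ^ l) ^ N = 1
        rw [← pow_mul, mul_comm, pow_mul, hη.pow_eq_one, one_pow]) (by rw [map_pow, hl])) }
  obtain ⟨i, -, hi⟩ := hprim.eq_pow_of_pow_eq_one (pow_orderOf_eq_one (π a))
  refine ⟨⟨η, hmem⟩ ^ i, by rw [map_pow, hi], fun τ hτ => ?_⟩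
  set z : A := ⟨η, hmem⟩ ^ i with hz
  have hzN : (z : ℚbar) ^ N = 1 := by
    show (η ^ i) ^ N = 1
    rw [← pow_mul, mul_comm, pow_mul, hη.pow_eq_one, one_pow]
  have hz0 : (z : ℚbar) ≠ 0 := fun h => by
    rw [h, zero_pow hNpos.ne'] at hzN
    exact zero_ne_one hzN
  obtain ⟨hτmem, hτπ⟩ := hres τ hτ z
  have hwN : (τ z / (z : ℚbar)) ^ N = 1 := by
    rw [div_pow, ← map_pow, hzN, map_one, div_one]
  have hwmem : τ z / (z : ℚbar) ∈ A := by
    rw [← A.valuation_le_one_iff]
    refine (pow_le_one_iff hNpos.ne').mp ?_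
    rw [← map_pow, hwN, map_one]
  have hw : π ⟨_, hwmem⟩ = 1 := by
    have h1 : π ⟨_, hwmem⟩ * π z = π z := by
      rw [← map_mul]
      conv_rhs => rw [← hτπ]
      exact congrArg π (Subtype.ext (div_mul_cancel₀ _ hz0))
    refine (mul_eq_right₀ ?_).mp h1
    rw [hz, map_pow, hi]
    exact h0
  exact (div_eq_one_iff_eq hz0).mp (key ⟨_, hwmem⟩ hwN hw)

/-- Series with residues from a number field lift to series fixed by inertia. -/
theorem exists_fixed_lift_series (hπ : Function.Surjective π)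
    (hres : ∀ τ ∈ A.inertiaSubgroupIn ℚ, ∀ a : A, ∃ h : τ a ∈ A, π ⟨τ a, h⟩ = π a)
    {y : LaurentSeries ℚbar} (hy : y ∈ numField) {x : LaurentSeries k} (hx : Red A π y x) :
    ∃ z : LaurentSeries ℚbar, z ∈ numField ∧ Red A π z x ∧ (∀ i, InertiaFixed A (z.coeff i)) ∧
      ∀ n : ℤ, PoleLE n x → PoleLE n z := by
  classical
  obtain ⟨L, hL, hyL⟩ := mem_numField_iff.mp hy
  set V : Set k := {c : k | ∃ a : A, (a : ℚbar) ∈ L ∧ π a = c} with hV
  have hVfin : V.Finite := finite_residues (q := q) hπ L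
  have hxV : ∀ i, x.coeff i ∈ V := fun i => by
    obtain ⟨h, he⟩ := hx i
    exact ⟨⟨y.coeff i, h⟩, hyL i, he⟩
  have hlift : ∀ c : k, ∃ z : A, (c ∈ V → π z = c) ∧ (c = 0 → z = 0) ∧
      InertiaFixed A (z : ℚbar) := by
    intro c
    by_cases hc : c ∈ V ∧ c ≠ 0
    · obtain ⟨⟨a, ha, hac⟩, hc0⟩ := hc
      obtain ⟨z, hz, hzfix⟩ := exists_fixed_lift (q := q) hπ hres L ha
      exact ⟨z, fun _ => hz.trans hac, fun h => absurd h hc0, hzfix⟩
    · refine ⟨0, fun h => ?_, fun _ => rfl, fun τ _ => map_zero τ⟩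
      rw [map_zero]
      by_contra hne
      exact hc ⟨h, Ne.symm hne⟩
  choose g hg hg0 hgfix using hlift
  have hsupp : (Function.support fun i => ((g (x.coeff i) : A) : ℚbar)).IsPWO :=
    x.isPWO_support.mono fun i hi h0 => hi (by
      show ((g (x.coeff i) : A) : ℚbar) = 0
      rw [hg0 _ h0]
      rfl)
  refine ⟨⟨fun i => g (x.coeff i), hsupp⟩, ?_, fun i => ⟨(g _).2, hg _ (hxV i)⟩,
    fun i => hgfix _, fun n hn i hi => ?_⟩
  · have : Finite ((fun c => ((g c : A) : ℚbar)) '' V) := (hVfin.image _).to_subtype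
    refine mem_numField_iff.mpr ⟨IntermediateField.adjoin ℚ ((fun c => ((g c : A) : ℚbar)) '' V),
      IntermediateField.finiteDimensional_adjoin fun a _ => Algebra.IsIntegral.isIntegral a,
      fun i => IntermediateField.subset_adjoin ℚ _ ⟨x.coeff i, hxV i, rfl⟩⟩
  · show ((g (x.coeff i) : A) : ℚbar) = 0
    rw [hg0 _ (hn i hi)]
    rfl

end Residues

/-! ### Separating coefficients -/

theorem exists_separating_finset {R : Type*} [Field R] :
    ∀ (d : ℕ) (W : Submodule R (LaurentSeries R)) [FiniteDimensional R W],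
      Module.finrank R W = d → ∃ P : Finset ℤ, P.card ≤ d ∧
        ∀ w ∈ W, (∀ i ∈ P, w.coeff i = 0) → w = 0 := by
  intro d
  induction d using Nat.strong_induction_on with
  | _ d ih =>
    intro W _ hW
    by_cases hbot : W = ⊥
    · exact ⟨∅, Nat.zero_le _, fun w hw _ => by rw [hbot] at hw; exact (Submodule.mem_bot R).mp hw⟩
    obtain ⟨w₀, hw₀, hne⟩ := Submodule.exists_mem_ne_zero_of_ne_bot hbot
    let φ : LaurentSeries R →ₗ[R] R :=
      { toFun := fun y => y.coeff w₀.order
        map_add' := fun a b => HahnSeries.coeff_add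
        map_smul' := fun c a => coeff_smulC c a w₀.order }
    have hlt : W ⊓ LinearMap.ker φ < W := lt_of_le_of_ne inf_le_left fun h => by
      have h2 : w₀ ∈ LinearMap.ker φ := (h.symm ▸ hw₀ : w₀ ∈ W ⊓ LinearMap.ker φ).2
      exact hne (HahnSeries.coeff_order_eq_zero.mp h2)
    have : FiniteDimensional R (W ⊓ LinearMap.ker φ : Submodule R _) :=
      Submodule.finiteDimensional_of_le inf_le_left
    have hd := hW ▸ Submodule.finrank_lt_finrank_of_lt hlt
    obtain ⟨P, hP, hsep⟩ := ih _ hd (W ⊓ LinearMap.ker φ) rfl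
    refine ⟨insert w₀.order P, (Finset.card_insert_le _ _).trans (by omega), fun w hw hz => ?_⟩
    exact hsep w ⟨hw, hz _ (Finset.mem_insert_self _ _)⟩
      fun i hi => hz i (Finset.mem_insert_of_mem hi)

variable {F : Type*} [Field F] [Algebra ℚbar F] [NeZero q] {S : Sheets A π q F}
  [FF.IsFunctionField ℚbar F]

/-- **Reduced pairs with fixed lifts lift to functions up to `q`.** -/
theorem exists_fixed_function (hA : A.LiesOverPrime q) (hq : q.Prime)
    (hI : ∀ τ ∈ A.inertiaSubgroupIn ℚ, ∃ σ : S.Inertia, ∀ c, σ.τ c = τ c) {n : ℤ}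
    (hn : redPair S.surj S.T (S.L 0 n) = S.CbarLe n) {y : Ser2 ℚbar} {b : Ser2 k}
    (hy : Red2 A π y b) (hb : b ∈ S.CbarLe n)
    (hfix : ∀ i, InertiaFixed A (y.1.coeff i) ∧ InertiaFixed A (y.2.coeff i)) :
    ∃ g ∈ S.L 0 n, Red2 A π (S.T g) b ∧ Bdd2 A (S.T g - y) (A.valuation (q : ℚbar)) := by
  classical
  set U := (S.CbarLe n).map (interleave k) with hU
  have := S.finiteDimensional_Ole n
  have : FiniteDimensional k (S.CbarLe n) :=
    Submodule.finiteDimensional_of_le (S.CbarLe_le_Ole n)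
  have : FiniteDimensional k U :=
    Module.Finite.equiv (Submodule.equivMapOfInjective _ (interleave_injective k) (S.CbarLe n))
  obtain ⟨P, hP, hsep⟩ := exists_separating_finset _ U rfl
  let Φ : S.L 0 n →ₗ[ℚbar] (P → ℚbar) :=
    { toFun := fun f i => (interleave ℚbar (S.T f)).coeff (i : ℤ)
      map_add' := fun f f' => funext fun i => by
        rw [Submodule.coe_add, map_add, map_add, HahnSeries.coeff_add]; rfl
      map_smul' := fun c f => funext fun i => by
        rw [SetLike.val_smul, map_smul, map_smul, coeff_smulC]; rfl }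
  have hreg : ∀ f ∈ S.L 0 n, S.Reg f := fun f hf => Sheets.reg_of_mem_L S.neg_zero' hf
  have hinj : Function.Injective Φ := by
    rw [injective_iff_map_eq_zero]
    intro f hf
    by_contra hne
    obtain ⟨c, hc, x, hx, hcx⟩ := (hreg _ f.2).normalizable2 fun h => hne (Subtype.ext h)
    have hcx' : Red2 A π (S.T (c • (f : F))) x := by rwa [map_smul]
    have hxW : interleave k x ∈ U :=
      Submodule.mem_map_of_mem (hn ▸ ⟨c • (f : F), Submodule.smul_mem _ _ f.2, hcx'⟩)
    refine hx (interleave_injective k ((hsep _ hxW fun i hi => ?_).trans (map_zero _).symm))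
    obtain ⟨hm, hv⟩ := red_interleave.mpr hcx i
    rw [← hv, ← map_zero π]
    refine congrArg π (Subtype.ext ?_)
    show (interleave ℚbar (c • S.T f)).coeff i = 0
    rw [map_smul, coeff_smulC, show (interleave ℚbar (S.T f)).coeff i = 0 from congrFun hf ⟨i, hi⟩,
      mul_zero]
  have hdim : Fintype.card P ≤ Module.finrank ℚbar (S.L 0 n) := by
    rw [Fintype.card_coe, ← finrank_redPair S.surj S.T (S.L 0 n)
      fun f hf hf0 => (hreg f hf).normalizable2 hf0, hn]
    rwa [← (Submodule.equivMapOfInjective _ (interleave_injective k) (S.CbarLe n)).finrank_eq] at hP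
  have hsurj : Function.Surjective Φ := by
    rw [← LinearMap.range_eq_top]
    refine Submodule.eq_top_of_finrank_eq (le_antisymm (Submodule.finrank_le _) ?_)
    rw [LinearMap.finrank_range_of_inj hinj, Module.finrank_pi]
    exact hdim
  obtain ⟨g, hg⟩ := hsurj fun i => (interleave ℚbar y).coeff (i : ℤ)
  have hgi : ∀ i ∈ P, (interleave ℚbar (S.T g)).coeff i = (interleave ℚbar y).coeff i :=
    fun i hi => congrFun hg ⟨i, hi⟩
  have hyI : ∀ j, InertiaFixed A ((interleave ℚbar y).coeff j) := fun j => by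
    rcases Int.even_or_odd' j with ⟨i, rfl | rfl⟩
    · rw [interleave_coeff_even]; exact (hfix i).1
    · rw [interleave_coeff_odd]; exact (hfix i).2
  -- integrality
  obtain ⟨x, hgx⟩ : ∃ x, Red2 A π (S.T g) x := by
    rcases eq_or_ne (g : F) 0 with h0 | h0
    · exact ⟨0, by rw [h0, map_zero]; exact red2_zero⟩
    obtain ⟨c, hc, x, hx, hcx⟩ := (hreg _ g.2).normalizable2 h0
    have hcinv : c⁻¹ ∈ A := by
      rw [← A.valuation_le_one_iff, map_inv₀, inv_le_one₀ ((Valuation.pos_iff _).mpr hc)]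
      by_contra hlt
      rw [not_le] at hlt
      have hcx' : Red2 A π (S.T (c • (g : F))) x := by rwa [map_smul]
      have hxW : interleave k x ∈ U :=
        Submodule.mem_map_of_mem (hn ▸ ⟨c • (g : F), Submodule.smul_mem _ _ g.2, hcx'⟩)
      refine hx (interleave_injective k ((hsep _ hxW fun i hi => ?_).trans (map_zero _).symm))
      obtain ⟨hm, hv⟩ := red_interleave.mpr hcx i
      rw [← hv]
      refine (residue_eq_zero_iff S.surj ⟨_, hm⟩).mpr ?_
      show A.valuation ((interleave ℚbar (c • S.T g)).coeff i) < 1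
      rw [map_smul, coeff_smulC, hgi i hi, map_mul]
      exact lt_of_le_of_lt (mul_le_of_le_one_right zero_le
        ((A.valuation_le_one_iff _).mpr ((red_interleave.mpr hy) i).1)) hlt
    refine ⟨π ⟨c⁻¹, hcinv⟩ • x, ?_⟩
    have h := hcx.smul (⟨c⁻¹, hcinv⟩ : A)
    rwa [smul_smul, inv_mul_cancel₀ hc, one_smul] at h
  obtain rfl : x = b := by
    refine interleave_injective k (sub_eq_zero.mp (hsep _ (sub_mem
      (Submodule.mem_map_of_mem (hn ▸ ⟨(g : F), g.2, hgx⟩)) (Submodule.mem_map_of_mem hb))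
      fun i hi => ?_))
    rw [HahnSeries.coeff_sub, sub_eq_zero]
    obtain ⟨h1, e1⟩ := red_interleave.mpr hgx i
    obtain ⟨h2, e2⟩ := red_interleave.mpr hy i
    rw [← e1, ← e2]
    exact congrArg π (Subtype.ext (hgi i hi))
  -- the function is fixed by inertia
  have hgfix : ∀ i, InertiaFixed A ((S.T g).1.coeff i) ∧ InertiaFixed A ((S.T g).2.coeff i) := by
    have key : ∀ σ : S.Inertia, ∀ τ ∈ A.inertiaSubgroupIn ℚ, (∀ c, σ.τ c = τ c) →
        σ.g g = g := by
      intro σ τ hτ hστ
      have hmem : σ.g g ∈ S.L 0 n := by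
        have h := σ.mem_L_act g.2
        rwa [map_zero] at h
      refine congrArg Subtype.val (hinj (a₁ := ⟨σ.g g, hmem⟩) (a₂ := g) (funext fun i => ?_))
      have hco : ∀ z : Ser2 ℚbar, (interleave ℚbar ((coeffMap (σ.τ : ℚbar →+* ℚbar) z.1,
          coeffMap (σ.τ : ℚbar →+* ℚbar) z.2) : Ser2 ℚbar)).coeff (i : ℤ) =
            σ.τ ((interleave ℚbar z).coeff (i : ℤ)) := fun z => by
        rcases Int.even_or_odd' (i : ℤ) with ⟨j, hj | hj⟩ <;> rw [hj]
        · rw [interleave_coeff_even, interleave_coeff_even, coeffMap_coeff]; rfl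
        · rw [interleave_coeff_odd, interleave_coeff_odd, coeffMap_coeff]; rfl
      show (interleave ℚbar (S.T (σ.g g))).coeff (i : ℤ) = (interleave ℚbar (S.T g)).coeff (i : ℤ)
      rw [σ.T_g]
      refine (hco (S.T g)).trans ?_
      rw [hgi i i.2, hστ]
      exact hyI i τ hτ
    intro i
    constructor <;> intro τ hτ <;> obtain ⟨σ, hστ⟩ := hI τ hτ <;>
      conv_rhs => rw [← key σ τ hτ hστ, σ.T_g]
    all_goals simp [hστ]
  refine ⟨g, g.2, hgx, ?_⟩
  have h0 := hgx.sub hy
  rw [sub_self] at h0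
  constructor <;> intro i
  · refine valuation_le_of_inertiaFixed hq hA (fun τ hτ => ?_)
      ((Sheets.valuation_coeff_of_red S.surj h0.1 i).2 rfl)
    rw [Prod.fst_sub, HahnSeries.coeff_sub, map_sub, (hgfix i).1 τ hτ, (hfix i).1 τ hτ]
  · refine valuation_le_of_inertiaFixed hq hA (fun τ hτ => ?_)
      ((Sheets.valuation_coeff_of_red S.surj h0.2 i).2 rfl)
    rw [Prod.snd_sub, HahnSeries.coeff_sub, map_sub, (hgfix i).2 τ hτ, (hfix i).2 τ hτ]

end Fermat.Agent.AttachedLocal
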