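import Fermat.Agent.GalRep.Normalise
import Fermat.Agent.Gal.Decomposition

/-!
# Two by two representations of a decomposition group with a distinguished row

If inertia fixes a row and Frobenius elements scale it by `± 1`, the decomposition group acts on
the row by an unramified quadratic character `s` and `(R g - det (R g) s g) (R h - s h) = 0`.
-/

set_option autoImplicit false

noncomputable section

namespace Fermat.Agent.AttachedLocal

open IsLocalRing Matrix
open Fermat.Agent.GalRep (MatrixContinuous)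

local notation "ℚbar" => AlgebraicClosure ℚ
local notation "Γℚbar" => AlgebraicClosure ℚ ≃ₐ[ℚ] AlgebraicClosure ℚ

/-- Two matrices with a common eigenrow. -/
theorem sub_det_smul_mul_sub_smul {B : Type*} [CommRing B] (X Y : Matrix (Fin 2) (Fin 2) B)
    {r : Fin 2 → B} {i₀ : Fin 2} (hr : r i₀ = 1) {η η' : B} (hη : η * η = 1)
    (hX : r ᵥ* X = η • r) (hY : r ᵥ* Y = η' • r) :
    (X - (X.det * η) • (1 : Matrix (Fin 2) (Fin 2) B)) *
      (Y - η' • (1 : Matrix (Fin 2) (Fin 2) B)) = 0 := by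
  have hX0 := congrFun hX 0
  have hX1 := congrFun hX 1
  have hY0 := congrFun hY 0
  have hY1 := congrFun hY 1
  simp only [Matrix.vecMul, dotProduct, Fin.sum_univ_two, Pi.smul_apply, smul_eq_mul]
    at hX0 hX1 hY0 hY1
  -- the image of `Y - η'` is killed by the row
  have hker : ∀ j, r 0 * (Y - η' • (1 : Matrix (Fin 2) (Fin 2) B)) 0 j +
      r 1 * (Y - η' • (1 : Matrix (Fin 2) (Fin 2) B)) 1 j = 0 := by
    intro j
    fin_cases j <;> simp
    · linear_combination hY0
    · linear_combination hY1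
  have key : ∀ u v : B, r 0 * u + r 1 * v = 0 →
      X 0 0 * u + X 0 1 * v = X.det * η * u ∧ X 1 0 * u + X 1 1 * v = X.det * η * v := by
    intro u v huv
    rw [Matrix.det_fin_two]
    fin_cases i₀
    · simp only [Fin.zero_eta] at hr
      rw [hr, one_mul] at huv hX0 hX1
      obtain rfl : u = -(r 1 * v) := eq_neg_of_add_eq_zero_left huv
      have ha : X 0 0 = η - r 1 * X 1 0 := by linear_combination hX0
      have hb : X 0 1 = η * r 1 - r 1 * X 1 1 := by linear_combination hX1
      rw [ha, hb]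
      constructor
      · linear_combination (r 1 * v) * (X 1 1 - r 1 * X 1 0) * hη
      · linear_combination -(v * (X 1 1 - r 1 * X 1 0)) * hη
    · simp only [Fin.mk_one] at hr
      rw [hr, one_mul] at huv hX0 hX1
      obtain rfl : v = -(r 0 * u) := eq_neg_of_add_eq_zero_right huv
      have hc : X 1 0 = η * r 0 - r 0 * X 0 0 := by linear_combination hX0
      have hd : X 1 1 = η - r 0 * X 0 1 := by linear_combination hX1
      rw [hc, hd]
      constructor
      · linear_combination -(u * (X 0 0 - r 0 * X 0 1)) * hη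
      · linear_combination (r 0 * u) * (X 0 0 - r 0 * X 0 1) * hη
  refine Matrix.ext fun i j => ?_
  obtain ⟨k0, k1⟩ := key _ _ (hker j)
  set W := Y - η' • (1 : Matrix (Fin 2) (Fin 2) B)
  fin_cases i <;> simp [Matrix.mul_apply, Fin.sum_univ_two]
  · linear_combination k0
  · linear_combination k1

variable {O : Type} [CommRing O] [IsDomain O] [IsDiscreteValuationRing O]
  [IsAdicComplete (maximalIdeal O) O]

omit [IsAdicComplete (maximalIdeal O) O] in
/-- Congruent matrix values of group elements which agree on a finite level. -/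
theorem vecMul_congr {R : Γℚbar →* Matrix (Fin 2) (Fin 2) O} {n : ℕ} {g g' : Γℚbar}
    (h : ∀ i j, R (g'⁻¹ * g) i j - (1 : Matrix (Fin 2) (Fin 2) O) i j ∈ maximalIdeal O ^ n)
    (r : Fin 2 → O) (i : Fin 2) : (r ᵥ* R g) i - (r ᵥ* R g') i ∈ maximalIdeal O ^ n := by
  have h1 := GalRep.sub_mem_of_congr _ R h
  simp only [Matrix.vecMul, dotProduct, ← Finset.sum_sub_distrib, ← mul_sub]
  exact sum_mem fun j _ => Ideal.mul_mem_left _ _
    (Ideal.Quotient.eq.mp (congrFun (congrFun h1 j) i))

omit [IsAdicComplete (maximalIdeal O) O] in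
/-- **The character on the row.** -/
theorem exists_row_character {q : ℕ} (hq : q.Prime) {A : ValuationSubring ℚbar}
    (hA : A.LiesOverPrime q) (R : Γℚbar →* Matrix (Fin 2) (Fin 2) O) (hRc : MatrixContinuous R)
    {ε : O} (hε : ε * ε = 1) {r : Fin 2 → O} {i₀ : Fin 2} (hr : r i₀ = 1)
    (hI : ∀ τ ∈ A.inertiaSubgroupIn ℚ, r ᵥ* R τ = r)
    (hF : ∀ φ : Γℚbar, A.IsFrobeniusAt φ q → r ᵥ* R φ = ε • r) :
    ∃ s : A.decompositionSubgroup ℚ →* O, (∀ g, s g * s g = 1) ∧
      (∀ g : A.decompositionSubgroup ℚ, (g : Γℚbar) ∈ A.inertiaSubgroupIn ℚ → s g = 1) ∧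
      (∀ g : A.decompositionSubgroup ℚ, A.IsFrobeniusAt (g : Γℚbar) q → s g = ε) ∧
      ∀ g h : A.decompositionSubgroup ℚ,
        (R g - ((R g).det * s g) • (1 : Matrix (Fin 2) (Fin 2) O)) *
          (R h - s h • (1 : Matrix (Fin 2) (Fin 2) O)) = 0 := by
  obtain ⟨φ, hφ⟩ := Gal.exists_isFrobeniusAt hq hA
  have hpow : ∀ j : ℕ, r ᵥ* R (φ ^ j) = ε ^ j • r := by
    intro j
    induction j with
    | zero => rw [pow_zero, map_one, Matrix.vecMul_one, pow_zero, one_smul]
    | succ j ih =>
      rw [pow_succ, map_mul, ← Matrix.vecMul_vecMul, ih, Matrix.smul_vecMul, hF φ hφ, smul_smul,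
        pow_succ]
  let η : Γℚbar → O := fun g => (r ᵥ* R g) i₀
  have key : ∀ g ∈ A.decompositionSubgroup ℚ, r ᵥ* R g = η g • r ∧ η g * η g = 1 := by
    intro g hg
    have hloc : ∀ n, ∃ j : ℕ, ∀ i, (r ᵥ* R g) i - ε ^ j * r i ∈ maximalIdeal O ^ n := by
      intro n
      obtain ⟨F, hFfin, h⟩ := hRc n
      obtain ⟨j, σ, hσ, hσe⟩ := Gal.exists_pow_mul_inertia_eqOn hq F hA hφ hg
      refine ⟨j, fun i => ?_⟩
      have h1 := vecMul_congr (g := g) (g' := φ ^ j * σ) (h _ fun x hx => by
        rw [AlgEquiv.mul_apply, hσe x hx, AlgEquiv.aut_inv, AlgEquiv.symm_apply_apply]) r i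
      rwa [map_mul, ← Matrix.vecMul_vecMul, hpow, Matrix.smul_vecMul, hI σ hσ, Pi.smul_apply,
        smul_eq_mul] at h1
    constructor
    · funext i
      rw [Pi.smul_apply, smul_eq_mul, ← sub_eq_zero]
      refine IsHausdorff.haus (I := maximalIdeal O) inferInstance _ fun n => ?_
      rw [SModEq.zero, smul_eq_mul, Ideal.mul_top]
      obtain ⟨j, hj⟩ := hloc n
      have h0 := hj i₀
      rw [hr, mul_one] at h0
      have : (r ᵥ* R g) i - η g * r i =
          ((r ᵥ* R g) i - ε ^ j * r i) - r i * (η g - ε ^ j) := by ring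
      rw [this]
      exact sub_mem (hj i) (Ideal.mul_mem_left _ _ h0)
    · rw [← sub_eq_zero]
      refine IsHausdorff.haus (I := maximalIdeal O) inferInstance _ fun n => ?_
      rw [SModEq.zero, smul_eq_mul, Ideal.mul_top]
      obtain ⟨j, hj⟩ := hloc n
      have h0 := hj i₀
      rw [hr, mul_one] at h0
      have : η g * η g - 1 = (η g + ε ^ j) * (η g - ε ^ j) := by
        have : ε ^ j * ε ^ j = 1 := by rw [← mul_pow, hε, one_pow]
        linear_combination this
      rw [this]
      exact Ideal.mul_mem_left _ _ h0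
  let s : A.decompositionSubgroup ℚ →* O :=
    { toFun := fun g => η g
      map_one' := by
        show (r ᵥ* R ((1 : A.decompositionSubgroup ℚ) : Γℚbar)) i₀ = 1
        rw [OneMemClass.coe_one, map_one, Matrix.vecMul_one, hr]
      map_mul' := fun g h => by
        show η ((g : Γℚbar) * h) = η g * η h
        simp only [η]
        rw [map_mul, ← Matrix.vecMul_vecMul, (key g g.2).1, Matrix.smul_vecMul]
        simp [hr] }
  refine ⟨s, fun g => (key g g.2).2, fun g hg => ?_, fun g hg => ?_, fun g h =>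
    sub_det_smul_mul_sub_smul (R g) (R h) hr (key g g.2).2 (key g g.2).1 (key h h.2).1⟩
  · show (r ᵥ* R g) i₀ = 1
    rw [hI g hg, hr]
  · show (r ᵥ* R g) i₀ = ε
    rw [hF g hg, Pi.smul_apply, hr, smul_eq_mul, mul_one]

omit [IsAdicComplete (maximalIdeal O) O] in
/-- A submodule of the plane contains a multiple of everything by a power of `p`, or a primitive
row kills it. -/
theorem exists_pow_smul_mem_or_exists_row {p : ℕ} (hp : (p : O) ∈ maximalIdeal O)
    (T : Submodule O (Fin 2 → O)) :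
    (∃ k : ℕ, ∀ x, (p : O) ^ k • x ∈ T) ∨
      ∃ (r : Fin 2 → O) (i₀ : Fin 2), r i₀ = 1 ∧ ∀ x ∈ T, r ⬝ᵥ x = 0 := by
  by_cases hdet : ∃ u ∈ T, ∃ v ∈ T, u 0 * v 1 - u 1 * v 0 ≠ 0
  · left
    obtain ⟨u, hu, v, hv, hd⟩ := hdet
    obtain ⟨ϖ, hϖ⟩ := IsDiscreteValuationRing.exists_irreducible O
    obtain ⟨k, hk⟩ := IsDiscreteValuationRing.associated_pow_irreducible hd hϖ
    have hpk : (p : O) ^ k ∈ Ideal.span {u 0 * v 1 - u 1 * v 0} := by
      have h := Ideal.pow_mem_pow hp k
      rwa [hϖ.maximalIdeal_eq, Ideal.span_singleton_pow,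
        ← Ideal.span_singleton_eq_span_singleton.mpr hk] at h
    obtain ⟨c, hc⟩ := Ideal.mem_span_singleton'.mp hpk
    refine ⟨k, fun x => ?_⟩
    rw [← hc]
    have : (c * (u 0 * v 1 - u 1 * v 0)) • x =
        (c * (x 0 * v 1 - x 1 * v 0)) • u + (c * (u 0 * x 1 - u 1 * x 0)) • v := by
      funext i
      fin_cases i <;> simp <;> ring
    rw [this]
    exact add_mem (T.smul_mem _ hu) (T.smul_mem _ hv)
  right
  push Not at hdet
  suffices h : ∃ r : Fin 2 → O, r ≠ 0 ∧ ∀ x ∈ T, r ⬝ᵥ x = 0 by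
    obtain ⟨r, hr0, hr⟩ := h
    have hr' : ∀ x ∈ T, r 0 * x 0 + r 1 * x 1 = 0 := fun x hx => by
      simpa [dotProduct, Fin.sum_univ_two] using hr x hx
    rcases ValuationRing.dvd_total (r 0) (r 1) with ⟨c, hc⟩ | ⟨c, hc⟩
    · have h0 : r 0 ≠ 0 := fun h0 => hr0 (funext fun i => by fin_cases i <;> simp [h0, hc])
      refine ⟨![1, c], 0, rfl, fun x hx => ?_⟩
      simp only [dotProduct, Fin.sum_univ_two, Matrix.cons_val_zero, Matrix.cons_val_one]
      exact (mul_right_injective₀ h0) (by linear_combination hr' x hx - x 1 * hc)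
    · have h1 : r 1 ≠ 0 := fun h1 => hr0 (funext fun i => by fin_cases i <;> simp [h1, hc])
      refine ⟨![c, 1], 1, rfl, fun x hx => ?_⟩
      simp only [dotProduct, Fin.sum_univ_two, Matrix.cons_val_zero, Matrix.cons_val_one]
      exact (mul_right_injective₀ h1) (by linear_combination hr' x hx - x 0 * hc)
  by_cases hT : ∃ u ∈ T, u ≠ 0
  · obtain ⟨u, hu, hu0⟩ := hT
    refine ⟨![-u 1, u 0], fun h => hu0 (funext fun i => ?_), fun x hx => ?_⟩
    · fin_cases i
      · simpa using congrFun h 1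
      · simpa using congrFun h 0
    · simp only [dotProduct, Fin.sum_univ_two, Matrix.cons_val_zero, Matrix.cons_val_one]
      linear_combination hdet u hu x hx
  · push Not at hT
    exact ⟨![1, 0], fun h => one_ne_zero (congrFun h 0),
      fun x hx => by rw [hT x hx, dotProduct_zero]⟩

end Fermat.Agent.AttachedLocal
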