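import Fermat.Agent.AttachedLocal.EigenClass
import Fermat.Agent.OrdinaryP.EigenRep
import Fermat.Agent.IharaTW.NewAtQ

/-!
# An eigensystem with `a_q = ± 1` at `q ∥ N` is new at `q`

Its eigenvectors in the lattice of parabolic homomorphisms are killed by the trace to level `N/q`:
otherwise the system would come from level `N/q`, and `X² - b X + q` would have the root `± 1`.
-/

set_option autoImplicit false

noncomputable section

open CongruenceSubgroup CuspForm Matrix
open scoped MatrixGroups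

namespace Fermat.Agent.AttachedLocal

open Fermat.Agent.Cosets (homRank)
open Fermat.Agent.GalRep (heckeMat heckeOp periodEquiv periodEquiv_heckeOp eigenspace
  mem_eigenspace coe_heckeOp_of_not_dvd exists_isEigenvector eigenCharacterInt
  eigenCharacterInt_heckeOp)
open Fermat.Agent.Ihara (qPrime invMat corMat resMat resMat_corMat invMat_invMat corMat_hecke
  invMat_hecke)
open ModularFormClass (qCoeff)

variable (M q : ℕ) [NeZero M] [Fact q.Prime] (hqM : ¬ q ∣ M)

include hqM in
/-- **No form of level `M` has the good eigensystem of one with `a_q = ± 1` at level `M q`.** -/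
theorem eq_zero_of_old_eigen [NeZero (M * q)] (κ : heckeAlgebra (M * q) 2 ∅ →+* ℂ)
    (hU : κ (heckeOp (M * q) (qPrime q)) ^ 2 = 1) {f : CuspForm (Gamma0 M) 2}
    (hf : ∀ l : Nat.Primes, ¬ (l : ℕ) ∣ M * q →
      (heckeOp M l : Module.End ℂ (CuspForm (Gamma0 M) 2)) f = κ (heckeOp (M * q) l) • f) :
    f = 0 := by
  classical
  have hq : q.Prime := Fact.out
  by_contra hf0
  obtain ⟨g, hg, hga⟩ := Newform.exists_eigenform_of_eigenvector {q}
    (fun l => if h : l.Prime then κ (heckeOp (M * q) ⟨l, h⟩) else 0) hf0 fun l hl hlM hlq => by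
      have h1 : ¬ l ∣ M * q := fun h => (hl.dvd_mul.mp h).elim hlM fun h' =>
        hlq ((Nat.prime_dvd_prime_iff_eq hl hq).mp h')
      simp only [dif_pos hl]
      rw [← coe_heckeOp_of_not_dvd M ⟨l, hl⟩ hlM]
      exact hf ⟨l, hl⟩ h1
  obtain ⟨M₀, hM₀, G, hG, hGa⟩ := Newform.exists_isNewform_goodEigensystem hg
  have : NeZero M₀ := ⟨fun h => NeZero.ne M (by simpa [h] using hM₀)⟩
  obtain ⟨v, hv0, hv⟩ := exists_isEigenvector (M * q) κ
  obtain ⟨g', hg', hg'v, -⟩ := hv.exists_normalizedEigenform hv0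
  have hop : ∀ l : Nat.Primes, κ (heckeOp (M * q) l) = qCoeff ⇑g' l := fun l => by
    have h := hg'v (heckeOp (M * q) l)
    have h2 : (heckeOp (M * q) l : Module.End ℂ (CuspForm (Gamma0 (M * q)) 2)) g' =
        qCoeff ⇑g' l • g' := by
      by_cases hl : (l : ℕ) ∣ M * q
      · rw [GalRep.coe_heckeOp_of_dvd _ l hl]
        exact Hecke.heckeULin_eigenform hg' l.2 hl
      · rw [coe_heckeOp_of_not_dvd _ l hl]
        exact Hecke.heckeTLin_eigenform hg' l.2 hl
    refine smul_left_injective ℂ (fun h0 : g' = 0 => ?_) (h.symm.trans h2)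
    have := hg'.qCoeff_one
    rw [h0] at this
    simp at this
  have hmem : g' ∈ Newform.dilateSpan (M * q) G := by
    refine Newform.mem_dilateSpan_of_eigen hG {q} fun l hl hlN hlq => ?_
    have hlM : ¬ l ∣ M := fun h => hlN (dvd_mul_of_dvd_left h q)
    have hlq' : l ∉ ({q} : Set ℕ) := by simpa using hlq
    rw [Hecke.heckeTLin_eigenform hg' hl hlN, ← hop ⟨l, hl⟩, hGa l hl hlM,
      hga l hl hlM hlq', dif_pos hl]
  have hqN : q ∣ M * q := dvd_mul_left q M
  have hsq : ¬ q ^ 2 ∣ M * q := fun h => hqM (by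
    rw [sq] at h
    exact Nat.dvd_of_mul_dvd_mul_right hq.pos h)
  have hrel := IharaTW.dilate_rel hG hq (fun h => hqM (h.trans hM₀)) hsq hmem
  have h2 := Hecke.eigenform_rec hg' hq q
  rw [if_pos hqN, add_zero, ← sq] at h2
  rw [h2, hg'.qCoeff_one, mul_one] at hrel
  rw [hop] at hU
  set β := qCoeff ⇑g' q
  change β ^ 2 = 1 at hU
  refine EigenBound.qCoeff_sq_ne_succ_sq hG.1 hq (fun h => hqM (h.trans hM₀)) ?_
  linear_combination (-(qCoeff ⇑G q * β) - (q + 1)) * hrel +
    (-(qCoeff ⇑G q) ^ 2 + (qCoeff ⇑G q * β) + (q + 1)) * hU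

include hqM in
/-- No vector of level `M` has the good eigensystem. -/
theorem eq_zero_of_old_eigenvec [NeZero (M * q)] (κ : heckeAlgebra (M * q) 2 ∅ →+* ℂ)
    (hU : κ (heckeOp (M * q) (qPrime q)) ^ 2 = 1) {z : Fin (homRank M) → ℂ}
    (hz : ∀ l : Nat.Primes, ¬ (l : ℕ) ∣ M * q →
      (heckeMat M l).map (Int.cast : ℤ → ℂ) *ᵥ z = κ (heckeOp (M * q) l) • z) : z = 0 := by
  obtain ⟨⟨f, g⟩, rfl⟩ := (periodEquiv M).surjective z
  have key : ∀ l : Nat.Primes, ¬ (l : ℕ) ∣ M * q →
      ((heckeOp M l : Module.End ℂ (CuspForm (Gamma0 M) 2)) f,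
        (heckeOp M l : Module.End ℂ (CuspForm (Gamma0 M) 2)) g) =
        κ (heckeOp (M * q) l) • (f, g) := fun l hl =>
    (periodEquiv M).injective (by rw [periodEquiv_heckeOp, hz l hl, map_smul])
  rw [eq_zero_of_old_eigen M q hqM κ hU fun l hl => congrArg Prod.fst (key l hl),
    eq_zero_of_old_eigen M q hqM κ hU fun l hl => congrArg Prod.snd (key l hl)]
  exact map_zero _

/-- **Eigenvectors of a system with `a_q = ± 1` are new at `q`.** -/
theorem isNewVec_of_eigen [NeZero (M * q)] {f : CuspForm (Gamma0 (M * q)) 2}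
    (hf : f.IsNormalizedEigenform) {ε : ℤ} (hε : ε = 1 ∨ ε = -1)
    (hεq : eigenCharacterInt hf (heckeOp (M * q) (qPrime q)) = ε)
    [Module.Finite ℤ (heckeAlgebra (M * q) 2 ∅)] {F : Type*} [Field F] [CharZero F]
    (κ : (eigenCharacterInt hf).range →+* F) {u : Fin (homRank (M * q)) → F}
    (hu : ∀ l, (heckeMat (M * q) l).map (Int.cast : ℤ → F) *ᵥ u =
      κ ((eigenCharacterInt hf).rangeRestrict (heckeOp (M * q) l)) • u) :
    IsNewVec M q hqM ε u := by
  classical
  have : Module.Finite ℤ (eigenCharacterInt hf).range :=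
    Module.Finite.of_surjective (eigenCharacterInt hf).rangeRestrict.toIntAlgHom.toLinearMap
      (eigenCharacterInt hf).rangeRestrict_surjective
  have hmv : ∀ {l m n : ℕ} (X : Matrix (Fin l) (Fin m) ℤ) (Y : Matrix (Fin m) (Fin n) ℤ)
      (v : Fin n → F), X.map (Int.cast : ℤ → F) *ᵥ (Y.map (Int.cast : ℤ → F) *ᵥ v) =
        (X * Y).map (Int.cast : ℤ → F) *ᵥ v := fun X Y v =>
    (Matrix.mulVec_mulVec v _ _).trans
      (congrArg (· *ᵥ v) (Matrix.map_mul (f := Int.castRingHom F)).symm)
  set z := (corMat M q hqM).map (Int.cast : ℤ → F) *ᵥ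
    ((invMat M q hqM).map (Int.cast : ℤ → F) *ᵥ u) with hzdef
  have hz : z = 0 := by
    by_cases hM : 2 ≤ M
    swap
    · obtain rfl : M = 1 := by have := NeZero.pos M; omega
      exact funext fun i => absurd i.2 (by simp [LevelLowerP.homRank_one])
    let t : Nat.Primes → Matrix (Fin (homRank M)) (Fin (homRank M)) ℤ :=
      fun l => if (l : ℕ) ∣ M * q then 0 else heckeMat M l
    let a : Nat.Primes → (eigenCharacterInt hf).range :=
      fun l => if (l : ℕ) ∣ M * q then 0 else
          (eigenCharacterInt hf).rangeRestrict (heckeOp (M * q) l)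
    have hdim : Module.finrank F (eigenspace t fun l => κ (a l)) = 0 := by
      refine OrdinaryP.finrank_eigenspace_of_complex t a (fun κ' => ?_) κ
      rw [Submodule.finrank_eq_zero, Submodule.eq_bot_iff]
      intro w hw
      rw [mem_eigenspace] at hw
      refine eq_zero_of_old_eigenvec M q hqM (κ'.comp (eigenCharacterInt hf).rangeRestrict)
        ?_ fun l hl => ?_
      · have h1 : (eigenCharacterInt hf).rangeRestrict (heckeOp (M * q) (qPrime q)) =
            (ε : (eigenCharacterInt hf).range) :=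
          Subtype.ext (by rw [SubringClass.coe_intCast]; exact hεq)
        rw [RingHom.comp_apply, h1, map_intCast]
        rcases hε with rfl | rfl <;> norm_num
      · have h := hw l
        simp only [t, a, if_neg hl] at h
        exact h
    rw [Submodule.finrank_eq_zero, Submodule.eq_bot_iff] at hdim
    refine hdim z ?_
    rw [mem_eigenspace]
    intro l
    by_cases hl : (l : ℕ) ∣ M * q
    · simp only [t, a, if_pos hl]
      rw [map_zero, zero_smul, Matrix.map_zero _ Int.cast_zero, Matrix.zero_mulVec]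
    · simp only [t, a, if_neg hl]
      rw [hzdef, hmv (corMat M q hqM), hmv, ← Matrix.mul_assoc,
        ← corMat_hecke M q hqM hM l hl, Matrix.mul_assoc, ← invMat_hecke M q hqM l hl,
        ← Matrix.mul_assoc, ← hmv, hu l, Matrix.mulVec_smul]
  refine ⟨?_, hz⟩
  have h1 := congrArg ((resMat M q).map (Int.cast : ℤ → F) *ᵥ ·) hz
  simp only [hzdef, Matrix.mulVec_zero] at h1
  rw [hmv (corMat M q hqM), hmv, ← Matrix.mul_assoc, resMat_corMat, Matrix.add_mul, Matrix.one_mul,
    Matrix.mul_assoc,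
    invMat_invMat, Matrix.mul_one, Matrix.map_add _ Int.cast_add, Matrix.add_mulVec, hu] at h1
  have h2 : κ ((eigenCharacterInt hf).rangeRestrict (heckeOp (M * q) (qPrime q))) = (ε : F) := by
    rw [show (eigenCharacterInt hf).rangeRestrict (heckeOp (M * q) (qPrime q)) =
        (ε : (eigenCharacterInt hf).range) from
      Subtype.ext (by rw [SubringClass.coe_intCast]; exact hεq), map_intCast]
  rw [h2, Int.cast_smul_eq_zsmul, add_eq_zero_iff_eq_neg] at h1
  rw [h1, neg_smul]

end Fermat.Agent.AttachedLocal
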