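import Fermat.Agent.AttachedLocal.Torsion
import Fermat.Agent.AttachedLocal.NewLattice
import Fermat.Agent.AttachedLocal.Coords
import Fermat.Agent.AttachedLocal.Line
import Fermat.Agent.Root.ClassField.CycloChar

/-!
# The local shape of the eigen representation at `q ∥ N` with `a_q = ± 1`

The vectors moved by inertia and by `φ - a_q` have classes on the two sheets. If they spanned a
sublattice of full rank every class of the lattice would live on the two sheets, and Frobenius
(`q ≠ p`) or inertia (`q = p`) would be a scalar whose square is not the cyclotomic character.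
-/

set_option autoImplicit false

noncomputable section

open CongruenceSubgroup CuspForm Matrix IsLocalRing
open scoped MatrixGroups

namespace Fermat.Agent.AttachedLocal

open Fermat.Agent.Cosets (homRank)
open Fermat.Agent.GalRep (heckeMat heckeOp torsRho padicHom cycl toZModPow_cycl cycl_frobenius
  eigenCharacterInt)
open Fermat.Agent.Ihara (qPrime invMat corMat)
open Fermat.Agent.Semistable (LevelData ALData)
open Fermat.Agent.OrdinaryP (EigenRep)

local notation "ℚbar" => AlgebraicClosure ℚ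
local notation "Γℚbar" => AlgebraicClosure ℚ ≃ₐ[ℚ] AlgebraicClosure ℚ

/-- Some inertia element at a place over `2` moves `i`. -/
theorem exists_inertia_neg_i {A : ValuationSubring ℚbar} (hA : A.LiesOverPrime 2) {i : ℚbar}
    (hi : i ^ 2 = -1) : ∃ τ ∈ A.inertiaSubgroupIn ℚ, τ i = -i := by
  have hpm : ∀ σ : Γℚbar, σ i = i ∨ σ i = -i := fun σ =>
    sq_eq_sq_iff_eq_or_eq_neg.mp (by rw [← map_pow, hi, map_neg, map_one])
  by_contra hcon
  push Not at hcon
  have hfix : ∀ τ ∈ A.inertiaSubgroupIn ℚ, τ i = i := fun τ hτ => (hpm τ).resolve_right (hcon τ hτ)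
  obtain ⟨c, hc⟩ := Gal.mem_range_of_inertia_fixed (x := i) fun p hp B hB σ hσ => by
    by_cases hp2 : p = 2
    · subst hp2
      obtain ⟨g, rfl⟩ := Gal.exists_smul_eq_of_liesOverPrime hp hA hB
      have h1 : g⁻¹ * σ * g ∈ A.inertiaSubgroupIn ℚ := by
        rw [← Gal.mem_inertia_smul_iff g]
        rwa [show g * (g⁻¹ * σ * g) * g⁻¹ = σ by group]
      have h2 := congrArg g (hfix _ h1)
      rw [AlgEquiv.mul_apply, AlgEquiv.mul_apply, AlgEquiv.aut_inv, AlgEquiv.apply_symm_apply] at h2
      rcases hpm g with h | h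
      · rwa [h] at h2
      · rw [h, map_neg] at h2
        exact neg_injective h2
    · exact GalRep.inertia_apply_rootOfUnity hp (m := 2 ^ 2)
        (fun hd => hp2 ((Nat.prime_dvd_prime_iff_eq hp Nat.prime_two).mp (hp.dvd_of_dvd_pow hd)))
        hB hσ (by rw [show (2 : ℕ) ^ 2 = 2 * 2 from rfl, pow_mul, hi, neg_one_sq])
  have h3 : (c * c : ℚ) = -1 := (algebraMap ℚ ℚbar).injective (by
    rw [map_mul, hc, ← sq, hi, map_neg, map_one])
  nlinarith [mul_self_nonneg c]

variable {M q : ℕ} [NeZero M] [NeZero q] [Fact q.Prime] {p : ℕ} [Fact p.Prime]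
  {O : Type} [CommRing O] [IsDomain O] [IsDiscreteValuationRing O]
  [IsAdicComplete (maximalIdeal O) O] [CharZero O]

omit [NeZero q] [Fact q.Prime] [Fact p.Prime] [IsAdicComplete (maximalIdeal O) O] [CharZero O] in
theorem mem_span_pow_of_le {n : ℕ} (hn : 1 ≤ n) {x : O} (hp : (p : O) ∈ maximalIdeal O)
    (h : x ∈ Ideal.span {(p : O) ^ n}) : x ∈ maximalIdeal O :=
  (Ideal.span_singleton_le_iff_mem _).mpr (Ideal.pow_mem_of_mem _ hp n hn) h

/-- **The local shape at `q`.** -/
theorem exists_local_condition [Finite (ResidueField O)] {hp : (p : O) ∈ maximalIdeal O}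
    {f : CuspForm (Gamma0 (M * q)) 2} (hf : f.IsNormalizedEigenform) {ε : ℤ}
    (hε : ε = 1 ∨ ε = -1) (hεq : eigenCharacterInt hf (heckeOp (M * q) (qPrime q)) = ε)
    (hqM : ¬ q ∣ M) [Module.Finite ℤ (heckeAlgebra (M * q) 2 ∅)]
    (κ₀ : (eigenCharacterInt hf).range →+* O)
    (e : EigenRep (M * q) p hp (κ₀.comp (eigenCharacterInt hf).rangeRestrict))
    (A : ValuationSubring ℚbar) (hA : A.LiesOverPrime q) :
    ∃ s : A.decompositionSubgroup ℚ →* O, (∀ g, s g * s g = 1) ∧
      (∀ g : A.decompositionSubgroup ℚ, (g : Γℚbar) ∈ A.inertiaSubgroupIn ℚ → s g = 1) ∧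
      (∀ g : A.decompositionSubgroup ℚ, A.IsFrobeniusAt (g : Γℚbar) q → s g = ε) ∧
      ∀ g h : A.decompositionSubgroup ℚ,
        (e.R g - ((e.R g).det * s g) • (1 : Matrix (Fin 2) (Fin 2) O)) *
          (e.R h - s h • (1 : Matrix (Fin 2) (Fin 2) O)) = 0 := by
  classical
  have hq : q.Prime := Fact.out
  have := Gal.isAlgClosed_residueField A
  have := Gal.charP_residueField A hq hA
  obtain ⟨L⟩ := LevelData.nonempty_residue A hA M hqM
  obtain ⟨w⟩ := ALData.exists_of_coprime hq hqM
  have hπ : Function.Surjective (IsLocalRing.residue A) := IsLocalRing.residue_surjective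
  let : Algebra ℤ_[p] O := (padicHom p O hp).toAlgebra
  have halg : (algebraMap ℤ_[p] O) = padicHom p O hp := rfl
  have := moduleFinite_padicInt p O hp
  have hinjp : Function.Injective (algebraMap ℤ_[p] O) := by
    refine (injective_iff_map_eq_zero _).mpr fun x hx => ?_
    by_contra hx0
    rw [PadicInt.unitCoeff_spec hx0, map_mul, map_pow, map_natCast] at hx
    exact (mul_ne_zero (((PadicInt.unitCoeff hx0).isUnit.map (algebraMap ℤ_[p] O)).ne_zero)
      (pow_ne_zero _ (Nat.cast_ne_zero.mpr (Fact.out : p.Prime).ne_zero))) hx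
  have : Module.IsTorsionFree ℤ_[p] O := Module.IsTorsionFree.of_smul_eq_zero fun c x hcx => by
    rw [Algebra.smul_def, mul_eq_zero] at hcx
    exact hcx.imp_left fun h => hinjp (h.trans (map_zero _).symm)
  set b := Module.Free.chooseBasis ℤ_[p] O
  have hεO : (ε : O) * ε = 1 := by rcases hε with rfl | rfl <;> simp
  -- lattice vectors are new at `q`
  have hnew : ∀ x : Fin 2 → O, IsNewVec M q hqM ε (e.P *ᵥ x) := by
    intro x
    have : CharZero (FractionRing O) :=
      charZero_of_injective_algebraMap (IsFractionRing.injective O (FractionRing O))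
    set g := algebraMap O (FractionRing O)
    have hg : Function.Injective g := IsFractionRing.injective O (FractionRing O)
    have hmap : ∀ {l m : ℕ} (X : Matrix (Fin l) (Fin m) ℤ) (v : Fin m → O),
        g ∘ (X.map (Int.cast : ℤ → O) *ᵥ v) = X.map (Int.cast : ℤ → FractionRing O) *ᵥ (g ∘ v) :=
      fun X v => funext fun i => by
        rw [Function.comp_apply, RingHom.map_mulVec, Matrix.map_map]
        congr 2
        exact funext fun n => map_intCast g n
    have hu : ∀ l, (heckeMat (M * q) l).map (Int.cast : ℤ → FractionRing O) *ᵥ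
        (g ∘ (e.P *ᵥ x)) = (g.comp κ₀) ((eigenCharacterInt hf).rangeRestrict
          (heckeOp (M * q) l)) • (g ∘ (e.P *ᵥ x)) := fun l => by
      rw [← hmap, Matrix.mulVec_mulVec, e.eigen l, Matrix.smul_mulVec]
      funext i
      simp
    obtain ⟨h1, h2⟩ := isNewVec_of_eigen M q hqM hf hε hεq (g.comp κ₀) hu
    rw [← hmap] at h1
    rw [← hmap, ← hmap] at h2
    refine ⟨?_, ?_⟩
    · funext i
      refine hg ?_
      rw [← Function.comp_apply (f := g), h1]
      simp
    · funext i
      refine hg ?_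
      rw [← Function.comp_apply (f := g), h2]
      simp
  have hnewc : ∀ (x : Fin 2 → O) i n, IsNewVec M q hqM ε (coordVec b i n (e.P *ᵥ x)) := by
    intro x i n
    refine ⟨?_, ?_⟩
    · rw [← coordVec_intMat, (hnew x).1, map_zsmul]
    · rw [← coordVec_intMat, ← coordVec_intMat, (hnew x).2, map_zero]
  -- the action in coordinates
  have hact : ∀ σ i n (x : Fin 2 → O), coordVec b i n (e.P *ᵥ (e.R σ *ᵥ x)) =
      torsRho (M * q) (p ^ n) σ *ᵥ coordVec b i n (e.P *ᵥ x) := fun σ i n x => by
    rw [Matrix.mulVec_mulVec, ← e.intertwine σ, ← Matrix.mulVec_mulVec, RingHom.mapMatrix_apply,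
      ← halg, coordVec_mulVec, e.toZModPow_Rp]
  -- the sublattice on the two sheets
  let T : Submodule O (Fin 2 → O) :=
    { carrier := {x | ∀ (o : O) i n, coordVec b i n (e.P *ᵥ (o • x)) ∈
        splitVecs L w hq hA hπ hqM (p ^ n)}
      zero_mem' := fun o i n => by
        rw [smul_zero, Matrix.mulVec_zero, map_zero]; exact zero_mem _
      add_mem' := fun {x y} hx hy o i n => by
        rw [smul_add, Matrix.mulVec_add, map_add]; exact add_mem (hx o i n) (hy o i n)
      smul_mem' := fun c x hx o i n => by rw [smul_smul]; exact hx (o * c) i n }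
  have hTI : ∀ τ ∈ A.inertiaSubgroupIn ℚ, ∀ x, e.R τ *ᵥ x - x ∈ T := fun τ hτ x o i n => by
    rw [smul_sub, ← Matrix.mulVec_smul, Matrix.mulVec_sub, map_sub, hact]
    exact inertia_sub_mem_splitVecs L w hq hA hπ hqM hτ _
  have hTF : ∀ φ : Γℚbar, A.IsFrobeniusAt φ q → ∀ x, e.R φ *ᵥ x - (ε : O) • x ∈ T :=
    fun φ hφ x o i n => by
    rw [smul_sub, ← Matrix.mulVec_smul, smul_comm, Matrix.mulVec_sub, map_sub, hact,
      Matrix.mulVec_smul e.P (ε : O), Int.cast_smul_eq_zsmul, map_zsmul]
    exact frob_sub_mem_splitVecs L w hq hA hπ hqM hε hφ (hnewc _ i n)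
  rcases exists_pow_smul_mem_or_exists_row hp T with ⟨k, hk⟩ | ⟨r, i₀, hr, hrT⟩
  swap
  · refine exists_row_character hq hA e.R e.continuous hεO hr (fun τ hτ => funext fun j => ?_)
      (fun φ hφ => funext fun j => ?_)
    · have h := hrT _ (hTI τ hτ (Pi.single j 1))
      rw [dotProduct_sub, Matrix.dotProduct_mulVec, dotProduct_single, dotProduct_single, mul_one,
        mul_one, sub_eq_zero] at h
      exact h
    · have h := hrT _ (hTF φ hφ (Pi.single j 1))
      rw [dotProduct_sub, dotProduct_smul, Matrix.dotProduct_mulVec, dotProduct_single,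
        dotProduct_single, mul_one, mul_one, sub_eq_zero] at h
      exact h
  exfalso
  -- every class of the lattice lives on the two sheets
  have hall : ∀ (x : Fin 2 → O) i n,
      coordVec b i n (e.P *ᵥ x) ∈ splitVecs L w hq hA hπ hqM (p ^ n) := by
    intro x i n
    have h1 := hk x 1 i (n + k)
    rw [one_smul, ← Nat.cast_pow, Matrix.mulVec_smul, coordVec_natSmul] at h1
    have h2 := cast_mem_splitVecs L w hq hA hπ hqM (n := p ^ n) (j := p ^ k)
      (pow_add p n k).symm h1
    rw [← coordVec_cast b i (Nat.le_add_right n k)]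
    exact h2
  by_cases hqp : q = p
  · subst hqp
    -- a scalar on the lattice modulo `q ^ j`
    have hscalar : ∀ (τ : Γℚbar) (j : ℕ) (c : O), (∀ (x : Fin 2 → O) i,
        coordVec b i j (e.P *ᵥ (e.R τ *ᵥ x - c • x)) = 0) →
        (e.R τ).det - c * c ∈ Ideal.span {(q : O) ^ j} := fun τ j c h => by
      set I := Ideal.span {(q : O) ^ j}
      have h1 : ∀ a b' : Fin 2, (e.R τ - c • (1 : Matrix (Fin 2) (Fin 2) O)) a b' ∈ I := by
        intro a b'
        have h2 := mem_span_of_coordVec_eq_zero b (fun i => h (Pi.single b' 1) i)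
        have h3 : (e.R τ - c • (1 : Matrix (Fin 2) (Fin 2) O)) a b' =
            (e.Q *ᵥ (e.P *ᵥ (e.R τ *ᵥ Pi.single b' 1 - c • Pi.single b' 1))) a := by
          rw [Matrix.mulVec_mulVec, e.Q_mul_P, Matrix.one_mulVec]
          simp [Matrix.one_apply, Pi.single_apply]
        rw [h3, Matrix.mulVec, dotProduct]
        exact sum_mem fun l _ => Ideal.mul_mem_left _ _ (h2 l)
      rw [Matrix.det_fin_two]
      have h00 := h1 0 0
      have h01 := h1 0 1
      have h11 := h1 1 1
      simp at h00 h01 h11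
      rw [show e.R τ 0 0 * e.R τ 1 1 - e.R τ 0 1 * e.R τ 1 0 - c * c =
        (e.R τ 0 0 - c) * e.R τ 1 1 + c * (e.R τ 1 1 - c) - e.R τ 0 1 * e.R τ 1 0 by ring]
      exact sub_mem (add_mem (I.mul_mem_right _ h00) (I.mul_mem_left _ h11)) (I.mul_mem_right _ h01)
    by_cases hq2 : q = 2
    · subst hq2
      obtain ⟨i, hi⟩ := IsAlgClosed.exists_pow_nat_eq (-1 : ℚbar) two_pos
      obtain ⟨τ, hτ, hτi⟩ := exists_inertia_neg_i hA hi
      have h := hscalar τ 2 (-1) fun x j => by
        rw [neg_smul, one_smul, sub_neg_eq_add, Matrix.mulVec_add, map_add, hact,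
          inertia_eq_neg_of_mem_splitVecs L w hq hA hπ hqM rfl rfl hτ hi hτi hε (hnewc x j 2)
            (hall x j 2), neg_add_cancel]
      have hc : PadicInt.toZModPow 2 (cycl 2 τ) = (3 : ℕ) := toZModPow_cycl 2 τ 2 3 fun μ hμ => by
        have hμ' : μ ^ 2 = 1 ∨ μ ^ 2 = -1 := sq_eq_one_iff.mp (by rw [← pow_mul]; exact hμ)
        rcases hμ' with h' | h'
        · rw [show μ ^ 3 = μ ^ 2 * μ by ring, h', one_mul]
          rcases sq_eq_one_iff.mp h' with rfl | rfl
          · rw [map_one]
          · rw [map_neg, map_one]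
        · rcases sq_eq_sq_iff_eq_or_eq_neg.mp (h'.trans hi.symm) with rfl | rfl
          · rw [hτi, show μ ^ 3 = μ ^ 2 * μ by ring, h']; ring
          · rw [map_neg, hτi, show (-i) ^ 3 = -(i ^ 2 * i) by ring, hi]; ring
      have hd : (e.R τ).det - 3 ∈ Ideal.span {((2 : ℕ) : O) ^ 2} := by
        obtain ⟨u, hu⟩ := Ideal.mem_span_singleton'.mp
          (show cycl 2 τ - ((3 : ℕ) : ℤ_[2]) ∈ Ideal.span {((2 : ℕ) : ℤ_[2]) ^ 2} by
            rw [← PadicInt.ker_toZModPow, RingHom.mem_ker, map_sub, hc, map_natCast, sub_self])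
        rw [e.det_eq, show (3 : O) = padicHom 2 O hp ((3 : ℕ) : ℤ_[2]) from
          (map_natCast (padicHom 2 O hp) 3).symm, ← map_sub, ← hu,
          map_mul, map_pow, map_natCast]
        exact Ideal.mul_mem_left _ _ (Ideal.mem_span_singleton_self _)
      obtain ⟨u, hu⟩ := Ideal.mem_span_singleton'.mp (sub_mem h hd)
      push_cast at hu hp
      have h1 : (1 : O) = 2 * u := mul_left_cancel₀ (two_ne_zero : (2 : O) ≠ 0)
        (by linear_combination -hu)
      exact (maximalIdeal.isMaximal O).ne_top ((Ideal.eq_top_iff_one _).mpr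
        (h1 ▸ Ideal.mul_mem_right _ _ hp))
    · have hq3 : 3 ≤ q := by have := hq.two_le; omega
      obtain ⟨τ, hτ, hτc⟩ := Root.ClassField.exists_inertia_cycloChar_eq q hA (-1)
      have hval : ((-1 : (ZMod q)ˣ) : ZMod q).val = q - 1 := by
        have : NeZero (1 : ZMod q) := ⟨one_ne_zero⟩
        rw [Units.val_neg, Units.val_one, ZMod.val_neg_of_ne_zero, ZMod.val_one]
      have hτζ : τ (Root.ClassField.rootQ q) = Root.ClassField.rootQ q ^ (q - 1) := by
        rw [← Root.ClassField.cycloChar_spec q τ, hτc, hval]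
      have h := hscalar τ 1 ((q - 1 : ℕ) : O) fun x j => by
        rw [Matrix.mulVec_sub, map_sub, hact, inertia_eq_of_mem_splitVecs L w hq hA hπ hqM rfl hτ
          (Root.ClassField.rootQ_spec q) (by omega) hτζ hε (hnewc x j 1) (hall x j 1),
          Matrix.mulVec_smul, coordVec_natSmul, natCast_zsmul, sub_self]
      have hc : PadicInt.toZModPow 1 (cycl q τ) = (q - 1 : ℕ) :=
        toZModPow_cycl q τ 1 (q - 1) fun μ hμ => by
          rw [pow_one] at hμ
          obtain ⟨l, -, rfl⟩ := (Root.ClassField.rootQ_spec q).eq_pow_of_pow_eq_one hμ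
          rw [map_pow, hτζ, ← pow_mul, ← pow_mul, mul_comm]
      have hd : (e.R τ).det - ((q - 1 : ℕ) : O) ∈ Ideal.span {(q : O) ^ 1} := by
        obtain ⟨u, hu⟩ := Ideal.mem_span_singleton'.mp
          (show cycl q τ - ((q - 1 : ℕ) : ℤ_[q]) ∈ Ideal.span {(q : ℤ_[q]) ^ 1} by
            rw [← PadicInt.ker_toZModPow, RingHom.mem_ker, map_sub, hc, map_natCast, sub_self])
        rw [e.det_eq, ← map_natCast (padicHom q O hp) (q - 1), ← map_sub, ← hu, map_mul, map_pow,
          map_natCast]
        exact Ideal.mul_mem_left _ _ (Ideal.mem_span_singleton_self _)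
      have h2 := mem_span_pow_of_le le_rfl hp (sub_mem h hd)
      have hcast : ((q - 1 : ℕ) : O) = (q : O) - 1 := by
        rw [Nat.cast_sub hq.one_le, Nat.cast_one]
      rw [hcast] at h2
      have hm : (2 : O) ∈ maximalIdeal O := by
        have h3 : ((e.R τ).det - ((q : O) - 1) * ((q : O) - 1) - ((e.R τ).det - ((q : O) - 1))) +
            (q : O) * ((q : O) - 3) = -2 := by ring
        have h4 := add_mem h2 ((maximalIdeal O).mul_mem_right ((q : O) - 3) hp)
        rw [h3, neg_mem_iff] at h4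
        exact h4
      obtain ⟨l, hl⟩ := hq.odd_of_ne_two hq2
      have h1 : (1 : O) ∈ maximalIdeal O := by
        have := sub_mem hp ((maximalIdeal O).mul_mem_right (l : O) hm)
        rwa [show (q : O) - 2 * l = 1 by rw [hl]; push_cast; ring] at this
      exact (maximalIdeal.isMaximal O).ne_top ((Ideal.eq_top_iff_one _).mpr h1)
  · obtain ⟨φ, hφ⟩ := Gal.exists_isFrobeniusAt hq hA
    have hscal : e.R φ = ((q : O) * ε) • (1 : Matrix (Fin 2) (Fin 2) O) := by
      refine Matrix.ext_of_mulVec_single fun j => ?_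
      set x : Fin 2 → O := Pi.single j 1
      have h1 : e.P *ᵥ (e.R φ *ᵥ x) - ((q : ℤ) * ε) • (e.P *ᵥ x) = 0 := by
        refine eq_zero_of_coordVec_eq_zero b fun i n => ?_
        rw [map_sub, map_zsmul, hact, frob_eq_of_mem_splitVecs L w hq hA hπ hqM
          (fun hd => hqp ((Nat.prime_dvd_prime_iff_eq hq Fact.out).mp (hq.dvd_of_dvd_pow hd)))
          hφ hε (hnewc x i n) (hall x i n), sub_self]
      rw [sub_eq_zero] at h1
      have h2 := congrArg (e.Q *ᵥ ·) h1
      simp only [Matrix.mulVec_mulVec, ← Matrix.mul_assoc, e.Q_mul_P, Matrix.one_mul,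
        Matrix.mulVec_smul, Matrix.one_mulVec] at h2
      rw [h2, Matrix.smul_mulVec, Matrix.one_mulVec]
      funext i
      simp
    have hdet := congrArg Matrix.det hscal
    rw [e.det_eq, cycl_frobenius p hq hqp hA hφ, map_natCast, Matrix.det_smul, Matrix.det_one,
      Fintype.card_fin, mul_one, mul_pow, sq (ε : O), hεO, mul_one] at hdet
    have : q = q ^ 2 := by exact_mod_cast hdet
    nlinarith [hq.two_le]

end Fermat.Agent.AttachedLocal
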