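import Fermat.Agent.AttachedLocal.Series

/-!
# Membership in the ring of reduced functions of level `M`

The ring is closed under taking `q`-th roots inside Laurent series, and the normalised reduction
of a regular function on either sheet is a quotient of two of its elements.
-/

set_option autoImplicit false

noncomputable section

namespace Fermat.Agent.AttachedLocal

open HahnSeries AlgebraicCurve ModularCurve Fermat.Agent.Reduction Fermat.Agent.Semistable
open Fermat.Agent.LevelLowerP (seriesNorm seriesNorm_mul seriesNorm_C)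

variable {K F k : Type*} [Field K] [Field F] [Algebra K F] [Field k] {A : ValuationSubring K}
  {π : A →+* k} {q : ℕ} [NeZero q] {S : Sheets A π q F}

/-! ### Roots in `C` -/

/-- No regular reduced function vanishes at the cusp, except zero. -/
theorem eq_zero_of_poleLE_neg {x : LaurentSeries k} (hx : x ∈ S.C) (hp : PoleLE (-1) x) :
    x = 0 := by
  by_contra hx0
  set n : ℤ := (S.n₀ : ℤ) + 1 with hn
  have := S.finiteDimensional_Cle n
  have := S.finiteDimensional_Cle (n - 1)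
  let f : S.Cle n →ₗ[k] S.Cle (n - 1) :=
    { toFun := fun y => ⟨x * y, by
        refine ⟨?_, S.C.mul_mem hx y.2.2⟩
        show PoleLE (n - 1) (x * (y : LaurentSeries k))
        exact (hp.mul y.2.1).mono (by omega)⟩
      map_add' := fun a b => Subtype.ext (mul_add x _ _)
      map_smul' := fun c a => Subtype.ext (by
        simp only [RingHom.id_apply, SetLike.val_smul, smul_eq_algebraMap_mul]
        exact mul_left_comm _ _ _) }
  have hinj : Function.Injective f := fun a b h =>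
    Subtype.ext (mul_left_cancel₀ hx0 (congrArg Subtype.val h))
  have h1 := LinearMap.finrank_le_finrank_of_injective hinj
  have h2 := S.finrank_Cle (n := n) (by omega)
  have h3 := S.finrank_Cle (n := n - 1) (by omega)
  omega

/-- **`C` contains every series whose `q`-expansion it contains.** -/
theorem mem_of_qExpand_mem {y : LaurentSeries k} (hy : qExpand k q y ∈ S.C) : y ∈ S.C := by
  obtain ⟨a, -, ha⟩ := Sheets.exists_poleLE 0 y
  set N : ℤ := (S.n₀ : ℤ) + a + 2 * |S.gM| + 1 with hN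
  set n : ℕ := N.toNat + a with hn
  have hg := abs_nonneg S.gM
  have hg' := le_abs_self S.gM
  have := S.finiteDimensional_Cle N
  let Φ : S.Cle N × S.Cle N →ₗ[k] (Fin (n + 1) → k) :=
    { toFun := fun c i => ((c.1 : LaurentSeries k) * y + c.2).coeff (-(n : ℤ) + (i : ℕ))
      map_add' := fun c d => funext fun i => by
        simp only [Prod.fst_add, Prod.snd_add, Submodule.coe_add, add_mul, Pi.add_apply,
          HahnSeries.coeff_add]
        ring
      map_smul' := fun r c => funext fun i => by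
        simp only [RingHom.id_apply, Prod.smul_fst, Prod.smul_snd, SetLike.val_smul, Pi.smul_apply,
          HahnSeries.coeff_add, smul_eq_algebraMap_mul, smul_eq_mul, mul_assoc]
        rw [← smul_eq_algebraMap_mul, ← smul_eq_algebraMap_mul, coeff_smulC, coeff_smulC]
        ring }
  obtain ⟨⟨c, c'⟩, hc, hne⟩ : ∃ c ∈ LinearMap.ker Φ, c ≠ 0 := by
    refine Submodule.exists_mem_ne_zero_of_ne_bot fun hbot => ?_
    have h1 := LinearMap.finrank_le_finrank_of_injective (LinearMap.ker_eq_bot.mp hbot)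
    rw [Module.finrank_prod, Module.finrank_fin_fun] at h1
    have h2 := S.finrank_Cle (n := N) (by omega)
    omega
  set z : LaurentSeries k := (c : LaurentSeries k) * y + c' with hz
  have hzp : PoleLE (n : ℤ) z := fun i hi => by
    rw [hz, HahnSeries.coeff_add, (c.2.1.mul ha) i (by omega), c'.2.1 i (by omega), add_zero]
  have hzn : PoleLE (-1) z := fun i hi => by
    rcases lt_or_ge i (-(n : ℤ)) with h1 | h1
    · exact hzp i h1
    · obtain ⟨j, hj⟩ := Int.eq_ofNat_of_zero_le (a := i + n) (by omega)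
      have := congrFun (LinearMap.mem_ker.mp hc) ⟨j, by omega⟩
      show z.coeff i = 0
      rw [show i = -(n : ℤ) + (j : ℕ) by omega]
      exact this
  have hzC : qExpand k q z ∈ S.C := by
    rw [hz, map_add, map_mul]
    exact S.C.add_mem (S.C.mul_mem (Sheets.qExpand_mem c.2.2) hy) (Sheets.qExpand_mem c'.2.2)
  have hz0 : z = 0 := by
    refine qExpand_injective q ?_
    rw [map_zero]
    refine eq_zero_of_poleLE_neg hzC ((poleLE_qExpand q hzn).mono ?_)
    have := NeZero.pos q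
    omega
  have hc0 : (c : LaurentSeries k) ≠ 0 := fun h => hne <| by
    rw [hz, h, zero_mul, zero_add] at hz0
    exact Prod.ext (Subtype.ext h) (Subtype.ext hz0)
  have hyc : y * c ∈ S.C := by
    rw [mul_comm, eq_neg_of_add_eq_zero_left hz0]
    exact S.C.neg_mem c'.2.2
  -- `y ^ q` is in `C`, by the same argument for the conjugate of `y`
  set y' := coeffMap (S.σ : k →+* k) y with hy'
  have hy'C : qExpand k q y' ∈ S.C := by
    rw [hy', ← ModularCurve.coeffMap_qExpand]
    exact S.σ_mem _ hy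
  rw [hy', S.frob_eq] at hy'C
  exact S.normal y _ c.2.2 hc0 hyc q (NeZero.pos q) hy'C

/-- **`C` is closed under `q`-th roots.** -/
theorem mem_of_pow_q_mem {y : LaurentSeries k} (hy : y ^ q ∈ S.C) : y ∈ S.C := by
  rw [← S.frob_eq] at hy
  have h := S.σ_symm_mem _ (mem_of_qExpand_mem hy)
  convert h using 1
  ext i
  simp

/-- Reduced pairs are closed under `q`-th roots. -/
theorem isCbar_of_pow_q [IsAlgClosed k] [Fact q.Prime] [CharP k q] {x : Ser2 k}
    (h : S.IsCbar (x ^ q)) : S.IsCbar x := by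
  obtain ⟨h1, h2⟩ := h.mem
  have hx1 : x.1 ∈ S.C := mem_of_pow_q_mem h1
  have hx2 : x.2 ∈ S.C := mem_of_pow_q_mem h2
  show S.IsCbar (Sheets.pr ((⟨x.1, hx1⟩, ⟨x.2, hx2⟩) : S.C × S.C))
  rw [Sheets.isCbar_iff]
  intro u
  have hu := (Sheets.isCbar_iff ((⟨x.1, hx1⟩ : S.C) ^ q, (⟨x.2, hx2⟩ : S.C) ^ q)).mp h u
  rw [show (u.1 : S.Pt) ((⟨x.1, hx1⟩ : S.C) ^ q) = (u.1 : S.Pt) ⟨x.1, hx1⟩ ^ q from
      _root_.map_pow u.1.1 _ _,
    show S.flip u.1 ((⟨x.2, hx2⟩ : S.C) ^ q) = S.flip u.1 ⟨x.2, hx2⟩ ^ q from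
      _root_.map_pow (S.flip u.1).1 _ _] at hu
  exact frobenius_inj k q hu

theorem isCbar_of_pow_q_pow [IsAlgClosed k] [Fact q.Prime] [CharP k q] {x : Ser2 k} {j : ℕ}
    (h : S.IsCbar (x ^ q ^ j)) : S.IsCbar x := by
  induction j generalizing x with
  | zero => simpa using h
  | succ j ih => exact isCbar_of_pow_q (ih (by rwa [← pow_mul, ← pow_succ']))

/-! ### Normalised reductions -/

variable (A π) in
/-- `g` is the reduction of a scalar multiple of `y`, and is not zero. -/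
def Lead (y : LaurentSeries K) (g : LaurentSeries k) : Prop :=
  g ≠ 0 ∧ ∃ c : K, c ≠ 0 ∧ Red A π (c • y) g

namespace Lead

variable {y z : LaurentSeries K} {g h : LaurentSeries k}

theorem mul (hy : Lead A π y g) (hz : Lead A π z h) : Lead A π (y * z) (g * h) := by
  obtain ⟨hg, c, hc, hcy⟩ := hy
  obtain ⟨hh, d, hd, hdz⟩ := hz
  refine ⟨mul_ne_zero hg hh, c * d, mul_ne_zero hc hd, ?_⟩
  convert hcy.mul hdz using 1
  simp only [smul_eq_algebraMap_mul, map_mul]
  ring

theorem pow (hy : Lead A π y g) (n : ℕ) : Lead A π (y ^ n) (g ^ n) := by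
  obtain ⟨hg, c, hc, hcy⟩ := hy
  refine ⟨pow_ne_zero n hg, c ^ n, pow_ne_zero n hc, ?_⟩
  convert hcy.pow n using 1
  simp only [smul_eq_algebraMap_mul, mul_pow, map_pow]

theorem smul (hy : Lead A π y g) {c : K} (hc : c ≠ 0) : Lead A π (c • y) g := by
  obtain ⟨hg, d, hd, hdy⟩ := hy
  refine ⟨hg, d / c, div_ne_zero hd hc, ?_⟩
  rwa [smul_smul, div_mul_cancel₀ _ hc]

theorem exists_eq_smul (hπ : Function.Surjective π) (hy : Lead A π y g) (hy' : Lead A π y h) :
    ∃ κ : k, κ ≠ 0 ∧ h = κ • g := by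
  obtain ⟨hg, c, hc, hcy⟩ := hy
  obtain ⟨hh, d, hd, hdy⟩ := hy'
  have key : ∀ {c d : K} {g h : LaurentSeries k}, c ≠ 0 → d ≠ 0 → Red A π (c • y) g →
      Red A π (d • y) h → h ≠ 0 → A.valuation c ≤ A.valuation d := by
    intro c d g h hc hd hcy hdy hh
    refine not_lt.mp fun hlt => hh ?_
    have hlt' : A.valuation (d / c) < 1 := by
      rw [map_div₀, div_lt_one₀ ((Valuation.pos_iff _).mpr hc)]
      exact hlt
    have hmem : d / c ∈ A := (A.valuation_le_one_iff _).mp hlt'.le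
    have h1 := hcy.smul (⟨_, hmem⟩ : A)
    rw [smul_smul, div_mul_cancel₀ _ hc] at h1
    rw [hdy.unique h1, (residue_eq_zero_iff hπ ⟨_, hmem⟩).mpr hlt', zero_smul]
  have heq : A.valuation (d / c) = 1 := by
    rw [map_div₀, le_antisymm (key hc hd hcy hdy hh) (key hd hc hdy hcy hg)]
    exact div_self ((A.valuation.ne_zero_iff).mpr hd)
  have hmem : d / c ∈ A := (A.valuation_le_one_iff _).mp heq.le
  refine ⟨π ⟨_, hmem⟩, (residue_ne_zero_iff hπ _).mpr heq, hdy.unique ?_⟩
  have h1 := hcy.smul (⟨_, hmem⟩ : A)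
  rwa [smul_smul, div_mul_cancel₀ _ hc] at h1

theorem seriesNorm (hy : Lead A π y g) (hne : seriesNorm q g ≠ 0) :
    Lead A π (seriesNorm q y) (seriesNorm q g) := by
  obtain ⟨-, c, hc, hcy⟩ := hy
  refine ⟨hne, c ^ q, pow_ne_zero q hc, ?_⟩
  convert red_seriesNorm (q := q) hcy using 1
  rw [smul_eq_algebraMap_mul, smul_eq_algebraMap_mul, seriesNorm_mul,
    algebraMap_laurentSeries_eq_single, algebraMap_laurentSeries_eq_single, ← HahnSeries.C_apply,
    ← HahnSeries.C_apply, seriesNorm_C]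

end Lead

/-! ### Quotients of elements of `C` -/

variable (S) in
/-- A quotient of two elements of `C`. -/
def InFracC (g : LaurentSeries k) : Prop := ∃ y ∈ S.C, y ≠ 0 ∧ g * y ∈ S.C

namespace InFracC

variable {g h : LaurentSeries k}

theorem of_mem (hg : g ∈ S.C) : InFracC S g :=
  ⟨1, S.C.one_mem, one_ne_zero, by rwa [mul_one]⟩

theorem mul (hg : InFracC S g) (hh : InFracC S h) : InFracC S (g * h) := by
  obtain ⟨y, hy, hy0, hgy⟩ := hg
  obtain ⟨z, hz, hz0, hhz⟩ := hh
  exact ⟨y * z, S.C.mul_mem hy hz, mul_ne_zero hy0 hz0, by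
    rw [mul_mul_mul_comm]; exact S.C.mul_mem hgy hhz⟩

theorem inv (hg : InFracC S g) (hg0 : g ≠ 0) : InFracC S g⁻¹ := by
  obtain ⟨y, hy, hy0, hgy⟩ := hg
  exact ⟨g * y, hgy, mul_ne_zero hg0 hy0, by rwa [inv_mul_cancel_left₀ hg0]⟩

theorem pow (hg : InFracC S g) (n : ℕ) : InFracC S (g ^ n) := by
  induction n with
  | zero => rw [pow_zero]; exact of_mem S.C.one_mem
  | succ n ih => rw [pow_succ]; exact ih.mul hg

theorem zpow (hg : InFracC S g) (hg0 : g ≠ 0) (n : ℤ) : InFracC S (g ^ n) := by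
  rcases Int.eq_nat_or_neg n with ⟨j, rfl | rfl⟩
  · rw [zpow_natCast]; exact hg.pow j
  · rw [zpow_neg, zpow_natCast]; exact (hg.pow j).inv (pow_ne_zero j hg0)

theorem coeffMap (hg : InFracC S g) : InFracC S (coeffMap (S.σ : k →+* k) g) := by
  obtain ⟨y, hy, hy0, hgy⟩ := hg
  refine ⟨_, S.σ_mem _ hy, fun h => hy0 ((ModularCurve.coeffMap (S.σ : k →+* k)).injective
    (h.trans (map_zero _).symm)), ?_⟩
  rw [← map_mul]
  exact S.σ_mem _ hgy

/-- An element of `Frac C` with a power in `C` is in `C`. -/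
theorem mem_of_pow (hg : InFracC S g) {m : ℕ} (hm : 0 < m) (h : g ^ m ∈ S.C) : g ∈ S.C := by
  obtain ⟨y, hy, hy0, hgy⟩ := hg
  exact S.normal g y hy hy0 hgy m hm h

end InFracC

/-- There is a nonzero reduced pair living on the first sheet. -/
theorem exists_fst_only [IsAlgClosed k] (S : Sheets A π q F) :
    ∃ φ, S.Reg φ ∧ ∃ x ∈ S.C, x ≠ 0 ∧ Red2 A π (S.T φ) (x, 0) := by
  obtain ⟨x, hxC, hx0, hxo, hxp⟩ := S.exists_order_eq (n := (S.n₀ : ℤ) + 1) (by omega)
  set d : S.C := ⟨x, hxC⟩ - S.frC (S.frC ⟨x, hxC⟩) with hd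
  have hne : (d : LaurentSeries k) ≠ 0 := by
    intro h
    have h' : x = qExpand k q (qExpand k q x) := sub_eq_zero.mp h
    have hne1 : qExpand k q x ≠ 0 := fun h0 =>
      hx0 (qExpand_injective q (h0.trans (map_zero _).symm))
    have ho := congrArg HahnSeries.order h'
    rw [Sheets.order_qExpand q hne1, Sheets.order_qExpand q hx0, hxo] at ho
    have hq : (2 : ℤ) ≤ q := by exact_mod_cast S.one_lt
    have hq4 : (4 : ℤ) ≤ (q : ℤ) * q := by nlinarith
    nlinarith
  obtain ⟨φ, hφ, hφx⟩ := Sheets.isCbar_nodeIdeal_fst (S := S)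
    (Sheets.sub_frC_frC_mem (⟨x, hxC⟩ : S.C))
  exact ⟨φ, hφ, d, d.2, hne, hφx⟩

theorem boundedBy_inv_of_red {y : LaurentSeries K} {c : K} (hc : c ≠ 0) {g : LaurentSeries k}
    (h : Red A π (c • y) g) : BoundedBy A y (A.valuation c)⁻¹ := fun i => by
  have h1 := (A.valuation_le_one_iff _).mpr (h.coeff_mem i)
  rw [coeff_smulC, map_mul] at h1
  rw [← one_div, le_div_iff₀ ((Valuation.pos_iff _).mpr hc), mul_comm]
  exact h1

/-- A scalar small enough after multiplication by a fixed bound. -/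
theorem exists_pow_mul_le (S : Sheets A π q F) {r b : A.ValueGroup} (hr : r < 1) :
    ∃ n : ℕ, r ^ n * b ≤ 1 := by
  rcases eq_or_ne b 0 with rfl | hb
  · exact ⟨0, by simp⟩
  obtain ⟨c, hc⟩ := A.valuation_surjective r
  obtain ⟨d, hd⟩ := A.valuation_surjective b
  have hcA : c ∈ A := (A.valuation_le_one_iff _).mp (hc ▸ hr.le)
  have hd0 : d ≠ 0 := fun h => hb (by rw [← hd, h, map_zero])
  obtain ⟨n, hn⟩ := S.arch ⟨c, hcA⟩
    ((residue_eq_zero_iff S.surj ⟨c, hcA⟩).mpr (show A.valuation c < 1 from hc ▸ hr)) d⁻¹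
    (inv_ne_zero hd0)
  refine ⟨n, ?_⟩
  have hn' : r ^ n ≤ b⁻¹ := by rw [← hc, ← hd, ← map_inv₀]; exact hn
  calc r ^ n * b ≤ b⁻¹ * b := mul_le_mul' hn' le_rfl
    _ = 1 := inv_mul_cancel₀ hb

theorem ι_smul (c : K) (f : F) : S.ι (c • f) = c • S.ι f := congrArg Prod.fst (map_smul S.T c f)

theorem ι_w_smul (c : K) (f : F) : S.ι (S.w (c • f)) = c • S.ι (S.w f) :=
  congrArg Prod.snd (map_smul S.T c f)

/-- **The normalised reduction of a regular function is a quotient of elements of `C`.** -/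
theorem inFracC_of_lead [IsAlgClosed k] {f : F} (hf : S.Reg f) {g : LaurentSeries k}
    (hg : Lead A π (S.ι f) g) : InFracC S g := by
  obtain ⟨hg0, c, hc, hcf⟩ := hg
  have hf0 : f ≠ 0 := by
    rintro rfl
    rw [map_zero, smul_zero] at hcf
    exact hg0 (hcf.unique red_zero)
  obtain ⟨φ, hφ, x, hxC, hx0, hφx⟩ := exists_fst_only S
  -- the second expansion of `φ` is small
  obtain ⟨r, hr, hrb⟩ : ∃ r < (1 : A.ValueGroup), BoundedBy A (S.ι (S.w φ)) r := by
    rcases eq_or_ne (S.w φ) 0 with h0 | h0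
    · exact ⟨0, zero_lt_one, fun i => by simp [h0]⟩
    obtain ⟨e, he, z, hz, hez⟩ := S.normalizable _ (Sheets.Reg.apply_w hφ) h0
    refine ⟨(A.valuation e)⁻¹, not_le.mp fun hle => hz ?_, boundedBy_inv_of_red he hez⟩
    have heA : e ∈ A := by
      rw [← A.valuation_le_one_iff]
      exact (one_le_inv₀ ((Valuation.pos_iff _).mpr he)).mp hle
    exact (hez.unique (hφx.2.smul ⟨e, heA⟩)).trans (smul_zero _)
  obtain ⟨b, hb⟩ : ∃ b, BoundedBy A (c • S.ι (S.w f)) b := by
    obtain ⟨e, he, z, -, hez⟩ :=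
      S.normalizable _ (Sheets.Reg.apply_w hf) ((map_ne_zero S.w).mpr hf0)
    exact ⟨_, boundedBy_smul (boundedBy_inv_of_red he hez) c⟩
  obtain ⟨n, hn⟩ := exists_pow_mul_le S (b := b) hr
  refine ⟨x ^ n, S.C.pow_mem hxC n, pow_ne_zero n hx0, ?_⟩
  have hreg : S.Reg (φ ^ n * c • f) := (hφ.pow n).mul (hf.smul c)
  refine S.red_mem _ hreg (g * x ^ n) ?_ fun i => ?_
  · rw [map_mul, map_pow, ι_smul, mul_comm g]
    exact (hφx.1.pow n).mul hcf
  · rw [← A.valuation_le_one_iff, map_mul, map_mul, map_pow, map_pow, ι_w_smul]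
    exact (((boundedBy_pow hrb n).mul hb) i).trans hn

/-- The normalised reduction of a nonzero regular function. -/
theorem exists_lead [IsAlgClosed k] {f : F} (hf : S.Reg f) (hf0 : f ≠ 0) :
    ∃ g, Lead A π (S.ι f) g ∧ InFracC S g := by
  obtain ⟨c, hc, g, hg, hcg⟩ := S.normalizable f hf hf0
  exact ⟨g, ⟨hg, c, hc, hcg⟩, inFracC_of_lead hf ⟨hg, c, hc, hcg⟩⟩

/-- Every function becomes regular after multiplication by a nonzero regular function. -/
theorem exists_clear [IsAlgClosed K] [FF.IsFunctionField K F] (S : Sheets A π q F) {h : F}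
    (hh : h ≠ 0) : ∃ u : F, u ≠ 0 ∧ S.Reg u ∧ S.Reg (h * u) := by
  obtain ⟨γ, hγ⟩ := FF.exists_riemann_inequality K F
  set D : Divisor K F := (FF.divOf K h).mapRange (fun z => min z 0) (by simp) with hD
  have hDv : ∀ v, D v = min (v.ord h) 0 := fun v => by rw [hD]; simp
  obtain ⟨n, hn⟩ : ∃ n : ℤ, 0 < FF.ell (D + S.bd n) := ⟨|γ| + |Divisor.degree D|, by
    have := hγ (D + S.bd (|γ| + |Divisor.degree D|))
    rw [map_add, S.degree_bd] at this
    have := le_abs_self γ
    have := neg_le_abs (Divisor.degree D)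
    have := abs_nonneg γ
    have := abs_nonneg (Divisor.degree D)
    omega⟩
  obtain ⟨u, hu, hu0⟩ : ∃ u ∈ riemannRochSpace (D + S.bd n), u ≠ 0 := by
    refine Submodule.exists_mem_ne_zero_of_ne_bot fun hb => ?_
    rw [FF.ell, hb, finrank_bot] at hn
    exact lt_irrefl 0 hn
  have hord : ∀ v, v ≠ S.inf → v ≠ S.zero → -min (v.ord h) 0 ≤ v.ord u := fun v h1 h2 => by
    have := FF.mem_riemannRochSpace.mp hu v
    rwa [FF.mem_ordGE_of_ne_zero v hu0, Finsupp.add_apply, S.bd_of_ne n h1 h2, add_zero, hDv]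
      at this
  refine ⟨u, hu0, fun v h1 h2 => FF.mem_ordGE_of_le_ord v ?_,
    fun v h1 h2 => FF.mem_ordGE_of_le_ord v ?_⟩
  · have := hord v h1 h2
    omega
  · have := hord v h1 h2
    rw [v.ord_mul hh hu0]
    omega

end Fermat.Agent.AttachedLocal
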