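import Fermat.Agent.AttachedLocal.Series

/-!
# Series with coefficients in a number field

Bounded series with coefficients in a number field attain their supremum at a place over `q`.
-/

set_option autoImplicit false

noncomputable section

namespace Fermat.Agent.AttachedLocal

open HahnSeries ModularCurve Fermat.Agent.Reduction Fermat.Agent.Semistable

local notation "ℚbar" => AlgebraicClosure ℚ

theorem fieldRange_coeffMap_mono {L L' : IntermediateField ℚ ℚbar} (h : L ≤ L') :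
    (coeffMap (L.val : L →+* ℚbar)).fieldRange ≤ (coeffMap (L'.val : L' →+* ℚbar)).fieldRange := by
  rintro _ ⟨y, rfl⟩
  refine ⟨coeffMap (IntermediateField.inclusion h : L →+* L') y, ?_⟩
  rw [coeffMap_coeffMap]
  rfl

/-- The series whose coefficients lie in some number field. -/
def numField : Subfield (LaurentSeries ℚbar) where
  carrier := {x | ∃ L : IntermediateField ℚ ℚbar, FiniteDimensional ℚ L ∧
    x ∈ (coeffMap (L.val : L →+* ℚbar)).fieldRange}
  one_mem' := ⟨⊥, inferInstance, one_mem _⟩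
  zero_mem' := ⟨⊥, inferInstance, zero_mem _⟩
  add_mem' := fun {_ _} ⟨L, _, h⟩ ⟨L', _, h'⟩ => ⟨L ⊔ L', inferInstance,
    add_mem (fieldRange_coeffMap_mono le_sup_left h) (fieldRange_coeffMap_mono le_sup_right h')⟩
  mul_mem' := fun {_ _} ⟨L, _, h⟩ ⟨L', _, h'⟩ => ⟨L ⊔ L', inferInstance,
    mul_mem (fieldRange_coeffMap_mono le_sup_left h) (fieldRange_coeffMap_mono le_sup_right h')⟩
  neg_mem' := fun {_} ⟨L, hL, h⟩ => ⟨L, hL, neg_mem h⟩
  inv_mem' := fun _ ⟨L, hL, h⟩ => ⟨L, hL, inv_mem h⟩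

theorem mem_numField_iff {x : LaurentSeries ℚbar} :
    x ∈ numField ↔ ∃ L : IntermediateField ℚ ℚbar, FiniteDimensional ℚ L ∧
      ∀ i, x.coeff i ∈ L := by
  constructor
  · rintro ⟨L, hL, y, rfl⟩
    exact ⟨L, hL, fun i => (coeffMap_coeff (L.val : L →+* ℚbar) y i).symm ▸ (y.coeff i).2⟩
  · rintro ⟨L, hL, h⟩
    refine ⟨L, hL, ⟨fun i => ⟨x.coeff i, h i⟩,
      x.isPWO_support.mono fun i hi h0 => hi (Subtype.ext h0)⟩, ?_⟩
    rfl

theorem numField_of_laurentBaseChange {F₀ : IntermediateField ℚ (LaurentSeries ℚ)}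
    {x : LaurentSeries ℚbar} (hx : x ∈ laurentBaseChange ℚbar F₀) : x ∈ numField :=
  mem_numField_iff.mpr (exists_finiteDimensional_coeff_mem hx)

theorem single_mem_numField (i : ℤ) (c : ℚbar) :
    (HahnSeries.single i c : LaurentSeries ℚbar) ∈ numField := by
  have hc : IsIntegral ℚ c := (Algebra.IsAlgebraic.isAlgebraic (R := ℚ) c).isIntegral
  refine mem_numField_iff.mpr ⟨IntermediateField.adjoin ℚ {c},
    IntermediateField.adjoin.finiteDimensional hc, fun j => ?_⟩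
  rw [HahnSeries.coeff_single]
  split_ifs
  exacts [IntermediateField.mem_adjoin_simple_self ℚ c, zero_mem _]

theorem algebraMap_mem_numField (c : ℚbar) :
    algebraMap ℚbar (LaurentSeries ℚbar) c ∈ numField := by
  rw [algebraMap_laurentSeries_eq_single]
  exact single_mem_numField 0 c

theorem smul_mem_numField {x : LaurentSeries ℚbar} (hx : x ∈ numField) (c : ℚbar) :
    c • x ∈ numField := by
  rw [smul_eq_algebraMap_mul]
  exact mul_mem (algebraMap_mem_numField c) hx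

theorem coeffMap_mem_numField {x : LaurentSeries ℚbar} (hx : x ∈ numField)
    (σ : ℚbar ≃ₐ[ℚ] ℚbar) : coeffMap (σ : ℚbar →+* ℚbar) x ∈ numField := by
  obtain ⟨L, hL, h⟩ := mem_numField_iff.mp hx
  exact mem_numField_iff.mpr ⟨L.map (σ : ℚbar →ₐ[ℚ] ℚbar),
    LinearEquiv.finiteDimensional (L.equivMap (σ : ℚbar →ₐ[ℚ] ℚbar)).toLinearEquiv,
    fun i => by rw [coeffMap_coeff]; exact ⟨x.coeff i, h i, rfl⟩⟩

variable {k : Type*} [Field k] {A : ValuationSubring ℚbar} {π : A →+* k} {q : ℕ}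

/-- A bounded nonzero series with coefficients in a number field can be normalised. -/
theorem normalizable_of_numField (hq : q.Prime) (hA : A.LiesOverPrime q) {x : LaurentSeries ℚbar}
    (hx : x ∈ numField) (hx0 : x ≠ 0) {c : ℚbar} (hc : c ≠ 0)
    (hb : BoundedBy A x (A.valuation c)) : Normalizable A π x := by
  obtain ⟨L₀, hfin, hL⟩ := mem_numField_iff.mp hx
  set s : Set ℚbar := {a | a ≠ 0 ∧ ∃ i, x.coeff i = a} with hs
  have hne : s.Nonempty := ⟨x.coeff x.order, fun h => hx0 (HahnSeries.coeff_order_eq_zero.mp h),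
    x.order, rfl⟩
  obtain ⟨m, ⟨hm0, i₀, hi₀⟩, hmax⟩ := exists_max_valuation_of_bounded hq hA L₀ s
    (fun a ⟨ha, i, hi⟩ => ⟨hi ▸ hL i, ha⟩) hne c hc (fun a ⟨_, i, hi⟩ => hi ▸ hb i)
  have hmem : ∀ i, (m⁻¹ • x).coeff i ∈ A := fun i => by
    rw [coeff_smulC, ← A.valuation_le_one_iff, map_mul, map_inv₀]
    rcases eq_or_ne (x.coeff i) 0 with h | h
    · simp [h]
    rw [inv_mul_le_iff₀ ((Valuation.pos_iff _).mpr hm0), mul_one]
    exact hmax _ ⟨h, i, rfl⟩
  obtain ⟨y, hy⟩ := exists_red_of_coeff_mem π hmem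
  refine ⟨m⁻¹, inv_ne_zero hm0, y, fun h => ?_, hy⟩
  obtain ⟨hA', hπ⟩ := hy i₀
  have h1 : (⟨(m⁻¹ • x).coeff i₀, hA'⟩ : A) = 1 :=
    Subtype.ext (by simp [hi₀, inv_mul_cancel₀ hm0])
  rw [h1, map_one, h] at hπ
  simp at hπ

/-- Coefficients in a number field which are all less than `|c|` have a bound less than `|c|`. -/
theorem exists_bound_lt (hq : q.Prime) (hA : A.LiesOverPrime q) {x : LaurentSeries ℚbar}
    (hx : x ∈ numField) {c : ℚbar} (hc : c ≠ 0)
    (hlt : ∀ i, A.valuation (x.coeff i) < A.valuation c) :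
    ∃ r : A.ValueGroup, r < A.valuation c ∧ BoundedBy A x r := by
  rcases eq_or_ne x 0 with rfl | hx0
  · exact ⟨0, (Valuation.pos_iff _).mpr hc, boundedBy_zero 0⟩
  obtain ⟨L₀, hfin, hL⟩ := mem_numField_iff.mp hx
  set s : Set ℚbar := {a | a ≠ 0 ∧ ∃ i, x.coeff i = a} with hs
  have hne : s.Nonempty := ⟨x.coeff x.order, fun h => hx0 (HahnSeries.coeff_order_eq_zero.mp h),
    x.order, rfl⟩
  obtain ⟨m, ⟨-, i₀, hi₀⟩, hmax⟩ := exists_max_valuation_of_bounded hq hA L₀ s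
    (fun a ⟨ha, i, hi⟩ => ⟨hi ▸ hL i, ha⟩) hne c hc (fun a ⟨_, i, hi⟩ => hi ▸ (hlt i).le)
  refine ⟨A.valuation m, hi₀ ▸ hlt i₀, fun i => ?_⟩
  rcases eq_or_ne (x.coeff i) 0 with h | h
  · simp [h]
  · exact hmax _ ⟨h, i, rfl⟩

/-- A bounded nonzero pair with coefficients in a number field can be normalised. -/
theorem normalizable2_of_numField (hq : q.Prime) (hA : A.LiesOverPrime q) {y : Ser2 ℚbar}
    (h1 : y.1 ∈ numField) (h2 : y.2 ∈ numField) (hy : y ≠ 0) {c : ℚbar} (hc : c ≠ 0)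
    (hb : Bdd2 A y (A.valuation c)) : Normalizable2 A π y :=
  normalizable2_of_components hy (fun h => normalizable_of_numField hq hA h1 h hc hb.1)
    fun h => normalizable_of_numField hq hA h2 h hc hb.2

theorem exists_bound2_lt (hq : q.Prime) (hA : A.LiesOverPrime q) {y : Ser2 ℚbar}
    (h1 : y.1 ∈ numField) (h2 : y.2 ∈ numField) {c : ℚbar} (hc : c ≠ 0)
    (hlt1 : ∀ i, A.valuation (y.1.coeff i) < A.valuation c)
    (hlt2 : ∀ i, A.valuation (y.2.coeff i) < A.valuation c) :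
    ∃ r : A.ValueGroup, r < A.valuation c ∧ Bdd2 A y r := by
  obtain ⟨r₁, hr₁, hb₁⟩ := exists_bound_lt hq hA h1 hc hlt1
  obtain ⟨r₂, hr₂, hb₂⟩ := exists_bound_lt hq hA h2 hc hlt2
  exact ⟨max r₁ r₂, max_lt hr₁ hr₂, hb₁.mono (le_max_left _ _), hb₂.mono (le_max_right _ _)⟩

end Fermat.Agent.AttachedLocal
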