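import Fermat.Agent.AttachedLocal.OrderP
import Fermat.Agent.AttachedLocal.Lift

/-!
# Inertia on classes of order `4` with exact roots at a place over `2`

Inertia elements moving `i` act as `-1` on a class of order `4` with exact roots.
-/

set_option autoImplicit false

noncomputable section

namespace Fermat.Agent.AttachedLocal

open HahnSeries AlgebraicCurve ModularCurve Fermat.Agent.Reduction Fermat.Agent.Semistable

local notation "ℚbar" => AlgebraicClosure ℚ

section Identities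

variable {R : Type*} [CommRing R] {D : R}

theorem four_expansion (hD : D ^ 2 + 2 * D + 2 = 0) (v : R) :
    (1 + D * v) ^ 4 - 1 = 4 * (D * v + (-3 * D - 3) * v ^ 2 + D ^ 3 * v ^ 3 - v ^ 4) := by
  linear_combination (6 * v ^ 2 + (D ^ 2 - 2 * D + 2) * v ^ 4) * hD

theorem near_expansion (hD : D ^ 2 + 2 * D + 2 = 0) (e W η : R) :
    (1 + D * e + η) ^ 4 - 1 + 4 * (e ^ 2 + e + 2 * W) ^ 2 - 4 * D * (e ^ 2 + e + 2 * W) =
      8 * ((-2 * D - 1) * e ^ 2 + (D + 3) * e ^ 3 + W * (2 * (e ^ 2 + e) + 2 * W - D)) +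
        4 * η * (1 + D * e) ^ 3 + 6 * η ^ 2 * (1 + D * e) ^ 2 + 4 * η ^ 3 * (1 + D * e) +
          η ^ 4 := by
  linear_combination (6 * e ^ 2 + (4 * D - 8) * e ^ 3 + (D ^ 2 - 2 * D + 2) * e ^ 4) * hD

theorem twist_expansion (hD : D ^ 2 + 2 * D + 2 = 0) (e H H' : R) :
    (1 + D * e + 2 * H) * (1 + (-2 - D) * e + 2 * H') - 1 =
      2 * (-e + e ^ 2 + H * (1 + (-2 - D) * e) + H' * (1 + D * e) + 2 * H * H') := by
  linear_combination (-e ^ 2) * hD

end Identities

section Constants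

variable {K k : Type*} [Field K] [Field k] {A : ValuationSubring K} {π : A →+* k}

/-- Constant pairs. -/
def cst (R : Type*) [Field R] : R →+* Ser2 R :=
  (algebraMap R (LaurentSeries R)).prod (algebraMap R (LaurentSeries R))

theorem smul_eq_cst_mul (c : K) (y : Ser2 K) : c • y = cst K c * y :=
  Prod.ext (smul_eq_algebraMap_mul _ _) (smul_eq_algebraMap_mul _ _)

theorem red2_cst (a : A) : Red2 A π (cst K (a : K)) (cst k (π a)) :=
  ⟨red_algebraMap a, red_algebraMap a⟩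

theorem red2_cst_zero (hπ : Function.Surjective π) {c : K} (h : A.valuation c < 1) :
    Red2 A π (cst K c) 0 := by
  have := red2_cst (π := π) (⟨c, (A.valuation_le_one_iff _).mp h.le⟩ : A)
  rwa [(residue_eq_zero_iff hπ ⟨c, _⟩).mpr h, map_zero] at this

theorem red2_natCast (n : ℕ) : Red2 A π (n : Ser2 K) (n : Ser2 k) := by
  induction n with
  | zero => simpa using (red2_zero : Red2 A π (0 : Ser2 K) 0)
  | succ n ih => push_cast; exact ih.add red2_one

end Constants

variable {F k : Type*} [Field F] [Algebra ℚbar F] [Field k] {A : ValuationSubring ℚbar}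
  {π : A →+* k} {S : Sheets A π 2 F}

theorem inertiaFixed_iff_coeffMap {y : LaurentSeries ℚbar} :
    (∀ i, InertiaFixed A (y.coeff i)) ↔
      ∀ τ ∈ A.inertiaSubgroupIn ℚ, coeffMap (τ : ℚbar →+* ℚbar) y = y := by
  refine ⟨fun h τ hτ => HahnSeries.ext (funext fun i => ?_), fun h i τ hτ => ?_⟩
  · rw [coeffMap_coeff]; exact h i τ hτ
  · conv_rhs => rw [← h τ hτ, coeffMap_coeff]
    rfl

variable [FF.IsFunctionField ℚbar F] [IsAlgClosed k] [CharP k 2]

/-- **Inertia elements moving `i` act as `-1` on classes of order `4` with exact roots.** -/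
theorem inertia_add_mem_principal [Fact (Nat.Prime 2)] (R : Root S (2 ^ 2)) (har : Arith S)
    (hI : ∀ τ ∈ A.inertiaSubgroupIn ℚ, ∃ σ : S.Inertia, ∀ c, σ.τ c = τ c) (σ : S.Inertia)
    {τ₀ : ℚbar ≃ₐ[ℚ] ℚbar} (hτ₀ : τ₀ ∈ A.inertiaSubgroupIn ℚ) (hστ : ∀ c, σ.τ c = τ₀ c)
    {i : ℚbar} (hi : i ^ 2 = -1) (hσi : τ₀ i = -i) :
    σ.act R.E + R.E ∈ Divisor.principal (K := ℚbar) (F := F) := by
  have hπ := S.surj
  have hq : Nat.Prime 2 := Nat.prime_two
  have hA := har.hA
  -- the element `δ = i - 1`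
  set δ := i - 1 with hδdef
  have hδ : δ ^ 2 + 2 * δ + 2 = 0 := by rw [hδdef]; linear_combination hi
  have hσδ : σ.τ δ = -2 - δ := by rw [hδdef, map_sub, map_one, hστ, hσi]; ring
  have hi1 : A.valuation i = 1 := by
    refine (pow_left_inj₀ zero_le zero_le two_ne_zero).mp ?_
    rw [← map_pow, hi, Valuation.map_neg, map_one, one_pow]
  have hu2 : A.valuation δ ^ 2 = A.valuation (2 : ℚbar) := by
    rw [← map_pow, show δ ^ 2 = -2 * i by rw [hδdef]; linear_combination hi, map_mul,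
      Valuation.map_neg, hi1, mul_one]
  have hv2 : A.valuation (2 : ℚbar) < 1 := by simpa using valuation_q_lt_one hA
  have hu1 : A.valuation δ < 1 := by
    refine not_le.mp fun h => ?_
    exact absurd (hu2 ▸ one_le_pow₀ h) (not_le.mpr hv2)
  have h20 : (2 : ℚbar) ≠ 0 := two_ne_zero
  have hu0 : δ ≠ 0 := fun h => by
    rw [h, map_zero, zero_pow two_ne_zero, eq_comm, map_eq_zero] at hu2
    exact h20 hu2
  have hu2p : 0 < A.valuation (2 : ℚbar) := (Valuation.pos_iff _).mpr h20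
  have h2le : A.valuation (2 : ℚbar) ≤ A.valuation δ := by
    rw [← hu2, pow_two]; exact mul_le_of_le_one_left zero_le hu1.le
  set D : Ser2 ℚbar := cst ℚbar δ with hDdef
  have hD : D ^ 2 + 2 * D + 2 = 0 := by
    have h2 : cst ℚbar 2 = 2 := map_ofNat (cst ℚbar) 2
    rw [hDdef, ← h2, ← map_pow, ← map_mul, ← map_add, ← map_add, hδ, map_zero]
  have hDred : Red2 A π D 0 := red2_cst_zero hπ hu1
  have hk2 : (2 : k) = 0 := by simpa using CharP.cast_eq_zero k 2
  have hS2 : (2 : Ser2 k) = 0 := by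
    rw [← map_ofNat (cst k) 2, hk2, map_zero]
  have hres : ∀ τ ∈ A.inertiaSubgroupIn ℚ, ∀ a : A, ∃ h : τ a ∈ A, π ⟨τ a, h⟩ = π a := by
    intro τ hτ a
    obtain ⟨s, hs⟩ := hI τ hτ
    have hmem : τ a ∈ A := hs a ▸ s.mem a a.2
    exact ⟨hmem, (congrArg π (Subtype.ext (hs a).symm)).trans (s.res a)⟩
  have hm : 0 < 2 ^ 2 := by norm_num
  obtain ⟨N, hN0, hN⟩ := R.exists_redPair_T'
  -- a function congruent to `1` modulo `δ`
  obtain ⟨f₀, hf₀, hf₀b⟩ : ∃ f ∈ S.L R.E N, Bdd2 A (R.T' f - 1) (A.valuation δ) := by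
    by_cases hex : ∃ g ∈ S.L R.E N, R.T' g = 1
    · obtain ⟨g, hg, he⟩ := hex
      exact ⟨g, hg, by simp [he, Bdd2, BoundedBy]⟩
    push Not at hex
    obtain ⟨g, hg, c, hc, x, hx, hxnot, hmin⟩ := R.exists_best har hq N (y := (1 : Ser2 ℚbar))
      (one_mem _) (one_mem _) (b := 1)
      (by rw [map_one]; exact ⟨boundedBy_one_one, boundedBy_one_one⟩) hex
    refine ⟨g, hg, (bdd2_of_red hc hx).mono (not_lt.mp fun hlt => hxnot ?_)⟩
    rw [hN N le_rfl]
    refine R.mem_CbarLe_of_red hm hg (poleLE_one_pair hN0) hx (isCbar_of_pow_q_pow (j := 2) ?_)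
    have hc1 : A.valuation δ * A.valuation c < 1 := by
      calc A.valuation δ * A.valuation c < (A.valuation c)⁻¹ * A.valuation c :=
            mul_lt_mul_of_pos_right hlt ((Valuation.pos_iff _).mpr hc)
        _ = 1 := inv_mul_cancel₀ ((A.valuation.ne_zero_iff).mpr hc)
    have hcv : A.valuation c ≠ 0 := (A.valuation.ne_zero_iff).mpr hc
    have hred := red2_pow_sub_one hπ hc hx (m := 4) (i₀ := 4) (by norm_num) le_rfl
      (c' := c ^ 4) (u := 1) (by simp) (fun j hj1 hj2 hj3 => by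
        obtain ⟨l, hl⟩ : ∃ l, l + j = 4 := ⟨4 - j, by omega⟩
        have hb : A.valuation ((Nat.choose 4 j : ℕ) : ℚbar) ≤ A.valuation δ ^ l := by
          have h6 : A.valuation (6 : ℚbar) ≤ A.valuation (2 : ℚbar) := by
            rw [show (6 : ℚbar) = 2 * ((3 : ℕ) : ℚbar) by norm_num, map_mul]
            exact mul_le_of_le_one_right zero_le ((A.valuation_le_one_iff _).mpr (natCast_mem A 3))
          have h4 : A.valuation (4 : ℚbar) = A.valuation δ ^ 4 := by
            rw [show (4 : ℚbar) = 2 ^ 2 by norm_num, map_pow, ← hu2, ← pow_mul]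
          interval_cases j
          · obtain rfl : l = 3 := by omega
            show A.valuation ((4 : ℕ) : ℚbar) ≤ _
            rw [Nat.cast_ofNat, h4]
            exact pow_le_pow_right_of_le_one' hu1.le (by norm_num)
          · obtain rfl : l = 2 := by omega
            show A.valuation ((6 : ℕ) : ℚbar) ≤ _
            rw [Nat.cast_ofNat]
            exact h6.trans hu2.ge
          · obtain rfl : l = 1 := by omega
            show A.valuation ((4 : ℕ) : ℚbar) ≤ _
            rw [Nat.cast_ofNat, h4]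
            exact pow_le_pow_right_of_le_one' hu1.le (by norm_num)
          · exact absurd rfl hj3
        refine lt_of_le_of_lt (b := (A.valuation δ * A.valuation c) ^ l) ?_
          (pow_lt_one₀ zero_le hc1 (by omega))
        rw [map_mul, map_pow, show A.valuation c ^ 4 = A.valuation c ^ l * A.valuation c ^ j by
            rw [← _root_.pow_add, hl],
          mul_comm (A.valuation c ^ l * _) (A.valuation _), mul_assoc,
          mul_assoc (A.valuation c ^ l), ← mul_pow, mul_inv_cancel₀ hcv, one_pow, mul_one, mul_pow]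
        exact mul_le_mul' hb le_rfl)
    rw [add_sub_cancel, map_one, one_smul] at hred
    exact R.isCbar_of_red_pow hg hred
  -- its error modulo `δ`, lifted to a series fixed by inertia
  obtain ⟨ē, hē⟩ := exists_red2_of_bdd (π := π) hu0 hf₀b
  set v : Ser2 ℚbar := δ⁻¹ • (R.T' f₀ - 1) with hvdef
  have hvnum : v.1 ∈ numField ∧ v.2 ∈ numField := by
    obtain ⟨h1, h2⟩ := R.T'_num har f₀
    exact ⟨smul_mem_numField (sub_mem h1 (one_mem _)) _,
      smul_mem_numField (sub_mem h2 (one_mem _)) _⟩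
  obtain ⟨hp1, hp2⟩ := R.poleLE_T' hm hf₀
  obtain ⟨ho1, ho2⟩ := poleLE_one_pair hN0
  have hēp : PoleLE N ē.1 ∧ PoleLE N ē.2 := by
    refine ⟨hē.1.poleLE fun j hj => ?_, hē.2.poleLE fun j hj => ?_⟩ <;>
      simp [hvdef, Prod.smul_fst, Prod.smul_snd, HahnSeries.coeff_sub, hp1 j hj,
        hp2 j hj, show ¬ j = 0 by omega]
  obtain ⟨e₁, he₁n, he₁r, he₁f, he₁p⟩ :=
    exists_fixed_lift_series (q := 2) hπ hres hvnum.1 hē.1
  obtain ⟨e₂, he₂n, he₂r, he₂f, he₂p⟩ :=
    exists_fixed_lift_series (q := 2) hπ hres hvnum.2 hē.2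
  set e : Ser2 ℚbar := (e₁, e₂) with hedef
  have he : Red2 A π e ē := ⟨he₁r, he₂r⟩
  have hep : PoleLE N e.1 ∧ PoleLE N e.2 := ⟨he₁p N hēp.1, he₂p N hēp.2⟩
  have hTf₀ : R.T' f₀ = 1 + D * v := by
    rw [hvdef, hDdef, ← smul_eq_cst_mul, smul_smul, mul_inv_cancel₀ hu0, one_smul,
      add_sub_cancel]
  -- `e ^ 2 + e` is a reduced pair
  set b : Ser2 k := ē ^ 2 + ē with hbdef
  have hbC : S.IsCbar b := by
    refine isCbar_of_pow_q ?_
    have h4 : (4 : ℚbar) ≠ 0 := by norm_num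
    have hW := (((hDred.mul hē).add
      (((((red2_natCast 3).mul hDred).neg).sub (red2_natCast 3)).mul (hē.pow 2))).add
        ((hDred.pow 3).mul (hē.pow 3))).sub (hē.pow 4)
    refine R.isCbar_of_red_pow hf₀ (c := (4 : ℚbar)⁻¹) ?_
    convert hW using 1
    · rw [hTf₀, show (2 : ℕ) ^ 2 = 4 from rfl, four_expansion hD, smul_eq_cst_mul,
        ← map_ofNat (cst ℚbar) 4, ← mul_assoc, ← map_mul, inv_mul_cancel₀ h4, map_one, one_mul]
      push_cast
      ring
    · rw [hbdef]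
      push_cast
      linear_combination (2 * ē ^ 2 + ē ^ 4 + ē ^ 3) * hS2
  obtain ⟨N₂, hN₂⟩ := S.exists_ell_bd
  set M := max (2 * N) N₂ with hMdef
  have hbp : PoleLE M b.1 ∧ PoleLE M b.2 := by
    constructor <;> intro j hj
    · rw [hbdef, Prod.fst_add, Prod.pow_fst, HahnSeries.coeff_add, sq,
        (hēp.1.mul hēp.1) j (by omega), hēp.1 j (by omega), add_zero]
    · rw [hbdef, Prod.snd_add, Prod.pow_snd, HahnSeries.coeff_add, sq,
        (hēp.2.mul hēp.2) j (by omega), hēp.2 j (by omega), add_zero]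
  have hbM : b ∈ S.CbarLe M := ⟨⟨⟨hbp.1, hbC.mem.1⟩, ⟨hbp.2, hbC.mem.2⟩⟩, hbC⟩
  -- a function close to `e ^ 2 + e`
  obtain ⟨g, hg, hgb, hgy⟩ := exists_fixed_function hA hq hI
    (hN₂ M (le_max_right _ _)).2 ((he.pow 2).add he) hbM (fun j => by
      refine ⟨inertiaFixed_iff_coeffMap.mpr (fun τ hτ => ?_) j,
        inertiaFixed_iff_coeffMap.mpr (fun τ hτ => ?_) j⟩
      · simp only [hedef, Prod.fst_add, Prod.pow_fst, map_add, map_pow,
          inertiaFixed_iff_coeffMap.mp he₁f τ hτ]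
      · simp only [hedef, Prod.snd_add, Prod.pow_snd, map_add, map_pow,
          inertiaFixed_iff_coeffMap.mp he₂f τ hτ])
  rw [Nat.cast_ofNat] at hgy
  obtain ⟨w, hw⟩ := exists_red2_of_bdd (π := π) h20 hgy
  set W : Ser2 ℚbar := (2 : ℚbar)⁻¹ • (S.T g - (e ^ 2 + e)) with hWdef
  have hTg : S.T g = e ^ 2 + e + 2 * W := by
    rw [hWdef, smul_eq_cst_mul, ← map_ofNat (cst ℚbar) 2, ← mul_assoc, ← map_mul,
      mul_inv_cancel₀ h20, map_one, one_mul, add_sub_cancel]
  -- a function with expansion `1 + δ e` modulo `2`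
  obtain ⟨f, hf, hfb⟩ : ∃ f ∈ S.L R.E N,
      Bdd2 A (R.T' f - (1 + D * e)) (A.valuation (2 : ℚbar)) := by
    by_cases hex : ∃ g ∈ S.L R.E N, R.T' g = 1 + D * e
    · obtain ⟨g, hg, he⟩ := hex
      exact ⟨g, hg, by simp [he, Bdd2, BoundedBy]⟩
    push Not at hex
    have hynum : (1 + D * e).1 ∈ numField ∧ (1 + D * e).2 ∈ numField :=
      ⟨add_mem (one_mem _) (mul_mem (algebraMap_mem_numField _) he₁n),
        add_mem (one_mem _) (mul_mem (algebraMap_mem_numField _) he₂n)⟩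
    have hyb : Bdd2 A (1 + D * e) (A.valuation (1 : ℚbar)) := by
      rw [map_one]
      exact (red2_one.add (hDred.mul he)).bdd2
    obtain ⟨f, hf, c, hc, x, hx, hxnot, hmin⟩ := R.exists_best har hq N hynum.1 hynum.2 hyb hex
    refine ⟨f, hf, (bdd2_of_red hc hx).mono (not_lt.mp fun hlt => hxnot ?_)⟩
    -- the error of the best approximation is smaller than `δ`
    have hlt' : (A.valuation c)⁻¹ < A.valuation δ := by
      obtain ⟨h1, h2⟩ := R.T'_num har f₀
      have hz : Red2 A π (δ⁻¹ • (R.T' f₀ - (1 + D * e))) 0 := by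
        rw [← sub_self ē]
        convert hē.sub he using 1
        rw [hvdef, hDdef, smul_eq_cst_mul, smul_eq_cst_mul, ← sub_sub, mul_sub,
          ← mul_assoc, ← map_mul, inv_mul_cancel₀ hu0, map_one, one_mul]
      obtain ⟨r, hr, hrb⟩ := exists_bound2_lt hq hA (y := R.T' f₀ - (1 + D * e))
        (sub_mem h1 hynum.1) (sub_mem h2 hynum.2) hu0
        (valuation_lt_of_red_zero hπ hu0 hz.1) (valuation_lt_of_red_zero hπ hu0 hz.2)
      exact (hmin f₀ hf₀ r hrb).trans_lt hr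
    rw [hN N le_rfl]
    refine R.mem_CbarLe_of_red hm hf ⟨fun j hj => ?_, fun j hj => ?_⟩ hx (isCbar_of_pow_q ?_)
    · rw [Prod.fst_add, HahnSeries.coeff_add, ho1 j hj, zero_add, hDdef, ← smul_eq_cst_mul,
        Prod.smul_fst, coeff_smulC, hep.1 j hj, mul_zero]
    · rw [Prod.snd_add, HahnSeries.coeff_add, ho2 j hj, zero_add, hDdef, ← smul_eq_cst_mul,
        Prod.smul_snd, coeff_smulC, hep.2 j hj, mul_zero]
    set d := c⁻¹ with hd
    have hd0 : d ≠ 0 := inv_ne_zero hc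
    have hdv : A.valuation d = (A.valuation c)⁻¹ := map_inv₀ _ _
    rw [← hdv] at hlt hlt'
    have hdp : 0 < A.valuation d := (Valuation.pos_iff _).mpr hd0
    set ε : Ser2 ℚbar := c • (R.T' f - (1 + D * e)) with hε
    have hTf : R.T' f = 1 + D * e + cst ℚbar d * ε := by
      rw [hε, smul_eq_cst_mul, ← mul_assoc, ← map_mul, inv_mul_cancel₀ hc, map_one, one_mul,
        add_sub_cancel]
    -- the small scalars
    have s₁ : A.valuation (4 / d ^ 2) < 1 := by
      rw [map_div₀, map_pow, div_lt_one₀ (pow_pos hdp 2),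
        show (4 : ℚbar) = 2 ^ 2 by norm_num, map_pow]
      exact pow_lt_pow_left₀ hlt zero_le two_ne_zero
    have s₂ : A.valuation (2 / d) < 1 := by rw [map_div₀, div_lt_one₀ hdp]; exact hlt
    have s₃ : A.valuation (2 * d) < 1 := by
      rw [map_mul]; exact mul_lt_one_of_nonneg_of_lt_one_left zero_le hv2 (hlt'.trans hu1).le
    have s₄ : A.valuation (d ^ 2 / 2) < 1 := by
      rw [map_div₀, map_pow, div_lt_one₀ hu2p, ← hu2]
      exact pow_lt_pow_left₀ hlt' zero_le two_ne_zero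
    have hP : Red2 A π (1 + D * e) 1 := by
      have := (red2_one (A := A) (π := π)).add (hDred.mul he)
      rwa [zero_mul, add_zero] at this
    have hQ : ∃ z, Red2 A π
        ((-2 * D - 1) * e ^ 2 + (D + 3) * e ^ 3 + W * (2 * (e ^ 2 + e) + 2 * W - D)) z :=
      ⟨_, ((((((red2_natCast 2).neg).mul hDred).sub red2_one).mul (he.pow 2)).add
        ((hDred.add (red2_natCast 3)).mul (he.pow 3))).add
          (hw.mul ((((red2_natCast 2).mul ((he.pow 2).add he)).add
            ((red2_natCast 2).mul hw)).sub hDred))⟩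
    obtain ⟨z, hz⟩ := hQ
    have hall := (((((red2_cst_zero hπ s₁).mul hz).add
      ((red2_cst_zero hπ s₂).mul (hx.mul (hP.pow 3)))).add
        ((red2_natCast 3).mul ((hx.pow 2).mul (hP.pow 2)))).add
          ((red2_cst_zero hπ s₃).mul ((hx.pow 3).mul hP))).add
            ((red2_cst_zero hπ s₄).mul (hx.pow 4))
    refine ⟨(2 * d ^ 2)⁻¹ • (f ^ (2 ^ 2) / R.G - 1 + ((4 : ℚbar) • g ^ 2 - (4 * δ) • g)),
      (((R.reg_pow_div hf).sub Sheets.reg_one).add
        (((Sheets.Reg.pow (Sheets.reg_of_mem_L S.neg_zero' hg) 2).smul _).sub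
          ((Sheets.reg_of_mem_L S.neg_zero' hg).smul _))).smul _, ?_⟩
    have hT : S.T ((2 * d ^ 2)⁻¹ • (f ^ (2 ^ 2) / R.G - 1 + ((4 : ℚbar) • g ^ 2 - (4 * δ) • g))) =
        cst ℚbar (2 * d ^ 2)⁻¹ * ((1 + D * e + cst ℚbar d * ε) ^ 4 - 1 +
          4 * (e ^ 2 + e + 2 * W) ^ 2 - 4 * D * (e ^ 2 + e + 2 * W)) := by
      rw [map_smul, map_add, map_sub, map_sub, map_smul, map_smul, S.T_one, S.T_pow,
        ← R.T'_pow, hTf, hTg, smul_eq_cst_mul, smul_eq_cst_mul, smul_eq_cst_mul, map_mul,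
        map_ofNat]
      ring
    rw [hT, near_expansion hD]
    convert hall using 1
    · have k₁ : cst ℚbar (2 * d ^ 2)⁻¹ * 8 = cst ℚbar (4 / d ^ 2) := by
        rw [← map_ofNat (cst ℚbar) 8, ← map_mul]; congr 1; field_simp; norm_num
      have k₂ : cst ℚbar (2 * d ^ 2)⁻¹ * (4 * cst ℚbar d) = cst ℚbar (2 / d) := by
        rw [← map_ofNat (cst ℚbar) 4, ← map_mul, ← map_mul]; congr 1; field_simp; norm_num
      have k₃ : cst ℚbar (2 * d ^ 2)⁻¹ * (6 * cst ℚbar d ^ 2) = ((3 : ℕ) : Ser2 ℚbar) := by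
        rw [← map_ofNat (cst ℚbar) 6, ← map_pow, ← map_mul, ← map_mul, ← map_natCast (cst ℚbar)]
        congr 1; push_cast; field_simp; norm_num
      have k₄ : cst ℚbar (2 * d ^ 2)⁻¹ * (4 * cst ℚbar d ^ 3) = cst ℚbar (2 * d) := by
        rw [← map_ofNat (cst ℚbar) 4, ← map_pow, ← map_mul, ← map_mul]
        congr 1; field_simp; norm_num
      have k₅ : cst ℚbar (2 * d ^ 2)⁻¹ * cst ℚbar d ^ 4 = cst ℚbar (d ^ 2 / 2) := by
        rw [← map_pow, ← map_mul]; congr 1; field_simp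
      linear_combination
        ((-2 * D - 1) * e ^ 2 + (D + 3) * e ^ 3 + W * (2 * (e ^ 2 + e) + 2 * W - D)) * k₁ +
          (ε * (1 + D * e) ^ 3) * k₂ + (ε ^ 2 * (1 + D * e) ^ 2) * k₃ +
            (ε ^ 3 * (1 + D * e)) * k₄ + ε ^ 4 * k₅
    · push_cast
      simp only [zero_mul, zero_add, add_zero, one_pow, mul_one]
      linear_combination -(x ^ 2) * hS2
  -- the twisted class
  obtain ⟨h, hh⟩ := exists_red2_of_bdd (π := π) h20 hfb
  set H : Ser2 ℚbar := (2 : ℚbar)⁻¹ • (R.T' f - (1 + D * e)) with hHdef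
  have hTf : R.T' f = 1 + D * e + 2 * H := by
    rw [hHdef, smul_eq_cst_mul, ← map_ofNat (cst ℚbar) 2, ← mul_assoc, ← map_mul,
      mul_inv_cancel₀ h20, map_one, one_mul, add_sub_cancel]
  set c₂ := coeffMap (σ.τ : ℚbar →+* ℚbar) with hc₂
  set H' : Ser2 ℚbar := (c₂ H.1, c₂ H.2) with hH'
  set e' : Ser2 ℚbar := (c₂ e.1, c₂ e.2) with he'
  have hσTf : (R.conj σ).T' (σ.g f) = 1 + (-2 - D) * e' + 2 * H' := by
    rw [R.T'_conj, hTf]
    have hd : c₂ (algebraMap ℚbar (LaurentSeries ℚbar) δ) =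
        -2 - algebraMap ℚbar (LaurentSeries ℚbar) δ := by
      rw [hc₂, coeffMap_algebraMap, RingHom.coe_coe, hσδ, map_sub, map_neg, map_ofNat]
    refine Prod.ext ?_ ?_
    · show c₂ (1 + algebraMap ℚbar _ δ * e.1 + 2 * H.1) =
        1 + (-2 - algebraMap ℚbar _ δ) * c₂ e.1 + 2 * c₂ H.1
      rw [map_add, map_add, map_mul, map_mul, map_one, map_ofNat, hd]
    · show c₂ (1 + algebraMap ℚbar _ δ * e.2 + 2 * H.2) =
        1 + (-2 - algebraMap ℚbar _ δ) * c₂ e.2 + 2 * c₂ H.2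
      rw [map_add, map_add, map_mul, map_mul, map_one, map_ofNat, hd]
  have hee : e' = e := by
    -- `σ` fixes the lifts, which have residues fixed by inertia
    refine Prod.ext ?_ ?_ <;> refine HahnSeries.ext (funext fun j => ?_)
    · show (c₂ e₁).coeff j = e₁.coeff j
      rw [hc₂, coeffMap_coeff, RingHom.coe_coe, hστ]
      exact he₁f j τ₀ hτ₀
    · show (c₂ e₂).coeff j = e₂.coeff j
      rw [hc₂, coeffMap_coeff, RingHom.coe_coe, hστ]
      exact he₂f j τ₀ hτ₀
  set R' : Root S (2 ^ 2) := (R.conj σ).mul R with hR'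
  obtain ⟨N', -, hN'⟩ := R'.exists_redPair_T'
  set M' := max M (max N' (N + N)) with hM'
  obtain ⟨f', hf', hf'b⟩ : ∃ f' ∈ S.L R'.E M', Red2 A π (R'.T' f') b := by
    have hb' : b ∈ redPair S.surj R'.T' (S.L R'.E M') := by
      rw [hN' M' ((le_max_left _ _).trans (le_max_right _ _))]
      exact S.CbarLe_mono (le_max_left _ _) hbM
    exact hb'
  set f₃ : F := σ.g f * f - (2 : ℚbar) • f' with hf₃
  have hf₃L : f₃ ∈ S.L R'.E M' :=
    Submodule.sub_mem _ (S.L_mono _ ((le_max_right _ _).trans (le_max_right _ _))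
      (Sheets.mul_mem_L (σ.mem_L_act hf) hf)) (Submodule.smul_mem _ _ hf')
  have hprod : Red2 A π ((2 : ℚbar)⁻¹ • (R'.T' f₃ - 1)) 0 := by
    have hσh : Red2 A π H' h := ⟨σ.red hh.1, σ.red hh.2⟩
    have hall := ((((he.neg.add (he.pow 2)).add (hh.mul (red2_one.add
      ((((red2_natCast 2).neg).sub hDred).mul he)))).add
        (hσh.mul (red2_one.add (hDred.mul he)))).add
          (((red2_natCast 2).mul hh).mul hσh)).sub hf'b
    convert hall using 1
    · rw [hR', hf₃, map_sub, map_smul, Root.T'_mul, hσTf, hee, hTf, smul_eq_cst_mul,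
        smul_eq_cst_mul]
      have hk : cst ℚbar (2 : ℚbar)⁻¹ * 2 = 1 := by
        rw [← map_ofNat (cst ℚbar) 2, ← map_mul, inv_mul_cancel₀ h20, map_one]
      rw [map_ofNat (cst ℚbar) 2]
      push_cast
      linear_combination
        (-e + e ^ 2 + H * (1 + (-2 - D) * e) + H' * (1 + D * e) + 2 * H * H' -
          ((R.conj σ).mul R).T' f') * hk + cst ℚbar (2 : ℚbar)⁻¹ * twist_expansion hD e H H'
    · rw [hbdef]
      push_cast
      linear_combination (ē - h + h * ē - h * h) * hS2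
  obtain ⟨n₁, n₂⟩ := R'.T'_num har f₃
  obtain ⟨r, hr, hrb⟩ := exists_bound2_lt hq hA (y := R'.T' f₃ - 1)
    (sub_mem n₁ (one_mem _)) (sub_mem n₂ (one_mem _)) h20
    (valuation_lt_of_red_zero hπ h20 hprod.1) (valuation_lt_of_red_zero hπ h20 hprod.2)
  refine R'.mem_principal_of_close har hf₃L (hr.le.trans hv2.le) hrb fun j hj2 hj4 => ?_
  have h4 : A.valuation (((2 : ℕ) ^ 2 : ℕ) : ℚbar) =
      A.valuation (2 : ℚbar) * A.valuation (2 : ℚbar) := by
    rw [← map_mul]; norm_num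
  rw [h4]
  have hr1 : r ≤ 1 := hr.le.trans hv2.le
  norm_num at hj4
  interval_cases j
  · show A.valuation ((6 : ℕ) : ℚbar) * r ^ 1 < _
    rw [pow_one, show ((6 : ℕ) : ℚbar) = 2 * ((3 : ℕ) : ℚbar) by norm_num, map_mul, mul_assoc]
    refine mul_lt_mul_of_pos_left (lt_of_le_of_lt ?_ hr) hu2p
    exact mul_le_of_le_one_left zero_le ((A.valuation_le_one_iff _).mpr (natCast_mem A 3))
  · show A.valuation ((4 : ℕ) : ℚbar) * r ^ 2 < _
    rw [show ((4 : ℕ) : ℚbar) = 2 * 2 by norm_num, map_mul]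
    exact mul_lt_of_lt_one_right (mul_pos hu2p hu2p)
      (pow_lt_one₀ zero_le (hr.trans hv2) two_ne_zero)
  · show A.valuation ((1 : ℕ) : ℚbar) * r ^ 3 < _
    rw [Nat.cast_one, map_one, one_mul, pow_succ, pow_two]
    exact lt_of_le_of_lt (mul_le_of_le_one_right zero_le hr1) (mul_lt_mul'' hr hr zero_le zero_le)

end Fermat.Agent.AttachedLocal
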