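import Fermat.Agent.AttachedLocal.Best

/-!
# Inertia on classes of order `q` with exact roots

At a place over `q`, an inertia element `σ` with `σ ζ = ζ ^ c` acts as `c` on a class of order `q`
with exact roots.
-/

set_option autoImplicit false

noncomputable section

namespace Fermat.Agent.AttachedLocal

open HahnSeries AlgebraicCurve ModularCurve Fermat.Agent.Reduction Fermat.Agent.Semistable

local notation "ℚbar" => AlgebraicClosure ℚ

section Pairs

variable {K k : Type*} [Field K] [Field k] {A : ValuationSubring K} {π : A →+* k}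

/-- Products of pairs close to `1`. -/
theorem red2_one_add_mul (hπ : Function.Surjective π) {π₀ : K} (h0 : π₀ ≠ 0)
    (h1 : A.valuation π₀ < 1) {y y' : Ser2 K} {x x' : Ser2 k}
    (hy : Red2 A π (π₀⁻¹ • (y - 1)) x) (hy' : Red2 A π (π₀⁻¹ • (y' - 1)) x') :
    Red2 A π (π₀⁻¹ • (y * y' - 1)) (x + x') := by
  have hmem : π₀ ∈ A := (A.valuation_le_one_iff _).mp h1.le
  have h2 := (hy.mul hy').smul (⟨π₀, hmem⟩ : A)
  rw [(residue_eq_zero_iff hπ ⟨π₀, hmem⟩).mpr h1, zero_smul] at h2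
  have h3 := (hy.add hy').add h2
  rw [add_zero] at h3
  convert h3 using 1
  have hμ : algebraMap K (LaurentSeries K) π₀ * algebraMap K (LaurentSeries K) π₀⁻¹ = 1 := by
    rw [← map_mul, mul_inv_cancel₀ h0, map_one]
  refine Prod.ext ?_ ?_
  · simp only [Prod.smul_fst, Prod.fst_add, Prod.fst_mul, Prod.fst_sub, Prod.fst_one,
      smul_eq_algebraMap_mul]
    linear_combination -(algebraMap K (LaurentSeries K) π₀⁻¹ * (y.1 - 1) * (y'.1 - 1)) * hμ
  · simp only [Prod.smul_snd, Prod.snd_add, Prod.snd_mul, Prod.snd_sub, Prod.snd_one,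
      smul_eq_algebraMap_mul]
    linear_combination -(algebraMap K (LaurentSeries K) π₀⁻¹ * (y.2 - 1) * (y'.2 - 1)) * hμ

theorem red2_one_add_pow (hπ : Function.Surjective π) {π₀ : K} (h0 : π₀ ≠ 0)
    (h1 : A.valuation π₀ < 1) {y : Ser2 K} {x : Ser2 k}
    (hy : Red2 A π (π₀⁻¹ • (y - 1)) x) (j : ℕ) :
    Red2 A π (π₀⁻¹ • (y ^ j - 1)) ((j : k) • x) := by
  induction j with
  | zero =>
    rw [pow_zero, sub_self, smul_zero, Nat.cast_zero, zero_smul]
    exact red2_zero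
  | succ j ih =>
    rw [pow_succ, Nat.cast_succ, add_smul, one_smul]
    exact red2_one_add_mul hπ h0 h1 ih hy

/-- Integral pairs small after scaling have small coefficients. -/
theorem valuation_lt_of_red_zero (hπ : Function.Surjective π) {π₀ : K} (h0 : π₀ ≠ 0)
    {y : LaurentSeries K} (h : Red A π (π₀⁻¹ • y) 0) (i : ℤ) :
    A.valuation (y.coeff i) < A.valuation π₀ := by
  have h1 := (Sheets.valuation_coeff_of_red hπ h i).2 rfl
  rwa [coeff_smulC, map_mul, map_inv₀,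
    inv_mul_lt_iff₀ ((Valuation.pos_iff _).mpr h0), mul_one] at h1

theorem exists_red2_of_bdd {y : Ser2 K} {π₀ : K} (h0 : π₀ ≠ 0)
    (h : Bdd2 A y (A.valuation π₀)) : ∃ x, Red2 A π (π₀⁻¹ • y) x := by
  have key : ∀ w : LaurentSeries K, BoundedBy A w (A.valuation π₀) →
      ∀ i, (π₀⁻¹ • w).coeff i ∈ A := fun w hw i => by
    rw [← A.valuation_le_one_iff, coeff_smulC, map_mul, map_inv₀,
      inv_mul_le_iff₀ ((Valuation.pos_iff _).mpr h0), mul_one]
    exact hw i
  obtain ⟨x₁, hx₁⟩ := exists_red_of_coeff_mem π (key _ h.1)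
  obtain ⟨x₂, hx₂⟩ := exists_red_of_coeff_mem π (key _ h.2)
  exact ⟨(x₁, x₂), hx₁, hx₂⟩

end Pairs

section Cyclotomic

variable {K k : Type*} [Field K] [CharZero K] [Field k] {A : ValuationSubring K} {π : A →+* k}
  {q : ℕ} [hq : Fact q.Prime] [CharP k q] {ζ : K}

omit [CharZero K] in
theorem zeta_mem (hζ : IsPrimitiveRoot ζ q) : ζ ∈ A := by
  rw [← A.valuation_le_one_iff]
  refine (pow_le_one_iff hq.out.ne_zero).mp ?_
  rw [← map_pow, hζ.pow_eq_one, map_one]

omit [CharZero K] in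
theorem residue_zeta (hζ : IsPrimitiveRoot ζ q) : π ⟨ζ, zeta_mem hζ⟩ = 1 := by
  refine frobenius_inj k q ?_
  rw [frobenius_def, frobenius_def, one_pow, ← map_pow, ← map_one π]
  exact congrArg π (Subtype.ext hζ.pow_eq_one)

omit [CharZero K] in
theorem valuation_zeta_sub_one_lt (hπ : Function.Surjective π) (hζ : IsPrimitiveRoot ζ q) :
    A.valuation (ζ - 1) < 1 := by
  have h : π (⟨ζ, zeta_mem hζ⟩ - 1) = 0 := by rw [map_sub, residue_zeta hζ, map_one, sub_self]
  exact (residue_eq_zero_iff hπ _).mp h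

omit [CharZero K] in
/-- `(ζ ^ i - 1) / (ζ - 1)` reduces to `i`. -/
theorem exists_geom_unit (hζ : IsPrimitiveRoot ζ q) (i : ℕ) :
    ∃ u : A, ζ ^ i - 1 = (u : K) * (ζ - 1) ∧ π u = i := by
  refine ⟨∑ j ∈ Finset.range i, (⟨ζ, zeta_mem hζ⟩ : A) ^ j, ?_, ?_⟩
  · rw [AddSubmonoidClass.coe_finsetSum]
    exact (geom_sum_mul ζ i).symm
  · rw [map_sum]
    simp only [map_pow, residue_zeta (π := π) hζ, one_pow, Finset.sum_const, Finset.card_range,
      nsmul_eq_mul, mul_one]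

omit [CharZero K] in
theorem valuation_zeta_sub_one_pow (hπ : Function.Surjective π) (hζ : IsPrimitiveRoot ζ q) :
    A.valuation (ζ - 1) ^ (q - 1) = A.valuation (q : K) := by
  obtain ⟨l, hl⟩ : ∃ l, q = l + 1 := ⟨q - 1, by have := hq.out.pos; omega⟩
  have hprod : ∏ j ∈ Finset.range l, (1 - ζ ^ (j + 1)) = (l : K) + 1 :=
    IsPrimitiveRoot.prod_one_sub_pow_eq_order (hl ▸ hζ)
  rw [show (q : K) = (l : K) + 1 by rw [hl]; push_cast; rfl, ← hprod, map_prod,
    show q - 1 = l by omega]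
  have hterm : ∀ j ∈ Finset.range l, A.valuation (1 - ζ ^ (j + 1)) = A.valuation (ζ - 1) := by
    intro j hj
    obtain ⟨u, hu, hπu⟩ := exists_geom_unit (π := π) hζ (j + 1)
    have hne : π u ≠ 0 := by
      rw [hπu, Ne, CharP.cast_eq_zero_iff k q]
      exact fun hd => absurd (Nat.le_of_dvd (by omega) hd) (by rw [Finset.mem_range] at hj; omega)
    rw [← neg_sub, Valuation.map_neg, hu, map_mul, (residue_ne_zero_iff hπ u).mp hne, one_mul]
  rw [Finset.prod_congr rfl hterm, Finset.prod_const, Finset.card_range]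

omit [CharZero K] in
theorem valuation_choose_le (i : ℕ) (h1 : 0 < i) (h2 : i < q) :
    A.valuation ((q.choose i : ℕ) : K) ≤ A.valuation (q : K) := by
  obtain ⟨b, hb⟩ := hq.out.dvd_choose_self h1.ne' h2
  rw [hb, Nat.cast_mul, map_mul]
  exact mul_le_of_le_one_right zero_le ((A.valuation_le_one_iff _).mpr (natCast_mem A b))

end Cyclotomic

variable {F k : Type*} [Field F] [Algebra ℚbar F] [Field k] {A : ValuationSubring ℚbar}
  {π : A →+* k} {q : ℕ} [NeZero q] {S : Sheets A π q F} {m : ℕ}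

/-- A scaled error which is a reduced pair is a reduced pair of the same pole order. -/
theorem Root.mem_CbarLe_of_red (R : Root S m) (hm : 0 < m) {n : ℤ} {f : F} (hf : f ∈ S.L R.E n)
    {y : Ser2 ℚbar} (hy : PoleLE n y.1 ∧ PoleLE n y.2) {c : ℚbar} {x : Ser2 k}
    (hx : Red2 A π (c • (R.T' f - y)) x) (hC : S.IsCbar x) : x ∈ S.CbarLe n := by
  obtain ⟨hp1, hp2⟩ := R.poleLE_T' hm hf
  refine ⟨⟨⟨hx.1.poleLE fun i hi => ?_, hC.mem.1⟩, ⟨hx.2.poleLE fun i hi => ?_, hC.mem.2⟩⟩, hC⟩ <;>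
    simp [Prod.smul_fst, Prod.smul_snd, HahnSeries.coeff_sub, hp1 i hi, hp2 i hi,
      hy.1 i hi, hy.2 i hi]

theorem poleLE_one_pair {n : ℤ} (hn : 0 ≤ n) :
    PoleLE n (1 : Ser2 ℚbar).1 ∧ PoleLE n (1 : Ser2 ℚbar).2 := by
  constructor <;>
  · intro i hi
    simp only [Prod.fst_one, Prod.snd_one, HahnSeries.coeff_one]
    rw [if_neg (by omega)]

variable [FF.IsFunctionField ℚbar F] [IsAlgClosed k] [Fact q.Prime] [CharP k q]

/-- **Inertia acts on classes of order `q` with exact roots through `μ_q`.** -/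
theorem inertia_sub_smul_mem_principal (R : Root S (q ^ 1)) (har : Arith S) (σ : S.Inertia)
    {ζ : ℚbar} (hζ : IsPrimitiveRoot ζ q) {c : ℕ} (hc : c < q) (hσ : σ.τ ζ = ζ ^ c) :
    σ.act R.E - (c : ℤ) • R.E ∈ Divisor.principal (K := ℚbar) (F := F) := by
  have hπ := S.surj
  have hq : q.Prime := Fact.out
  set π₀ := ζ - 1 with hπ₀
  have h0 : π₀ ≠ 0 := sub_ne_zero.mpr (hζ.ne_one hq.one_lt)
  have h1 : A.valuation π₀ < 1 := valuation_zeta_sub_one_lt hπ hζ
  have hpow : A.valuation π₀ ^ (q - 1) = A.valuation (q : ℚbar) :=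
    valuation_zeta_sub_one_pow hπ hζ
  have hm : 0 < q ^ 1 := pow_pos (NeZero.pos q) 1
  obtain ⟨N, hN0, hN⟩ := R.exists_redPair_T'
  -- a function congruent to `1` modulo `ζ - 1`
  obtain ⟨f, hf, hfb⟩ : ∃ f ∈ S.L R.E N, Bdd2 A (R.T' f - 1) (A.valuation π₀) := by
    by_cases hex : ∃ g ∈ S.L R.E N, R.T' g = 1
    · obtain ⟨g, hg, he⟩ := hex
      exact ⟨g, hg, by simp [he, Bdd2, BoundedBy]⟩
    push Not at hex
    obtain ⟨g, hg, d, hd, x, hx, hxnot, hmin⟩ := R.exists_best har hq N (y := (1 : Ser2 ℚbar))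
      (one_mem _) (one_mem _) (b := 1)
      (by rw [map_one]; exact ⟨boundedBy_one_one, boundedBy_one_one⟩) hex
    refine ⟨g, hg, (bdd2_of_red hd hx).mono ?_⟩
    refine not_lt.mp fun hlt => hxnot ?_
    rw [hN N le_rfl]
    refine R.mem_CbarLe_of_red hm hg (poleLE_one_pair hN0) hx ?_
    refine isCbar_of_pow_q ?_
    have hd1 : 1 ≤ A.valuation d := by
      refine (inv_le_one₀ ((Valuation.pos_iff _).mpr hd)).mp (hmin 0 (zero_mem _) 1 ?_)
      rw [map_zero, zero_sub]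
      exact Bdd2.neg ⟨boundedBy_one_one, boundedBy_one_one⟩
    have hsmall : A.valuation π₀ * A.valuation d < 1 := by
      calc A.valuation π₀ * A.valuation d < (A.valuation d)⁻¹ * A.valuation d :=
            mul_lt_mul_of_pos_right hlt ((Valuation.pos_iff _).mpr hd)
        _ = 1 := inv_mul_cancel₀ ((A.valuation.ne_zero_iff).mpr hd)
    have hred := red2_pow_sub_one hπ hd hx (m := q) (i₀ := q) hq.one_lt.le le_rfl (c' := d ^ q)
      (u := 1) (by rw [Nat.choose_self]; simp) (fun i hi1 hi2 hi3 => by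
        obtain ⟨j, hj⟩ : ∃ j, q = i + j := ⟨q - i, by omega⟩
        rw [map_mul, map_pow, hj, _root_.pow_add, mul_comm (_ * _) (A.valuation _), mul_assoc,
          mul_comm (A.valuation d ^ i), mul_assoc, ← mul_pow,
          mul_inv_cancel₀ ((A.valuation.ne_zero_iff).mpr hd), one_pow, mul_one, ← hj]
        refine lt_of_le_of_lt (mul_le_mul' (valuation_choose_le i hi1 (lt_of_le_of_ne hi2 hi3))
          (pow_le_pow_right' hd1 (show j ≤ q - 1 by omega))) ?_
        rw [← hpow, ← mul_pow]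
        exact pow_lt_one₀ zero_le hsmall (by have := hq.one_lt; omega))
    rw [add_sub_cancel, map_one, one_smul] at hred
    refine R.isCbar_of_red_pow hg (c := d ^ q) ?_
    simpa only [pow_one] using hred
  -- the twisted class
  set R' : Root S (q ^ 1) := (R.conj σ).mul (R.npow (q - c)) with hR'
  set f' : F := σ.g f * f ^ (q - c) with hf'
  have hf'L : f' ∈ S.L R'.E (N + ((q - c : ℕ) : ℤ) * N) :=
    Sheets.mul_mem_L (σ.mem_L_act hf) (R.pow_mem_L_npow hf (q - c))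
  obtain ⟨x, hx⟩ := exists_red2_of_bdd (π := π) h0 hfb
  obtain ⟨u, hu, hπu⟩ := exists_geom_unit (π := π) hζ c
  have hστ : σ.τ π₀ = (u : ℚbar) * π₀ := by rw [hπ₀, map_sub, map_one, hσ, hu]
  have hconj : Red2 A π (π₀⁻¹ • ((R.conj σ).T' (σ.g f) - 1)) ((c : k) • x) := by
    have h2 : Red2 A π ((u : ℚbar) • ((coeffMap (σ.τ : ℚbar →+* ℚbar) (π₀⁻¹ • (R.T' f - 1)).1,
        coeffMap (σ.τ : ℚbar →+* ℚbar) (π₀⁻¹ • (R.T' f - 1)).2) : Ser2 ℚbar)) ((c : k) • x) := by
      rw [← hπu]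
      exact Red2.smul ⟨σ.red hx.1, σ.red hx.2⟩ u
    convert h2 using 1
    rw [R.T'_conj]
    have hcst : (u : ℚbar) * σ.τ π₀⁻¹ = π₀⁻¹ := by
      have hu0 : (u : ℚbar) ≠ 0 := fun h => by
        rw [h, zero_mul] at hστ
        exact h0 ((map_eq_zero σ.τ).mp hστ)
      rw [map_inv₀, hστ, mul_inv, ← mul_assoc, mul_inv_cancel₀ hu0, one_mul]
    refine Prod.ext ?_ ?_ <;>
      simp only [Prod.smul_fst, Prod.smul_snd, Prod.fst_sub, Prod.snd_sub, Prod.fst_one,
        Prod.snd_one, smul_eq_algebraMap_mul, map_mul, map_sub, map_one, coeffMap_algebraMap,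
        RingHom.coe_coe] <;>
      rw [← mul_assoc, ← map_mul, hcst]
  have hprod : Red2 A π (π₀⁻¹ • (R'.T' f' - 1)) 0 := by
    rw [hR', hf', Root.T'_mul, R.T'_npow]
    have h3 := red2_one_add_mul hπ h0 h1 hconj (red2_one_add_pow hπ h0 h1 hx (q - c))
    rwa [← add_smul, ← Nat.cast_add, Nat.add_sub_cancel' hc.le, CharP.cast_eq_zero,
      zero_smul] at h3
  obtain ⟨hn1, hn2⟩ := R'.T'_num har f'
  obtain ⟨r, hr, hrb⟩ := exists_bound2_lt hq har.hA (y := R'.T' f' - 1)
    (sub_mem hn1 (one_mem _)) (sub_mem hn2 (one_mem _)) h0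
    (valuation_lt_of_red_zero hπ h0 hprod.1) (valuation_lt_of_red_zero hπ h0 hprod.2)
  have hp := R'.mem_principal_of_close har hf'L (hr.le.trans h1.le) hrb fun i hi2 hiq => by
    rw [pow_one] at hiq ⊢
    rcases eq_or_lt_of_le hiq with rfl | hlt
    · rw [Nat.choose_self, Nat.cast_one, map_one, one_mul, ← hpow]
      exact pow_lt_pow_left₀ hr zero_le (by omega)
    · refine lt_of_le_of_lt (mul_le_mul' (valuation_choose_le i (by omega) hlt) le_rfl) ?_
      exact mul_lt_of_lt_one_right ((Valuation.pos_iff _).mpr (Nat.cast_ne_zero.mpr hq.ne_zero))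
        (pow_lt_one₀ zero_le (hr.trans h1) (by omega))
  have hqE : ((q : ℕ) : ℤ) • R.E ∈ Divisor.principal (K := ℚbar) (F := F) := by
    refine ⟨R.G⁻¹, inv_ne_zero R.G_ne, fun v => ?_⟩
    rw [v.ord_inv, R.ord_G, Finsupp.smul_apply, smul_eq_mul, neg_neg]
    congr 1
    exact_mod_cast (pow_one q).symm
  have hE : σ.act R.E - (c : ℤ) • R.E = R'.E - (q : ℤ) • R.E := by
    show _ = σ.act R.E + (R.npow (q - c)).E - _
    rw [R.npow_E, Nat.cast_sub hc.le, sub_smul]
    abel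
  rw [hE]
  exact sub_mem hp hqE

end Fermat.Agent.AttachedLocal
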