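import Fermat.Agent.AttachedLocal.Num

/-!
# Integrality of `q`-power roots of series fixed by the norm up to powers

A series `g` with constant term `1`, congruent to a `q ^ e`-th power, with
`seriesNorm g = g ^ (±1) * H ^ (q ^ e)` has an integral `q ^ e`-th root.
-/

set_option autoImplicit false

noncomputable section

namespace Fermat.Agent.AttachedLocal

open HahnSeries ModularCurve Fermat.Agent.Reduction Fermat.Agent.Semistable
open Fermat.Agent.LevelLowerP (seriesNorm seriesNorm_mul seriesNorm_pow)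

variable {K k : Type*} [Field K] [Field k] {A : ValuationSubring K} {π : A →+* k}

/-- Formal roots of series with constant term `1`. -/
theorem exists_root_powerSeries {L : Type*} [Field L] {m : ℕ} (hm : (m : L) ≠ 0)
    (P : PowerSeries L) (hP : PowerSeries.constantCoeff P = 1) :
    ∃ W : PowerSeries L, W ^ m = P ∧ PowerSeries.constantCoeff W = 1 := by
  have hm0 : m ≠ 0 := fun h => hm (by simp [h])
  set f : Polynomial (PowerSeries L) := Polynomial.X ^ m - Polynomial.C P with hf
  obtain ⟨G, hG, hG0⟩ := HenselianRing.is_henselian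
    (I := Ideal.span {(PowerSeries.X : PowerSeries L)})
    f (Polynomial.monic_X_pow_sub_C _ hm0) (PowerSeries.C 1) (by
      rw [Ideal.mem_span_singleton, PowerSeries.X_dvd_iff, hf]
      simp [hP]) (by
      refine IsUnit.map _ ?_
      rw [PowerSeries.isUnit_iff_constantCoeff, hf]
      simpa [Polynomial.derivative_X_pow] using hm)
  refine ⟨G, ?_, ?_⟩
  · rw [Polynomial.IsRoot.def, hf, Polynomial.eval_sub, Polynomial.eval_pow, Polynomial.eval_X,
      Polynomial.eval_C, sub_eq_zero] at hG
    exact hG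
  · rw [Ideal.mem_span_singleton, PowerSeries.X_dvd_iff, map_sub,
      PowerSeries.constantCoeff_C, sub_eq_zero] at hG0
    exact hG0

/-- A series with no negative coefficients is a power series. -/
theorem exists_powerSeries_eq {R : Type*} [Field R] {y : LaurentSeries R} (hy : PoleLE 0 y) :
    ∃ P : PowerSeries R, HahnSeries.ofPowerSeries ℤ R P = y := by
  refine ⟨PowerSeries.mk fun n => y.coeff n, ?_⟩
  ext i
  rcases lt_or_ge i 0 with hi | hi
  · rw [ofPowerSeries_coeff_of_neg _ hi, hy i (by omega)]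
  · lift i to ℕ using hi
    rw [HahnSeries.ofPowerSeries_apply_coeff, PowerSeries.coeff_mk]

/-- Roots of series of a number field with constant term `1`. -/
theorem exists_root_numField {m : ℕ} (hm : m ≠ 0) {g : LaurentSeries (AlgebraicClosure ℚ)}
    (hg : g ∈ numField) (hp : PoleLE 0 g) (h0 : g.coeff 0 = 1) :
    ∃ s ∈ numField, s ^ m = g ∧ PoleLE 0 s ∧ s.coeff 0 = 1 := by
  obtain ⟨L, hL, y, hy⟩ := hg
  have hyp : PoleLE 0 y := fun i hi => by
    have h1 := hp i hi
    rw [← hy, coeffMap_coeff] at h1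
    exact by simpa using h1
  obtain ⟨P, rfl⟩ := exists_powerSeries_eq hyp
  have hP : PowerSeries.constantCoeff P = 1 := by
    apply (L.val : L →+* AlgebraicClosure ℚ).injective
    rw [map_one, ← h0, ← hy, coeffMap_coeff, ← PowerSeries.coeff_zero_eq_constantCoeff_apply,
      show (0 : ℤ) = ((0 : ℕ) : ℤ) from rfl, HahnSeries.ofPowerSeries_apply_coeff]
  obtain ⟨W, hW, hW0⟩ := exists_root_powerSeries (L := L) (Nat.cast_ne_zero.mpr hm) P hP
  refine ⟨coeffMap (L.val : L →+* _) (HahnSeries.ofPowerSeries ℤ L W), ⟨L, hL, _, rfl⟩, ?_,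
    fun i hi => ?_, ?_⟩
  · rw [← map_pow, ← map_pow, hW, hy]
  · rw [coeffMap_coeff, ofPowerSeries_coeff_of_neg _ (by omega), map_zero]
  · rw [coeffMap_coeff, show (0 : ℤ) = ((0 : ℕ) : ℤ) from rfl,
      HahnSeries.ofPowerSeries_apply_coeff, PowerSeries.coeff_zero_eq_constantCoeff_apply, hW0,
      map_one]

/-- Roots of series very close to `1` are integral. -/
theorem boundedBy_one_of_pow_near [CharZero K] {m : ℕ} (hm : 0 < m)
    {w : LaurentSeries K} (hp : PoleLE 0 w) (h0 : w.coeff 0 = 1)
    (hb : BoundedBy A (w ^ m - 1) (A.valuation (m : K) ^ 2)) : BoundedBy A w 1 := by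
  classical
  have hmK : (m : K) ≠ 0 := Nat.cast_ne_zero.mpr hm.ne'
  set y : LaurentSeries K := (m : K)⁻¹ • (w - 1) with hy
  have hwy : w = 1 + (m : K) • y := by
    rw [hy, smul_smul, mul_inv_cancel₀ hmK, one_smul, add_sub_cancel]
  have hyp : PoleLE (-1) y := fun i hi => by
    rw [hy, coeff_smulC, HahnSeries.coeff_sub, HahnSeries.coeff_one]
    rcases eq_or_ne i 0 with rfl | hi0
    · rw [h0, if_pos rfl, sub_self, mul_zero]
    · rw [hp i (by omega), if_neg hi0, sub_self, mul_zero]
  suffices key : ∀ n : ℕ, ∀ i < (n : ℤ), A.valuation (y.coeff i) ≤ 1 by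
    rw [hwy]
    refine boundedBy_add boundedBy_one_one ((boundedBy_smul (fun i => key (i + 1).toNat i
      (by omega)) _).mono ?_)
    rw [mul_one]
    exact (A.valuation_le_one_iff _).mpr (natCast_mem A m)
  intro n
  induction n with
  | zero => intro i hi; rw [hyp i (by simp at hi ⊢; omega), map_zero]; exact zero_le
  | succ n ih =>
    intro i hi
    rcases lt_or_ge i (n : ℤ) with h1 | h1
    · exact ih i h1
    obtain rfl : i = (n : ℤ) := by push_cast at hi; omega
    rcases Nat.eq_zero_or_pos n with rfl | hn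
    · rw [hyp _ (by norm_num), map_zero]; exact zero_le
    set T : LaurentSeries K :=
      ∑ i ∈ Finset.Ico (1 : ℤ) n, HahnSeries.single i (y.coeff i) with hT
    have hTb : BoundedBy A T 1 :=
      boundedBy_sum _ fun i hi => boundedBy_single (ih i (Finset.mem_Ico.mp hi).2)
    have hTc : ∀ i < (n : ℤ), T.coeff i = y.coeff i := fun i hi => by
      rw [hT, HahnSeries.coeff_sum]
      rcases lt_or_ge i 1 with hlt | hge
      · rw [hyp i (by omega), Finset.sum_eq_zero]
        intro l hl
        rw [Finset.mem_Ico] at hl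
        exact HahnSeries.coeff_single_of_ne (by omega)
      · rw [Finset.sum_eq_single i, HahnSeries.coeff_single_same]
        · intro l _ hl
          exact HahnSeries.coeff_single_of_ne (Ne.symm hl)
        · intro h
          exact absurd (Finset.mem_Ico.mpr ⟨hge, hi⟩) h
    have hTp : PoleLE (-1) T := fun i hi => by
      rw [hTc i (by omega), hyp i hi]
    have hdiff : PoleLE (-(n : ℤ)) (y - T) := fun i hi => by
      rw [HahnSeries.coeff_sub, hTc i (by omega), sub_self]
    have hpow : ∀ {z : LaurentSeries K}, PoleLE (-1) z → ∀ j : ℕ, PoleLE (-(j : ℤ)) (z ^ j) := by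
      intro z hz j
      induction j with
      | zero =>
        intro i hi
        rw [pow_zero, HahnSeries.coeff_one, if_neg (by push_cast at hi; omega)]
      | succ j ihj =>
        rw [pow_succ]
        have := ihj.mul hz
        exact this.mono (by push_cast; omega)
    have hcoef : ∀ j, 2 ≤ j → A.valuation ((y ^ j).coeff n) ≤ 1 := by
      intro j hj
      have h2 : PoleLE (-(n : ℤ) - 1) (y ^ j - T ^ j) := by
        rw [← geom_sum₂_mul y T j]
        intro i hi
        refine (PoleLE.mul (n := (-1 : ℤ)) (m := -(n : ℤ)) ?_ hdiff) i (by omega)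
        intro l hl
        rw [HahnSeries.coeff_sum]
        refine Finset.sum_eq_zero fun t ht => ?_
        rw [Finset.mem_range] at ht
        exact ((hpow hyp t).mul (hpow hTp (j - 1 - t))).mono (by omega) l hl
      have h3 := h2 n (by omega)
      rw [HahnSeries.coeff_sub, sub_eq_zero] at h3
      rw [h3]
      exact boundedBy_pow_one hTb j n
    have hexp : w ^ m = ∑ j ∈ Finset.range (m + 1), ((m : K) ^ j * (m.choose j : K)) • y ^ j := by
      rw [hwy, add_comm (1 : LaurentSeries K), add_pow]
      refine Finset.sum_congr rfl fun j _ => ?_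
      rw [one_pow, mul_one, smul_eq_algebraMap_mul, smul_eq_algebraMap_mul, mul_pow, map_mul,
        map_pow, map_natCast, map_natCast]
      ring
    have hrest : ∀ j ∈ (Finset.range (m + 1)).erase 1,
        A.valuation (((m : K) ^ j * (m.choose j : K)) * (y ^ j).coeff n) ≤
          A.valuation (m : K) ^ 2 := by
      intro j hj
      rw [Finset.mem_erase, Finset.mem_range] at hj
      rcases Nat.eq_zero_or_pos j with rfl | hj0
      · rw [pow_zero, pow_zero, HahnSeries.coeff_one,
          if_neg (by exact_mod_cast hn.ne'), mul_zero, map_zero]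
        exact zero_le
      · have hmle : A.valuation (m : K) ≤ 1 := (A.valuation_le_one_iff _).mpr (natCast_mem A m)
        rw [map_mul, map_mul, map_pow]
        refine (mul_le_mul' (mul_le_mul' (pow_le_pow_right_of_le_one' hmle (by omega : 2 ≤ j))
          ((A.valuation_le_one_iff _).mpr (natCast_mem A _))) (hcoef j (by omega))).trans ?_
        rw [mul_one, mul_one]
    have hw := hb n
    rw [HahnSeries.coeff_sub, HahnSeries.coeff_one, if_neg (by exact_mod_cast hn.ne'), sub_zero,
      hexp, HahnSeries.coeff_sum, Finset.sum_congr rfl (fun j _ => coeff_smulC _ _ _),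
      ← Finset.add_sum_erase _ _
        (show 1 ∈ Finset.range (m + 1) from Finset.mem_range.mpr (by omega)),
      pow_one, pow_one, Nat.choose_one_right] at hw
    have hmain : A.valuation ((m : K) * (m : K) * y.coeff n) ≤ A.valuation (m : K) ^ 2 := by
      have := (A.valuation.map_sub _ _).trans (max_le hw (A.valuation.map_sum_le hrest))
      rwa [add_sub_cancel_right] at this
    rw [map_mul, map_mul, ← sq] at hmain
    have hv : 0 < A.valuation (m : K) ^ 2 := pow_pos ((Valuation.pos_iff _).mpr hmK) 2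
    exact le_of_mul_le_mul_left (hmain.trans_eq (mul_one _).symm) hv

section Main

variable [IsAlgClosed K] [CharZero K] {q : ℕ} [NeZero q] [hq : Fact q.Prime] [CharP k q]

omit [IsAlgClosed K] [CharZero K] [NeZero q] hq in
theorem valuation_natCast_lt_one (hπ : Function.Surjective π) : A.valuation (q : K) < 1 := by
  have h : π (q : A) = 0 := by rw [map_natCast, CharP.cast_eq_zero]
  exact (residue_eq_zero_iff hπ (q : A)).mp h

omit [CharZero K] in
/-- The first approximation by a power. -/
theorem exists_first_approx (hπ : Function.Surjective π) {e : ℕ} {g : LaurentSeries K}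
    (hg : IsOne A g) {r : A.ValueGroup} (hqr : A.valuation (q : K) ≤ r)
    (hsmall : ∀ j : ℕ, ¬ q ^ e ∣ j → A.valuation (g.coeff j) ≤ r) :
    ∃ S, IsOne A S ∧ BoundedBy A (g * (S ^ q ^ e)⁻¹ - 1) r := by
  classical
  set m := q ^ e with hm
  have hm0 : 0 < m := pow_pos hq.out.pos e
  choose ρ hρ using fun i : ℕ => IsAlgClosed.exists_pow_nat_eq (g.coeff ((m * i : ℕ) : ℤ)) hm0
  set c : ℕ → K := fun i => if i = 0 then 1 else ρ i with hc
  have hcm : ∀ i, c i ^ m = g.coeff ((m * i : ℕ) : ℤ) := fun i => by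
    rcases eq_or_ne i 0 with rfl | hi
    · simp [hc, hg.coeff_zero]
    · simp [hc, hi, hρ]
  have hcA : ∀ i, c i ∈ A := fun i => by
    rw [← A.valuation_le_one_iff]
    refine not_lt.mp fun hlt => ?_
    have h1 := one_lt_pow₀ hlt hm0.ne'
    rw [← map_pow, hcm] at h1
    exact absurd (hg.bdd _) (not_le.mpr h1)
  set P : PowerSeries A := PowerSeries.mk fun i => ⟨c i, hcA i⟩ with hP
  set S : LaurentSeries K := coeffMap A.subtype (HahnSeries.ofPowerSeries ℤ A P) with hS
  have hS1 : IsOne A S := by
    refine ⟨fun i hi => ?_, ?_, fun i => ?_⟩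
    · rw [hS, coeffMap_coeff, ofPowerSeries_coeff_of_neg _ (by omega), map_zero]
    · rw [hS, coeffMap_coeff, show (0 : ℤ) = ((0 : ℕ) : ℤ) from rfl,
        HahnSeries.ofPowerSeries_apply_coeff, hP, PowerSeries.coeff_mk]
      show c 0 = 1
      simp [hc]
    · rw [hS, coeffMap_coeff]
      exact A.valuation_le_one _
  refine ⟨S, hS1, ?_⟩
  have hqA : (q : A) ∈ nonunits A := fun hu => by
    have := hu.map π
    rw [map_natCast, CharP.cast_eq_zero] at this
    exact not_isUnit_zero this
  have : CharP (A ⧸ Ideal.span {(q : A)}) q := CharP.quotient A q hqA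
  have hkey : BoundedBy A (g - S ^ m) r := by
    intro i
    rcases lt_or_ge i 0 with hi | hi
    · rw [HahnSeries.coeff_sub, hg.pole i (by omega), (hS1.pow m).pole i (by omega), sub_self,
        map_zero]
      exact zero_le
    lift i to ℕ using hi
    set Φ := Ideal.Quotient.mk (Ideal.span {(q : A)}) with hΦ
    have hpow : PowerSeries.map Φ (P ^ m) =
        PowerSeries.map (iterateFrobenius (A ⧸ Ideal.span {(q : A)}) q e)
          (PowerSeries.expand m hm0.ne' (PowerSeries.map Φ P)) := by
      rw [map_pow]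
      exact (MvPowerSeries.map_iterateFrobenius_expand (σ := Unit) q (NeZero.ne q)
        (f := PowerSeries.map Φ P) e).symm
    have hcoef := congrArg (PowerSeries.coeff i) hpow
    rw [PowerSeries.coeff_map, PowerSeries.coeff_map, PowerSeries.coeff_expand] at hcoef
    have hSc : (S ^ m).coeff (i : ℤ) = ((PowerSeries.coeff i (P ^ m) : A) : K) := by
      rw [hS, ← map_pow, ← map_pow, coeffMap_coeff, HahnSeries.ofPowerSeries_apply_coeff]
      rfl
    have hdvd : ∀ {x : A}, Φ x = 0 → A.valuation (x : K) ≤ r := fun {x} hx => by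
      obtain ⟨y, rfl⟩ := Ideal.mem_span_singleton.mp (Ideal.Quotient.eq_zero_iff_mem.mp hx)
      show A.valuation ((q : K) * (y : K)) ≤ r
      rw [map_mul]
      exact (mul_le_of_le_one_right zero_le (A.valuation_le_one y)).trans hqr
    rw [HahnSeries.coeff_sub, hSc]
    by_cases hd : m ∣ i
    · obtain ⟨l, rfl⟩ := hd
      rw [if_pos (dvd_mul_right m l), Nat.mul_div_cancel_left _ hm0, PowerSeries.coeff_map,
        iterateFrobenius_def, ← map_pow] at hcoef
      have hgl : (g.coeff ((m * l : ℕ) : ℤ)) = (((PowerSeries.coeff l P) ^ m : A) : K) := by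
        rw [← hcm, hP, PowerSeries.coeff_mk]
        rfl
      rw [hgl]
      refine hdvd (x := (PowerSeries.coeff l P) ^ m - PowerSeries.coeff (m * l) (P ^ m)) ?_
      rw [map_sub, hcoef, sub_self]
    · rw [if_neg hd, map_zero] at hcoef
      exact (A.valuation.map_sub _ _).trans (max_le (hsmall i hd) (hdvd hcoef))
  have h1 : g * (S ^ m)⁻¹ - 1 = (g - S ^ m) * (S ^ m)⁻¹ := by
    rw [sub_mul, mul_inv_cancel₀ (pow_ne_zero _ hS1.ne_zero)]
  rw [h1]
  exact (hkey.mul ((hS1.pow m).inv hπ).bdd).mono (mul_one r).le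

/-- **Integrality of the root.** -/
theorem isOne_root (hπ : Function.Surjective π)
    (arch : ∀ a : A, π a = 0 → ∀ b : K, b ≠ 0 → ∃ n : ℕ, A.valuation (a : K) ^ n ≤ A.valuation b)
    {e : ℕ} {g H s : LaurentSeries K} {a : ℤ} (ha : a = 1 ∨ a = -1)
    (hg : IsOne A g) (hH : IsOne A H) (hrel : seriesNorm q g = g ^ a * H ^ q ^ e)
    (hsp : PoleLE 0 s) (hs0 : s.coeff 0 = 1) (hs : s ^ q ^ e = g)
    (hsmall : ∃ r < (1 : A.ValueGroup), ∀ j : ℕ, ¬ q ^ e ∣ j → A.valuation (g.coeff j) ≤ r) :
    IsOne A s := by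
  obtain ⟨r₀, hr₀, hsmall⟩ := hsmall
  set r₁ := max r₀ (A.valuation (q : K)) with hr₁
  have hr₁1 : r₁ < 1 := max_lt hr₀ (valuation_natCast_lt_one hπ)
  set m := q ^ e with hm
  have hm0 : 0 < m := pow_pos hq.out.pos e
  have hiter : ∀ j : ℕ, ∃ S, IsOne A S ∧ BoundedBy A (g * (S ^ m)⁻¹ - 1) (r₁ * r₁ ^ j) := by
    intro j
    induction j with
    | zero =>
      rw [pow_zero, mul_one]
      exact exists_first_approx hπ hg (le_max_right _ _)
        fun j hj => (hsmall j hj).trans (le_max_left _ _)
    | succ j ih =>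
      obtain ⟨S, hS, hb⟩ := ih
      set r := r₁ * r₁ ^ j with hr
      have hrle : r ≤ r₁ := mul_le_of_le_one_right zero_le (pow_le_one₀ zero_le hr₁1.le)
      set β := g * (S ^ m)⁻¹ - 1 with hβ
      have hgS : g = S ^ m * (1 + β) := by
        rw [hβ, add_sub_cancel, mul_left_comm, mul_inv_cancel₀ (pow_ne_zero _ hS.ne_zero), mul_one]
      have hone : IsOne A (1 + β) := by
        rw [hβ, add_sub_cancel]; exact hg.mul ((hS.pow m).inv hπ)
      have hN : IsOne A (seriesNorm q (1 + β)) := hone.seriesNorm hπ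
      have hNb := (boundedBy_seriesNorm_sub_one (q := q) (hrle.trans hr₁1.le) hb).mono
        (show max (r * r) (r * A.valuation (q : K)) ≤ r₁ * r₁ ^ (j + 1) by
          refine le_of_le_of_eq (b := r * r₁)
            (max_le (mul_le_mul' le_rfl hrle) (mul_le_mul' le_rfl (le_max_right _ _))) ?_
          rw [hr, pow_succ, mul_assoc])
      have hNS := hS.seriesNorm (q := q) hπ
      have heq : g ^ a * H ^ m = seriesNorm q S ^ m * seriesNorm q (1 + β) := by
        rw [← hrel, hgS, seriesNorm_mul, seriesNorm_pow]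
      rcases ha with rfl | rfl
      · refine ⟨seriesNorm q S * H⁻¹, hNS.mul (hH.inv hπ), ?_⟩
        rw [zpow_one] at heq
        have : g * ((seriesNorm q S * H⁻¹) ^ m)⁻¹ = seriesNorm q (1 + β) := by
          rw [mul_pow, inv_pow, mul_inv, inv_inv]
          field_simp [pow_ne_zero m hNS.ne_zero]
          linear_combination heq
        rw [this]
        exact hNb
      · refine ⟨H * (seriesNorm q S)⁻¹, hH.mul (hNS.inv hπ), ?_⟩
        have : g * ((H * (seriesNorm q S)⁻¹) ^ m)⁻¹ = (seriesNorm q (1 + β))⁻¹ := by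
          rw [zpow_neg_one] at heq
          rw [mul_pow, inv_pow]
          have h1 := hg.ne_zero
          have h2 := pow_ne_zero m hH.ne_zero
          have h3 := pow_ne_zero m hNS.ne_zero
          field_simp at heq ⊢
          have h4 := hN.ne_zero
          field_simp
          linear_combination -heq
        rw [this]
        have h4 : (seriesNorm q (1 + β))⁻¹ - 1 =
            -(seriesNorm q (1 + β) - 1) * (seriesNorm q (1 + β))⁻¹ := by
          rw [neg_sub, sub_mul, one_mul, mul_inv_cancel₀ hN.ne_zero]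
        rw [h4]
        exact ((boundedBy_neg hNb).mul (hN.inv hπ).bdd).mono (mul_one _).le
  obtain ⟨c, hc⟩ := A.valuation_surjective r₁
  have hcA : c ∈ A := (A.valuation_le_one_iff _).mp (hc ▸ hr₁1.le)
  have hmK : ((m : K)) ^ 2 ≠ 0 := pow_ne_zero _ (Nat.cast_ne_zero.mpr hm0.ne')
  obtain ⟨n, hn⟩ := arch ⟨c, hcA⟩ ((residue_eq_zero_iff hπ ⟨c, hcA⟩).mpr (hc ▸ hr₁1)) _ hmK
  rw [show ((⟨c, hcA⟩ : A) : K) = c from rfl, hc, map_pow] at hn
  obtain ⟨S, hS, hb⟩ := hiter n
  have hw : IsOne A (s * S⁻¹) := by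
    have hp : PoleLE 0 (s * S⁻¹) := by simpa using hsp.mul (hS.inv hπ).pole
    have h0 : (s * S⁻¹).coeff 0 = 1 :=
      IsOne.coeff_zero_mul hsp hs0 (hS.inv hπ).pole (hS.inv hπ).coeff_zero
    refine ⟨hp, h0, boundedBy_one_of_pow_near hm0 hp h0 ?_⟩
    rw [mul_pow, hs, inv_pow]
    exact hb.mono ((mul_le_of_le_one_left zero_le hr₁1.le).trans hn)
  simpa [mul_assoc, inv_mul_cancel₀ hS.ne_zero] using hw.mul hS

end Main

end Fermat.Agent.AttachedLocal
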