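import Fermat.Agent.AttachedLocal.Classes
import Fermat.Agent.AttachedLocal.RootSeries

/-!
# Classes with exact roots of their two expansions

A root of order `m` is a class with an integral `m`-th root of the pair of expansions of its
Kummer function, with unit leading coefficients. The functions of the class then have normalised
expansions `T'`, whose reductions are the reduced pairs.
-/

set_option autoImplicit false

noncomputable section

namespace Fermat.Agent.AttachedLocal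

open HahnSeries AlgebraicCurve ModularCurve Fermat.Agent.Reduction Fermat.Agent.Semistable

local notation "ℚbar" => AlgebraicClosure ℚ

variable {F k : Type*} [Field F] [Algebra ℚbar F] [Field k] {A : ValuationSubring ℚbar}
  {π : A →+* k} {q : ℕ} [NeZero q]

/-- The arithmetic properties of the two expansions. -/
structure Arith (S : Sheets A π q F) : Prop where
  hA : A.LiesOverPrime q
  num : ∀ f : F, S.ι f ∈ numField

/-- A class with exact roots. -/
structure Root (S : Sheets A π q F) (m : ℕ) where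
  E : Divisor ℚbar F
  G : F
  s : Ser2 ℚbar
  η : Ser2 k
  neg : S.Neg E
  deg : Divisor.degree E = 0
  G_ne : G ≠ 0
  ord_G : ∀ v, v.ord G = -((m : ℤ) * E v)
  pow_s : s ^ m = S.T G
  red_s : Red2 A π s η
  low₁ : PoleLE (-η.1.order) s.1
  low₂ : PoleLE (-η.2.order) s.2
  η₁_mem : η.1 ∈ S.C
  η₂_mem : η.2 ∈ S.C
  η₁_ne : η.1 ≠ 0
  η₂_ne : η.2 ≠ 0
  num₁ : s.1 ∈ numField
  num₂ : s.2 ∈ numField

variable {S : Sheets A π q F} {m : ℕ}

theorem order_of_red {y : LaurentSeries ℚbar} {x : LaurentSeries k} (h : Red A π y x) (hx : x ≠ 0)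
    (hp : PoleLE (-x.order) y) : y ≠ 0 ∧ y.order = x.order := by
  have h1 : y.coeff x.order ≠ 0 := fun h0 => by
    obtain ⟨hi, hv⟩ := h x.order
    rw [show (⟨y.coeff x.order, hi⟩ : A) = 0 from Subtype.ext h0, map_zero] at hv
    exact hx (HahnSeries.coeff_order_eq_zero.mp hv.symm)
  have hy : y ≠ 0 := fun h0 => h1 (by rw [h0]; rfl)
  refine ⟨hy, le_antisymm (HahnSeries.order_le_of_coeff_ne_zero h1) ?_⟩
  simpa using (poleLE_iff_order hy).mp hp

namespace Root

variable (R : Root S m)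

theorem s₁_ne : R.s.1 ≠ 0 := (order_of_red R.red_s.1 R.η₁_ne R.low₁).1

theorem s₂_ne : R.s.2 ≠ 0 := (order_of_red R.red_s.2 R.η₂_ne R.low₂).1

theorem E_inf (hm : 0 < m) : R.E S.inf = -R.η.1.order := by
  have h := S.ord_inf R.G
  rw [R.ord_G, ← S.T_fst, ← R.pow_s, Prod.pow_fst, order_pow_eq R.s₁_ne,
    (order_of_red R.red_s.1 R.η₁_ne R.low₁).2] at h
  have : (m : ℤ) ≠ 0 := by exact_mod_cast hm.ne'
  exact mul_left_cancel₀ this (by linarith)

theorem E_zero (hm : 0 < m) : R.E S.zero = -R.η.2.order := by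
  have h := S.ord_zero R.G
  rw [R.ord_G, ← S.T_snd, ← R.pow_s, Prod.pow_snd, order_pow_eq R.s₂_ne,
    (order_of_red R.red_s.2 R.η₂_ne R.low₂).2] at h
  have : (m : ℤ) ≠ 0 := by exact_mod_cast hm.ne'
  exact mul_left_cancel₀ this (by linarith)

/-- The inverse roots. -/
def sinv : Ser2 ℚbar := (R.s.1⁻¹, R.s.2⁻¹)

theorem red_sinv : Red2 A π R.sinv (R.η.1⁻¹, R.η.2⁻¹) :=
  ⟨exists_red_inv S.surj R.red_s.1 R.η₁_ne fun i hi => R.low₁ i (by simpa using hi),
    exists_red_inv S.surj R.red_s.2 R.η₂_ne fun i hi => R.low₂ i (by simpa using hi)⟩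

theorem sinv_mul_s : R.sinv * R.s = 1 :=
  Prod.ext (inv_mul_cancel₀ R.s₁_ne) (inv_mul_cancel₀ R.s₂_ne)

/-- The normalised expansions. -/
def T' : F →ₗ[ℚbar] Ser2 ℚbar := (mulPair R.sinv).comp S.T

theorem T'_apply (f : F) : R.T' f = R.sinv * S.T f := rfl

theorem s_mul_T' (f : F) : R.s * R.T' f = S.T f := by
  rw [T'_apply, ← mul_assoc, mul_comm R.s, R.sinv_mul_s, one_mul]

theorem T'_pow (f : F) : R.T' f ^ m = S.T (f ^ m / R.G) := by
  have h : S.T R.G * S.T (f ^ m / R.G) = S.T f ^ m := by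
    rw [← S.T_mul, mul_div_cancel₀ _ R.G_ne, S.T_pow]
  calc R.T' f ^ m = R.sinv ^ m * S.T f ^ m := by rw [T'_apply, mul_pow]
    _ = (R.sinv * R.s) ^ m * S.T (f ^ m / R.G) := by rw [← h, ← R.pow_s, mul_pow, mul_assoc]
    _ = S.T (f ^ m / R.G) := by rw [R.sinv_mul_s, one_pow, one_mul]

theorem T'_num (har : Arith S) (f : F) : (R.T' f).1 ∈ numField ∧ (R.T' f).2 ∈ numField :=
  ⟨mul_mem (inv_mem R.num₁) (har.num f), mul_mem (inv_mem R.num₂) (har.num _)⟩

theorem red_T' {f : F} {a : Ser2 k} (h : Red2 A π (S.T f) (R.η * a)) : Red2 A π (R.T' f) a := by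
  have := R.red_sinv.mul h
  rwa [← mul_assoc, show ((R.η.1⁻¹, R.η.2⁻¹) : Ser2 k) * R.η = 1 from
    Prod.ext (inv_mul_cancel₀ R.η₁_ne) (inv_mul_cancel₀ R.η₂_ne), one_mul] at this

theorem red_T {f : F} {a : Ser2 k} (h : Red2 A π (R.T' f) a) : Red2 A π (S.T f) (R.η * a) := by
  have := R.red_s.mul h
  rwa [R.s_mul_T'] at this

theorem poleLE_T' (hm : 0 < m) {n : ℤ} {f : F} (hf : f ∈ S.L R.E n) :
    PoleLE n (R.T' f).1 ∧ PoleLE n (R.T' f).2 := by
  obtain ⟨h1, h2⟩ := Sheets.poleLE_of_mem_L hf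
  rw [R.E_inf hm] at h1
  rw [R.E_zero hm] at h2
  have e : ∀ {y : LaurentSeries ℚbar} {o : ℤ}, y ≠ 0 → y.order = o → PoleLE o y⁻¹ :=
    fun {y o} hy ho => by
      rw [poleLE_iff_order (inv_ne_zero hy)]
      have := HahnSeries.order_mul (inv_ne_zero hy) hy
      rw [inv_mul_cancel₀ hy, HahnSeries.order_one, ho] at this
      omega
  exact ⟨((e R.s₁_ne (order_of_red R.red_s.1 R.η₁_ne R.low₁).2).mul h1).mono (by omega),
    ((e R.s₂_ne (order_of_red R.red_s.2 R.η₂_ne R.low₂).2).mul h2).mono (by omega)⟩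

/-- The underlying datum. -/
def toDatum : S.Datum m where
  E := R.E
  G := R.G
  η := R.η
  ū := 1
  neg := R.neg
  deg := R.deg
  G_ne := R.G_ne
  ord_G := R.ord_G
  red_G := by
    rw [scale2_one, ← R.pow_s]
    exact R.red_s.pow m
  η₁_mem := R.η₁_mem
  η₂_mem := R.η₂_mem
  η₁_ne := R.η₁_ne
  η₂_ne := R.η₂_ne
  u₁_ne := one_ne_zero
  u₂_ne := one_ne_zero

/-- The sum of two classes. -/
def mul (R R' : Root S m) : Root S m where
  E := R.E + R'.E
  G := R.G * R'.G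
  s := R.s * R'.s
  η := R.η * R'.η
  neg := fun v h1 h2 => by
    rw [Finsupp.add_apply]
    have := R.neg v h1 h2
    have := R'.neg v h1 h2
    omega
  deg := by rw [map_add, R.deg, R'.deg, add_zero]
  G_ne := mul_ne_zero R.G_ne R'.G_ne
  ord_G := fun v => by
    rw [v.ord_mul R.G_ne R'.G_ne, R.ord_G, R'.ord_G, Finsupp.add_apply]
    ring
  pow_s := by rw [mul_pow, R.pow_s, R'.pow_s, S.T_mul]
  red_s := R.red_s.mul R'.red_s
  low₁ := by
    have h := R.low₁.mul R'.low₁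
    rwa [← neg_add, ← HahnSeries.order_mul R.η₁_ne R'.η₁_ne] at h
  low₂ := by
    have h := R.low₂.mul R'.low₂
    rwa [← neg_add, ← HahnSeries.order_mul R.η₂_ne R'.η₂_ne] at h
  η₁_mem := S.C.mul_mem R.η₁_mem R'.η₁_mem
  η₂_mem := S.C.mul_mem R.η₂_mem R'.η₂_mem
  η₁_ne := mul_ne_zero R.η₁_ne R'.η₁_ne
  η₂_ne := mul_ne_zero R.η₂_ne R'.η₂_ne
  num₁ := mul_mem R.num₁ R'.num₁
  num₂ := mul_mem R.num₂ R'.num₂

theorem T'_mul (R R' : Root S m) (f f' : F) : (R.mul R').T' (f * f') = R.T' f * R'.T' f' := by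
  simp only [T'_apply, S.T_mul]
  refine Prod.ext ?_ ?_ <;>
    simp only [sinv, mul, Prod.fst_mul, Prod.snd_mul, mul_inv] <;> ring

/-- The zero class. -/
def one : Root S m where
  E := 0
  G := 1
  s := 1
  η := 1
  neg := S.neg_zero'
  deg := map_zero _
  G_ne := one_ne_zero
  ord_G := fun v => by rw [v.ord_one]; simp
  pow_s := by rw [one_pow, S.T_one]
  red_s := red2_one
  low₁ := fun i hi => by
    simp only [Prod.fst_one, HahnSeries.order_one, neg_zero] at hi ⊢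
    rw [HahnSeries.coeff_one, if_neg (by omega)]
  low₂ := fun i hi => by
    simp only [Prod.snd_one, HahnSeries.order_one, neg_zero] at hi ⊢
    rw [HahnSeries.coeff_one, if_neg (by omega)]
  η₁_mem := S.C.one_mem
  η₂_mem := S.C.one_mem
  η₁_ne := one_ne_zero
  η₂_ne := one_ne_zero
  num₁ := one_mem _
  num₂ := one_mem _

/-- Multiples of a class. -/
def npow : ℕ → Root S m
  | 0 => one
  | j + 1 => (npow j).mul R

theorem npow_E (j : ℕ) : (R.npow j).E = (j : ℤ) • R.E := by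
  induction j with
  | zero => simp [npow, one]
  | succ j ih =>
    show (R.npow j).E + R.E = _
    rw [ih, Nat.cast_succ, add_smul, one_smul]

theorem T'_npow (f : F) (j : ℕ) : (R.npow j).T' (f ^ j) = R.T' f ^ j := by
  induction j with
  | zero =>
    rw [pow_zero, pow_zero, T'_apply, S.T_one, mul_one]
    exact Prod.ext inv_one inv_one
  | succ j ih =>
    show ((R.npow j).mul R).T' (f ^ (j + 1)) = _
    rw [pow_succ, T'_mul, ih, pow_succ]

theorem pow_mem_L_npow {n : ℤ} {f : F} (hf : f ∈ S.L R.E n) (j : ℕ) :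
    f ^ j ∈ S.L (R.npow j).E (j * n) := by
  rw [npow_E]
  exact Sheets.pow_mem_L hf j

variable [FF.IsFunctionField ℚbar F]

/-- The conjugate class. -/
def conj (σ : S.Inertia) : Root S m where
  E := σ.act R.E
  G := σ.g R.G
  s := (coeffMap (σ.τ : ℚbar →+* ℚbar) R.s.1, coeffMap (σ.τ : ℚbar →+* ℚbar) R.s.2)
  η := R.η
  neg := σ.neg_act R.neg
  deg := by rw [σ.degree_act, R.deg]
  G_ne := fun h => R.G_ne (σ.g.injective (h.trans (map_zero σ.g).symm))
  ord_G := fun v => by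
    obtain ⟨v, rfl⟩ := σ.P.surjective v
    rw [σ.ord_P, σ.act_apply, R.ord_G]
  pow_s := by
    rw [σ.T_g]
    refine Prod.ext ?_ ?_ <;> simp only [Prod.pow_fst, Prod.pow_snd, ← map_pow]
    · rw [← Prod.pow_fst, R.pow_s]; rfl
    · rw [← Prod.pow_snd, R.pow_s]; rfl
  red_s := ⟨σ.red R.red_s.1, σ.red R.red_s.2⟩
  low₁ := fun i hi => by rw [coeffMap_coeff, R.low₁ i hi, map_zero]
  low₂ := fun i hi => by rw [coeffMap_coeff, R.low₂ i hi, map_zero]
  η₁_mem := R.η₁_mem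
  η₂_mem := R.η₂_mem
  η₁_ne := R.η₁_ne
  η₂_ne := R.η₂_ne
  num₁ := coeffMap_mem_numField R.num₁ (AlgEquiv.ofRingEquiv (f := σ.τ) fun r => by simp)
  num₂ := coeffMap_mem_numField R.num₂ (AlgEquiv.ofRingEquiv (f := σ.τ) fun r => by simp)

theorem T'_conj (σ : S.Inertia) (f : F) :
    (R.conj σ).T' (σ.g f) = (coeffMap (σ.τ : ℚbar →+* ℚbar) (R.T' f).1,
      coeffMap (σ.τ : ℚbar →+* ℚbar) (R.T' f).2) := by
  rw [T'_apply, T'_apply, σ.T_g]
  refine Prod.ext ?_ ?_ <;>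
    simp only [sinv, conj, Prod.fst_mul, Prod.snd_mul, Sheets.T_fst, Sheets.T_snd, map_mul,
      map_inv₀]

omit [FF.IsFunctionField ℚbar F] in
/-- Bounds for the normalised expansions. -/
theorem exists_bdd_T' {n : ℤ} {f : F} (hf : f ∈ S.L R.E n) :
    ∃ c : ℚbar, c ≠ 0 ∧ Bdd2 A (R.T' f) (A.valuation c) := by
  rcases eq_or_ne f 0 with rfl | hf0
  · exact ⟨1, one_ne_zero, by simp [Bdd2, BoundedBy]⟩
  obtain ⟨c, hc, x, -, hcx⟩ := (Sheets.reg_of_mem_L R.neg hf).normalizable2 hf0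
  have h := R.red_sinv.mul hcx
  refine ⟨c⁻¹, inv_ne_zero hc, ?_⟩
  rw [map_inv₀]
  rw [← map_smul] at h
  have key : Red2 A π (c • R.T' f) (((R.η.1⁻¹, R.η.2⁻¹) : Ser2 k) * x) := by
    rw [← map_smul]; exact h
  exact ⟨boundedBy_inv_of_red hc key.1, boundedBy_inv_of_red hc key.2⟩

variable [IsAlgClosed k] [Fact q.Prime] [CharP k q]

omit [FF.IsFunctionField ℚbar F] in
theorem isTrivial_of_ū_one {e : ℕ} (d : S.Datum (q ^ e)) (hu : d.ū = 1) : d.IsTrivial := by
  intro n a ha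
  refine (Sheets.isCbar_iff_evNode ⟨a, ha.1⟩).mpr fun u => ?_
  have hm : 0 < q ^ e := pow_pos (NeZero.pos q) e
  have hr := d.node_rel hm (a := ⟨a, ha.1⟩) (a' := ⟨a, ha.1⟩) ha ha u
  rw [hu, Prod.fst_one, Prod.snd_one, one_mul, one_mul, ← pow_succ, ← pow_succ,
    Nat.sub_add_cancel hm] at hr
  exact (iterateFrobenius_inj k q e hr)

/-- The reductions of the normalised expansions are the reduced pairs. -/
theorem exists_redPair_T' {e : ℕ} (R : Root S (q ^ e)) :
    ∃ N : ℤ, 0 ≤ N ∧ ∀ n, N ≤ n → redPair S.surj R.T' (S.L R.E n) = S.CbarLe n := by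
  have hm : 0 < q ^ e := pow_pos (NeZero.pos q) e
  obtain ⟨N, hN⟩ := Sheets.Datum.IsTrivial.exists_V_eq R.toDatum
    (isTrivial_of_ū_one R.toDatum rfl) hm
  refine ⟨max N 0, le_max_right _ _, fun n hn => ?_⟩
  rw [← hN n ((le_max_left _ _).trans hn)]
  refine Submodule.ext fun a => ⟨?_, ?_⟩
  · rintro ⟨f, hf, hfa⟩
    exact R.toDatum.mem_V_of_red hm hf (R.red_T hfa)
  · rintro ⟨-, f, hf, hfa⟩
    exact ⟨f, hf, R.red_T' hfa⟩

end Root

end Fermat.Agent.AttachedLocal
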