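import Fermat.Agent.AttachedLocal.Root

/-!
# Existence of exact roots

An eigen class on the two sheets killed by a power of the residue characteristic has exact roots:
the root of the first expansion is integral by contraction of the norm, and the second expansion
follows through the involution.
-/

set_option autoImplicit false

noncomputable section

namespace Fermat.Agent.AttachedLocal

open HahnSeries AlgebraicCurve ModularCurve Fermat.Agent.Reduction Fermat.Agent.Semistable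
open Fermat.Agent.LevelLowerP (seriesNorm seriesNorm_mul seriesNorm_ne_zero)

local notation "ℚbar" => AlgebraicClosure ℚ

/-! ### Monomials -/

section Mono

variable {R : Type*} [Field R]

/-- A nonzero monomial. -/
def IsMono (z : LaurentSeries R) : Prop := ∃ (t : ℤ) (C : R), C ≠ 0 ∧ z = HahnSeries.single t C

namespace IsMono

variable {y z : LaurentSeries R}

theorem mul (hy : IsMono y) (hz : IsMono z) : IsMono (y * z) := by
  obtain ⟨t, C, hC, rfl⟩ := hy
  obtain ⟨t', C', hC', rfl⟩ := hz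
  exact ⟨t + t', C * C', mul_ne_zero hC hC', HahnSeries.single_mul_single⟩

theorem ne_zero (hy : IsMono y) : y ≠ 0 := by
  obtain ⟨t, C, hC, rfl⟩ := hy
  exact fun h => hC (HahnSeries.single_eq_zero_iff.mp h)

theorem inv (hy : IsMono y) : IsMono y⁻¹ := by
  obtain ⟨t, C, hC, rfl⟩ := hy
  refine ⟨-t, C⁻¹, inv_ne_zero hC, (eq_inv_of_mul_eq_one_left ?_).symm⟩
  rw [HahnSeries.single_mul_single, neg_add_cancel, inv_mul_cancel₀ hC]
  rfl

theorem pow (hy : IsMono y) (n : ℕ) : IsMono (y ^ n) := by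
  induction n with
  | zero => exact ⟨0, 1, one_ne_zero, by rw [pow_zero]; rfl⟩
  | succ n ih => rw [pow_succ]; exact ih.mul hy

theorem zpow (hy : IsMono y) (n : ℤ) : IsMono (y ^ n) := by
  rcases Int.eq_nat_or_neg n with ⟨j, rfl | rfl⟩
  · rw [zpow_natCast]; exact hy.pow j
  · rw [zpow_neg, zpow_natCast]; exact (hy.pow j).inv

theorem of_const {c : R} (hc : c ≠ 0) : IsMono (algebraMap R (LaurentSeries R) c) :=
  ⟨0, c, hc, by rw [algebraMap_laurentSeries_eq_single]⟩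

/-- A monomial between normalised series is `1`. -/
theorem eq_one_of_mul (hy : IsMono y) (hz : PoleLE 0 z) (hz0 : z.coeff 0 = 1)
    (hw : PoleLE 0 (y * z)) (hw0 : (y * z).coeff 0 = 1) : y = 1 := by
  obtain ⟨t, C, hC, rfl⟩ := hy
  have hlow := hw (t + 0)
  have h1 : (HahnSeries.single t C * z).coeff (t + 0) = C := by
    rw [HahnSeries.coeff_single_mul, add_zero, sub_self, hz0, mul_one]
  have ht : 0 ≤ t := by
    by_contra hlt
    exact hC (h1 ▸ hlow (by omega))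
  rw [HahnSeries.coeff_single_mul, zero_sub] at hw0
  rcases eq_or_lt_of_le ht with h | h
  · subst h
    rw [neg_zero, hz0, mul_one] at hw0
    rw [hw0]; rfl
  · rw [hz (-t) (by omega), mul_zero] at hw0
    exact absurd hw0 zero_ne_one

end IsMono

end Mono

variable {F k : Type*} [Field F] [Algebra ℚbar F] [Field k] {A : ValuationSubring ℚbar}
  {π : A →+* k} {q : ℕ} [NeZero q] {S : Sheets A π q F}

/-- The coefficients of `x ^ q ^ e` outside the multiples of `q ^ e` vanish. -/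
theorem coeff_pow_q_pow_eq_zero (S : Sheets A π q F) {e : ℕ} (x : LaurentSeries k) {j : ℤ}
    (hj : ¬ ((q ^ e : ℕ) : ℤ) ∣ j) : (x ^ q ^ e).coeff j = 0 := by
  induction e generalizing j with
  | zero => simp at hj
  | succ e ih =>
    rw [pow_succ, pow_mul, ← S.frob_eq]
    by_cases hd : (q : ℤ) ∣ j
    · obtain ⟨i, rfl⟩ := hd
      rw [qExpand_coeff_mul, coeffMap_coeff, ih, map_zero]
      intro hi
      refine hj ?_
      rw [pow_succ', Nat.cast_mul]
      exact mul_dvd_mul_left _ hi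
    · exact qExpand_coeff_of_not_dvd q _ hd

variable [FF.IsFunctionField ℚbar F]

omit [FF.IsFunctionField ℚbar F] in
/-- Boundedness by a common scalar. -/
theorem exists_bdd_mul {u : F} (hu : S.Reg u) (hu0 : u ≠ 0) {z : LaurentSeries ℚbar}
    {b : A.ValueGroup} (hz : BoundedBy A z b) :
    ∃ c : ℚbar, c ≠ 0 ∧ BoundedBy A (S.ι u) (A.valuation c) ∧
      BoundedBy A z (A.valuation c) := by
  obtain ⟨e, he, x, -, hex⟩ := S.normalizable u hu hu0
  obtain ⟨c, hc⟩ := A.valuation_surjective (max (A.valuation e)⁻¹ (max b 1))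
  refine ⟨c, fun h => ?_, (boundedBy_inv_of_red he hex).mono (hc ▸ le_max_left _ _),
    hz.mono (hc ▸ (le_max_left _ _).trans (le_max_right _ _))⟩
  rw [h, map_zero] at hc
  exact (not_le.mpr zero_lt_one) ((le_max_right b 1).trans ((le_max_right _ _).trans hc.ge))

variable [IsAlgClosed k] [Fact q.Prime] [CharP k q]

omit [NeZero q] [IsAlgClosed k] in
theorem eq_of_pow_q_pow_eq {x y : LaurentSeries k} {e : ℕ} (h : x ^ q ^ e = y ^ q ^ e) : x = y := by
  have : CharP (LaurentSeries k) q :=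
    charP_of_injective_algebraMap (algebraMap k (LaurentSeries k)).injective q
  exact iterateFrobenius_inj (LaurentSeries k) q e h

omit [FF.IsFunctionField ℚbar F] [Fact (Nat.Prime q)] [CharP k q] in
/-- Multiplier one. -/
theorem exists_unit_datum {e : ℕ} (d : S.Datum (q ^ e)) :
    ∃ d' : S.Datum (q ^ e), d'.E = d.E ∧ d'.ū = 1 := by
  have hm : 0 < q ^ e := pow_pos (NeZero.pos q) e
  obtain ⟨r₁, hr₁⟩ := IsAlgClosed.exists_pow_nat_eq d.ū.1 hm
  obtain ⟨r₂, hr₂⟩ := IsAlgClosed.exists_pow_nat_eq d.ū.2 hm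
  have h1 : r₁ ≠ 0 := fun h => d.u₁_ne (by rw [← hr₁, h, zero_pow hm.ne'])
  have h2 : r₂ ≠ 0 := fun h => d.u₂_ne (by rw [← hr₂, h, zero_pow hm.ne'])
  refine ⟨{ d with
    η := (r₁ • d.η.1, r₂ • d.η.2)
    ū := 1
    red_G := ?_
    η₁_mem := Sheets.mem_of_scale d.η₁_mem
    η₂_mem := Sheets.mem_of_scale d.η₂_mem
    η₁_ne := ?_
    η₂_ne := ?_
    u₁_ne := one_ne_zero
    u₂_ne := one_ne_zero }, rfl, rfl⟩
  · have h := d.red_G
    rw [scale2_one]
    convert h using 1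
    refine Prod.ext ?_ ?_ <;>
      simp only [scale2, Prod.pow_fst, Prod.pow_snd, smul_eq_algebraMap_mul, mul_pow, ← map_pow,
        hr₁, hr₂]
  · show r₁ • d.η.1 ≠ 0
    rw [smul_eq_algebraMap_mul]
    exact mul_ne_zero ((map_ne_zero _).mpr h1) d.η₁_ne
  · show r₂ • d.η.2 ≠ 0
    rw [smul_eq_algebraMap_mul]
    exact mul_ne_zero ((map_ne_zero _).mpr h2) d.η₂_ne

/-- The opposite class, normalised at the cusps. -/
theorem exists_normal_inv {e : ℕ} (d : S.Datum (q ^ e)) (hu : d.ū = 1) :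
    ∃ N : ℤ, ∀ n, N ≤ n → ∃ d' : S.Datum (q ^ e), d'.ū = 1 ∧
      d'.E + d.E ∈ Divisor.principal (K := ℚbar) (F := F) ∧ d'.η.1.order = -n ∧
      d'.η.2.order = -n ∧ d'.E S.inf ≤ n ∧ d'.E S.zero ≤ n := by
  have hm : 0 < q ^ e := pow_pos (NeZero.pos q) e
  obtain ⟨N₁, hN₁⟩ := Sheets.Datum.IsTrivial.exists_V_eq d (Root.isTrivial_of_ū_one d hu) hm
  obtain ⟨N₂, hN₂⟩ := S.exists_lead_pair
  refine ⟨max N₁ N₂, fun n hn => ?_⟩
  obtain ⟨u, hu', v, hv', x, y, hx, hy, h1, h2, h3, h4⟩ := hN₂ n ((le_max_right _ _).trans hn)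
  have hc : x + y ∈ d.V n := by
    rw [hN₁ n ((le_max_left _ _).trans hn)]
    exact add_mem (Sheets.redPair_L_le n (show x ∈ redPair S.surj S.T (S.L 0 n) from ⟨u, hu', hx⟩))
      (Sheets.redPair_L_le n (show y ∈ redPair S.surj S.T (S.L 0 n) from ⟨v, hv', hy⟩))
  have hne : (x + y).1.coeff (-n) ≠ 0 ∧ (x + y).2.coeff (-n) ≠ 0 := by
    simp [h1, h2, h3, h4]
  have hord : ∀ z : LaurentSeries k, PoleLE n z → z.coeff (-n) ≠ 0 → z ≠ 0 ∧ z.order = -n :=
    fun z hz hz' => by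
      have hz0 : z ≠ 0 := fun h => hz' (by rw [h]; rfl)
      exact ⟨hz0, le_antisymm (HahnSeries.order_le_of_coeff_ne_zero hz')
        ((poleLE_iff_order hz0).mp hz)⟩
  obtain ⟨hc10, hc1o⟩ := hord _ hc.1.1.1 hne.1
  obtain ⟨hc20, hc2o⟩ := hord _ hc.1.2.1 hne.2
  obtain ⟨-, f, hf, hfred⟩ := id hc
  obtain ⟨d', hE, hη, hū, hf0⟩ := d.exists_inv hf hfred hc.1 hc10 hc20
  have hbound : ∀ v, d'.E v ≤ S.bd n v := fun v => by
    have := S.mem_L.mp hf v
    rw [FF.mem_ordGE_of_ne_zero v hf0, Finsupp.add_apply] at this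
    rw [hE, Finsupp.sub_apply, Finsupp.neg_apply, FF.divOf_apply]
    omega
  refine ⟨d', by rw [hū, hu, inv_one], ?_, by rw [hη]; exact hc1o, by rw [hη]; exact hc2o,
    (hbound S.inf).trans_eq (S.bd_inf n), (hbound S.zero).trans_eq (S.bd_zero n)⟩
  rw [hE, sub_add_eq_add_sub, neg_add_cancel, zero_sub]
  exact neg_mem (Sheets.divOf_mem_principal hf0)

/-- **Eigen classes on the two sheets have exact roots.** -/
theorem exists_root (har : Arith S) {e : ℕ} (he : 1 ≤ e) {a : ℤ} (ha : a = 1 ∨ a = -1)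
    {E : Divisor ℚbar F} (hE : Split S (q ^ e) E) (hrel : RelClass S a (q ^ e) E) :
    ∃ R : Root S (q ^ e), R.E - E ∈ Divisor.principal (K := ℚbar) (F := F) := by
  have hπ := S.surj
  have hm : 0 < q ^ e := pow_pos (NeZero.pos q) e
  obtain ⟨d₀, hd₀⟩ := hE
  obtain ⟨d, hdE, hdu⟩ := exists_unit_datum d₀
  obtain ⟨N₁, hN₁⟩ := exists_normal_inv d hdu
  obtain ⟨d₁, hd₁u, hd₁E, -⟩ := hN₁ N₁ le_rfl
  obtain ⟨N₂, hN₂⟩ := exists_normal_inv d₁ hd₁u
  obtain ⟨D, hDu, hDE, ho₁, ho₂, hDi, hDz⟩ := hN₂ N₂ le_rfl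
  set n := N₂
  have hclass : D.E - E ∈ Divisor.principal (K := ℚbar) (F := F) := by
    rw [show D.E - E = (D.E + d₁.E) - (d₁.E + d.E) + (d.E - E) by abel, hdE]
    exact add_mem (sub_mem hDE (hdE ▸ hd₁E)) hd₀
  obtain ⟨hU, hW⟩ := hrel D.E D.G hclass D.G_ne D.ord_G
  have hred : Red2 A π (S.T D.G) (D.η ^ (q ^ e)) := by
    have := D.red_G
    rwa [hDu, scale2_one] at this
  set M : ℤ := ((q ^ e : ℕ) : ℤ) * n with hM
  have hηo : ∀ {η : LaurentSeries k}, η ≠ 0 → η.order = -n → (η ^ (q ^ e)).coeff (-M) ≠ 0 := by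
    intro η hη ho h0
    rw [show -M = (η ^ (q ^ e)).order by rw [order_pow_eq hη, ho, hM, mul_neg]] at h0
    exact pow_ne_zero _ hη (HahnSeries.coeff_order_eq_zero.mp h0)
  have hGlow : ∀ i < -M, (S.ι D.G).coeff i = 0 := fun i hi => by
    refine HahnSeries.coeff_eq_zero_of_lt_order (lt_of_lt_of_le hi ?_)
    rw [← S.ord_inf, D.ord_G, hM]
    nlinarith [Int.natCast_nonneg (q ^ e)]
  set l : ℚbar := (S.ι D.G).coeff (-M) with hl
  have hl1 : A.valuation l = 1 :=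
    hred.1.coeff_valuation_eq_one hπ (hηo D.η₁_ne ho₁)
  have hl0 : l ≠ 0 := fun h => by rw [h, map_zero] at hl1; exact zero_ne_one hl1
  obtain ⟨l₀, hl₀⟩ := IsAlgClosed.exists_pow_nat_eq l hm
  have hl₀0 : l₀ ≠ 0 := fun h => hl0 (by rw [← hl₀, h, zero_pow hm.ne'])
  have hl₀1 : A.valuation l₀ = 1 := by
    refine (pow_left_inj₀ zero_le zero_le hm.ne').mp ?_
    rw [← map_pow, hl₀, hl1, one_pow]
  -- the normalised Kummer series
  set g : LaurentSeries ℚbar := HahnSeries.single M l⁻¹ * S.ι D.G with hg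
  have hgc : ∀ i, g.coeff i = l⁻¹ * (S.ι D.G).coeff (i - M) := fun i => by
    rw [hg, HahnSeries.coeff_single_mul]
  have hg1 : IsOne A g := by
    refine ⟨fun i hi => by rw [hgc, hGlow _ (by omega), mul_zero], ?_, fun i => ?_⟩
    · rw [hgc, zero_sub, ← hl, inv_mul_cancel₀ hl0]
    · rw [hgc, map_mul, map_inv₀, hl1, inv_one, one_mul]
      exact (A.valuation_le_one_iff _).mpr (hred.1.coeff_mem _)
  have hgnum : g ∈ numField := mul_mem (single_mem_numField _ _) (har.num _)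
  have hG0 : S.ι D.G ≠ 0 := (map_ne_zero S.ι).mpr D.G_ne
  -- the auxiliary series of the relation
  obtain ⟨cU, h, hcU, hh, eU⟩ := hU
  have hh0 : S.ι h ≠ 0 := (map_ne_zero S.ι).mpr hh
  set o := (S.ι h).order with ho
  set lh := (S.ι h).coeff o with hlh
  have hlh0 : lh ≠ 0 := fun h0 => hh0 (HahnSeries.coeff_order_eq_zero.mp h0)
  set H₀ : LaurentSeries ℚbar := HahnSeries.single (-o) lh⁻¹ * S.ι h with hH₀
  have hH₀c : ∀ i, H₀.coeff i = lh⁻¹ * (S.ι h).coeff (i - -o) := fun i => by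
    rw [hH₀, HahnSeries.coeff_single_mul]
  have hH₀p : PoleLE 0 H₀ := fun i hi => by
    rw [hH₀c, HahnSeries.coeff_eq_zero_of_lt_order (by rw [← ho]; omega), mul_zero]
  have hH₀0 : H₀.coeff 0 = 1 := by
    rw [hH₀c, sub_neg_eq_add, zero_add, ← hlh, inv_mul_cancel₀ hlh0]
  have hH₀pow : PoleLE 0 (H₀ ^ q ^ e) ∧ (H₀ ^ q ^ e).coeff 0 = 1 := by
    have : ∀ j : ℕ, PoleLE 0 (H₀ ^ j) ∧ (H₀ ^ j).coeff 0 = 1 := by
      intro j
      induction j with
      | zero => exact ⟨fun i hi => by rw [pow_zero, HahnSeries.coeff_one, if_neg (by omega)],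
          by simp⟩
      | succ j ih =>
        rw [pow_succ]
        exact ⟨by simpa using ih.1.mul hH₀p, IsOne.coeff_zero_mul ih.1 ih.2 hH₀p hH₀0⟩
    exact this _
  have hN := hg1.seriesNorm (q := q) hπ
  have hga := hg1.zpow hπ a
  have hrel' : seriesNorm q g = g ^ a * H₀ ^ q ^ e := by
    have hmS : IsMono (seriesNorm q (HahnSeries.single M l⁻¹)) := by
      have hqe : (q : ℤ) ∣ M := by
        rw [hM, ← Nat.succ_pred_eq_of_pos he, pow_succ', Nat.cast_mul, mul_assoc]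
        exact dvd_mul_right _ _
      obtain ⟨j, hj⟩ := hqe
      rw [hj, seriesNorm_single]
      exact ⟨_, _, pow_ne_zero q (inv_ne_zero hl0), rfl⟩
    have hm₁ : IsMono (HahnSeries.single M l⁻¹ : LaurentSeries ℚbar) :=
      ⟨_, _, inv_ne_zero hl0, rfl⟩
    have hm₂ : IsMono (HahnSeries.single (-o) lh⁻¹ : LaurentSeries ℚbar) :=
      ⟨_, _, inv_ne_zero hlh0, rfl⟩
    set μ := seriesNorm q (HahnSeries.single M l⁻¹) * algebraMap ℚbar (LaurentSeries ℚbar) cU *
      ((HahnSeries.single M l⁻¹ : LaurentSeries ℚbar) ^ a)⁻¹ *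
      ((HahnSeries.single (-o) lh⁻¹ : LaurentSeries ℚbar) ^ q ^ e)⁻¹ with hμ
    have hμm : IsMono μ :=
      ((hmS.mul (IsMono.of_const hcU)).mul (hm₁.zpow a).inv).mul (hm₂.pow _).inv
    have he1 : seriesNorm q g = μ * (g ^ a * H₀ ^ q ^ e) := by
      have hs₁ := zpow_ne_zero a hm₁.ne_zero
      have hs₂ := pow_ne_zero (q ^ e) hm₂.ne_zero
      rw [hg, seriesNorm_mul, eU, hH₀, mul_zpow, mul_pow, hμ, smul_eq_algebraMap_mul]
      generalize (HahnSeries.single M l⁻¹ : LaurentSeries ℚbar) = P at hs₁ ⊢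
      generalize (HahnSeries.single (-o) lh⁻¹ : LaurentSeries ℚbar) = P' at hs₂ ⊢
      field_simp
    have hμ1 : μ = 1 := by
      refine hμm.eq_one_of_mul ?_ (IsOne.coeff_zero_mul hga.pole hga.coeff_zero hH₀pow.1 hH₀pow.2)
        ?_ ?_
      · simpa using hga.pole.mul hH₀pow.1
      · rw [← he1]; exact hN.pole
      · rw [← he1]; exact hN.coeff_zero
    rw [he1, hμ1, one_mul]
  have hH : IsOne A H₀ := by
    refine ⟨hH₀p, hH₀0, ?_⟩
    obtain ⟨u, hu, hru, hrhu⟩ := exists_clear S hh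
    obtain ⟨b, hb⟩ : ∃ b, BoundedBy A (S.ι (h * u)) b := by
      obtain ⟨c, hc, x, -, hcx⟩ := S.normalizable _ hrhu (mul_ne_zero hh hu)
      exact ⟨_, boundedBy_inv_of_red hc hcx⟩
    have hz : BoundedBy A (S.ι u * H₀) (A.valuation lh⁻¹ * b) := by
      rw [hH₀, mul_left_comm, mul_comm (S.ι u), ← map_mul]
      exact (boundedBy_single le_rfl).mul hb
    obtain ⟨c, hc, hbu, hbz⟩ := exists_bdd_mul hru hu hz
    refine boundedBy_one_of_pow S.arch hπ hm ((map_ne_zero S.ι).mpr hu) hc hbu hbz ?_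
    have : H₀ ^ q ^ e = seriesNorm q g * (g ^ a)⁻¹ := by
      rw [hrel', mul_comm (g ^ a), mul_assoc, mul_inv_cancel₀ hga.ne_zero, mul_one]
    rw [this]
    exact ((hN.mul (hga.inv hπ)).bdd)
  -- the first root
  obtain ⟨s₀, hs₀num, hs₀pow, hs₀p, hs₀0⟩ := exists_root_numField hm.ne' hgnum
    hg1.pole hg1.coeff_zero
  have hsmall : ∃ r < (1 : A.ValueGroup), ∀ j : ℕ, ¬ q ^ e ∣ j → A.valuation (g.coeff j) ≤ r := by
    classical
    obtain ⟨L, hL, hgL⟩ := mem_numField_iff.mp hgnum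
    set g' : LaurentSeries ℚbar :=
      ⟨fun i => if ((q ^ e : ℕ) : ℤ) ∣ i then 0 else g.coeff i,
        g.isPWO_support.mono fun i hi h0 => hi (show (if _ then _ else _) = (0 : ℚbar) by
          split_ifs <;> first | rfl | exact h0)⟩ with hg'
    have hg'num : g' ∈ numField := mem_numField_iff.mpr ⟨L, hL, fun i => by
      show (if _ then _ else _) ∈ L
      split_ifs
      exacts [zero_mem _, hgL i]⟩
    obtain ⟨r, hr, hrb⟩ := exists_bound_lt (Fact.out : q.Prime) har.hA hg'num one_ne_zero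
      (fun i => by
        rw [map_one]
        show A.valuation (if _ then _ else _) < 1
        split_ifs with hd
        · rw [map_zero]; exact zero_lt_one
        · rw [hgc, map_mul, map_inv₀, hl1, inv_one, one_mul]
          refine (Sheets.valuation_coeff_of_red hπ hred.1 _).2 (coeff_pow_q_pow_eq_zero S _ ?_)
          intro hd'
          exact hd (by simpa [hM] using dvd_add hd' (dvd_mul_right ((q ^ e : ℕ) : ℤ) n)))
    rw [map_one] at hr
    refine ⟨r, hr, fun j hj => ?_⟩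
    have := hrb j
    rwa [show g'.coeff (j : ℤ) = g.coeff j from if_neg (by exact_mod_cast hj)] at this
  have hs₀ : IsOne A s₀ := isOne_root hπ S.arch ha hg1 hH hrel' hs₀p hs₀0 hs₀pow hsmall
  set s₁ : LaurentSeries ℚbar := HahnSeries.single (-n) l₀ * s₀ with hs₁
  have hs₁pow : s₁ ^ q ^ e = S.ι D.G := by
    rw [hs₁, mul_pow, hs₀pow, hg, HahnSeries.single_pow, hl₀, nsmul_eq_mul, ← mul_assoc,
      HahnSeries.single_mul_single, mul_neg, ← hM, neg_add_cancel, mul_inv_cancel₀ hl0]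
    exact one_mul _
  have hs₁b : BoundedBy A s₁ 1 :=
    ((boundedBy_single hl₀1.le).mul hs₀.bdd).mono (one_mul 1).le
  have hs₁low : PoleLE n s₁ := fun i hi => by
    rw [hs₁, HahnSeries.coeff_single_mul, hs₀.pole _ (by omega), mul_zero]
  obtain ⟨x₁, hx₁⟩ := exists_red_of_coeff_mem π (boundedBy_one_iff.mp hs₁b)
  obtain rfl : x₁ = D.η.1 := eq_of_pow_q_pow_eq ((hx₁.pow _).unique (by rw [hs₁pow]; exact hred.1))
  have hs₁0 : s₁ ≠ 0 := fun h => hG0 (by rw [← hs₁pow, h, zero_pow hm.ne'])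
  have hs₁inv : Red A π s₁⁻¹ D.η.1⁻¹ :=
    exists_red_inv hπ hx₁ D.η₁_ne fun i hi => hs₁low i (by omega)
  -- the second root
  obtain ⟨cW, h', hcW, hh', eW⟩ := hW
  obtain ⟨c₀, hc₀⟩ := IsAlgClosed.exists_pow_nat_eq cW hm
  set s₂ : LaurentSeries ℚbar :=
    algebraMap ℚbar _ c₀ * (s₁ ^ (-a) * S.ι h') with hs₂
  have hs₂pow : s₂ ^ q ^ e = S.ι (S.w D.G) := by
    rw [eW, map_mul, map_mul, map_pow, map_zpow₀, AlgHom.commutes, ← hs₁pow, hs₂, mul_pow, mul_pow,
      ← map_pow, hc₀, ← zpow_natCast (s₁ ^ (-a)), ← zpow_natCast s₁, ← zpow_mul, ← zpow_mul,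
      mul_comm (-a)]
    ring
  have hs₂num : s₁ ∈ numField ∧ s₂ ∈ numField := by
    have h1 : s₁ ∈ numField := mul_mem (single_mem_numField _ _) hs₀num
    exact ⟨h1, mul_mem (algebraMap_mem_numField _) (mul_mem (zpow_mem h1 _) (har.num _))⟩
  have hs₂b : BoundedBy A s₂ 1 := by
    obtain ⟨u, hu, hru, hrhu⟩ := exists_clear S hh'
    obtain ⟨b, hb⟩ : ∃ b, BoundedBy A (S.ι (h' * u)) b := by
      obtain ⟨c, hc, x, -, hcx⟩ := S.normalizable _ hrhu (mul_ne_zero hh' hu)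
      exact ⟨_, boundedBy_inv_of_red hc hcx⟩
    have hsa : BoundedBy A (s₁ ^ (-a)) 1 := by
      rcases ha with rfl | rfl
      · rw [zpow_neg_one]; exact hs₁inv.boundedBy
      · rw [neg_neg, zpow_one]; exact hs₁b
    have hz : BoundedBy A (S.ι u * s₂) (A.valuation c₀ * (1 * b)) := by
      rw [show S.ι u * s₂ = c₀ • (s₁ ^ (-a) * S.ι (h' * u)) by
        rw [hs₂, smul_eq_algebraMap_mul, map_mul]; ring]
      exact boundedBy_smul (hsa.mul hb) c₀
    obtain ⟨c, hc, hbu, hbz⟩ := exists_bdd_mul hru hu hz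
    refine boundedBy_one_of_pow S.arch hπ hm ((map_ne_zero S.ι).mpr hu) hc hbu hbz ?_
    rw [hs₂pow]
    exact hred.2.boundedBy
  obtain ⟨x₂, hx₂⟩ := exists_red_of_coeff_mem π (boundedBy_one_iff.mp hs₂b)
  obtain rfl : x₂ = D.η.2 := eq_of_pow_q_pow_eq ((hx₂.pow _).unique (by rw [hs₂pow]; exact hred.2))
  have hs₂low : PoleLE n s₂ := by
    have hw0 : S.ι (S.w D.G) ≠ 0 := (map_ne_zero S.ι).mpr ((map_ne_zero S.w).mpr D.G_ne)
    have hs0 : s₂ ≠ 0 := fun h => hw0 (by rw [← hs₂pow, h, zero_pow hm.ne'])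
    rw [poleLE_iff_order hs0]
    have h1 := S.ord_zero D.G
    rw [D.ord_G, ← hs₂pow, order_pow_eq hs0] at h1
    have hmz : (0 : ℤ) < (q ^ e : ℕ) := by exact_mod_cast hm
    nlinarith
  refine ⟨⟨D.E, D.G, (s₁, s₂), D.η, D.neg, D.deg, D.G_ne, D.ord_G,
    Prod.ext hs₁pow hs₂pow, ⟨hx₁, hx₂⟩, ?_, ?_, D.η₁_mem, D.η₂_mem, D.η₁_ne, D.η₂_ne,
    hs₂num.1, hs₂num.2⟩, hclass⟩
  · rw [ho₁, neg_neg]; exact hs₁low
  · rw [ho₂, neg_neg]; exact hs₂low

end Fermat.Agent.AttachedLocal
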