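import Fermat.Agent.Semistable.Instance
import Fermat.Agent.LevelLowerP.SeriesNormC

/-!
# Estimates for Laurent series and their norms

Boundedness, almost integral series, and the behaviour of the series norm on series congruent
to `1`.
-/

set_option autoImplicit false

noncomputable section

namespace Fermat.Agent.AttachedLocal

open HahnSeries ModularCurve Fermat.Agent.Reduction Fermat.Agent.Semistable
open Fermat.Agent.LevelLowerP (seriesNorm seriesNorm_mul seriesNorm_one seriesNorm_pow
  seriesNorm_qExpand seriesNorm_C coeffMap_seriesNorm seriesNorm_one_add_eq_one rotate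
  qExpand_seriesNorm rotate_coeff)

variable {K k : Type*} [Field K] [Field k] {A : ValuationSubring K} {π : A →+* k}

/-! ### Bounds -/

theorem boundedBy_natCast (n : ℕ) : BoundedBy A (n : LaurentSeries K) 1 := by
  induction n with
  | zero => intro i; simp
  | succ n ih => push_cast; exact boundedBy_add ih boundedBy_one_one

theorem boundedBy_sum {ι : Type*} (s : Finset ι) {y : ι → LaurentSeries K} {r : A.ValueGroup}
    (h : ∀ i ∈ s, BoundedBy A (y i) r) : BoundedBy A (∑ i ∈ s, y i) r := fun j => by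
  rw [HahnSeries.coeff_sum]
  exact A.valuation.map_sum_le fun i hi => h i hi j

theorem boundedBy_pow {y : LaurentSeries K} {r : A.ValueGroup} (hy : BoundedBy A y r) (n : ℕ) :
    BoundedBy A (y ^ n) (r ^ n) := by
  induction n with
  | zero => rw [pow_zero, pow_zero]; exact boundedBy_one_one
  | succ n ih => rw [pow_succ, pow_succ]; exact ih.mul hy

theorem boundedBy_pow_one {y : LaurentSeries K} (hy : BoundedBy A y 1) (n : ℕ) :
    BoundedBy A (y ^ n) 1 := by
  simpa using boundedBy_pow hy n

theorem boundedBy_single {i : ℤ} {c : K} {r : A.ValueGroup} (h : A.valuation c ≤ r) :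
    BoundedBy A (HahnSeries.single i c) r := fun j => by
  rw [HahnSeries.coeff_single]
  split_ifs with hj
  · exact h
  · simp

theorem boundedBy_zero (r : A.ValueGroup) : BoundedBy A (0 : LaurentSeries K) r := fun i => by simp

theorem boundedBy_smul {y : LaurentSeries K} {r : A.ValueGroup} (hy : BoundedBy A y r) (c : K) :
    BoundedBy A (c • y) (A.valuation c * r) := fun i => by
  rw [coeff_smulC, map_mul]
  exact mul_le_mul' le_rfl (hy i)

theorem boundedBy_one_iff {y : LaurentSeries K} :
    BoundedBy A y 1 ↔ ∀ i, y.coeff i ∈ A := by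
  simp only [BoundedBy, A.valuation_le_one_iff]

/-- A series which is integral up to a fixed factor in all powers is integral. -/
theorem boundedBy_one_of_forall_pow
    (arch : ∀ a : A, π a = 0 → ∀ b : K, b ≠ 0 → ∃ n : ℕ, A.valuation (a : K) ^ n ≤ A.valuation b)
    (hπ : Function.Surjective π) {y d : LaurentSeries K} (hd : d ≠ 0)
    (h : ∀ j : ℕ, BoundedBy A (d * y ^ j) 1) : BoundedBy A y 1 := by
  classical
  suffices key : ∀ n : ℕ, ∀ i < y.order + n, A.valuation (y.coeff i) ≤ 1 by
    intro i
    exact key (i - y.order + 1).toNat i (by omega)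
  intro n
  induction n with
  | zero =>
    intro i hi
    rw [HahnSeries.coeff_eq_zero_of_lt_order (by simpa using hi), map_zero]
    exact zero_le
  | succ n ih =>
    intro i hi
    rcases lt_or_ge i (y.order + n) with h1 | h1
    · exact ih i h1
    obtain rfl : i = y.order + n := by push_cast at hi; omega
    set N := y.order + n with hN
    by_contra hgt
    rw [not_le] at hgt
    set L : LaurentSeries K :=
      ∑ i ∈ Finset.Ico y.order N, HahnSeries.single i (y.coeff i) with hL
    have hLb : BoundedBy A L 1 :=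
      boundedBy_sum _ fun i hi => boundedBy_single (ih i (Finset.mem_Ico.mp hi).2)
    set z := y - L with hz
    have hzc : ∀ i, z.coeff i = if i < N then 0 else y.coeff i := fun i => by
      rw [hz, HahnSeries.coeff_sub, hL, HahnSeries.coeff_sum]
      split_ifs with hi
      · rcases lt_or_ge i y.order with hlt | hge
        · rw [HahnSeries.coeff_eq_zero_of_lt_order hlt, Finset.sum_eq_zero, sub_zero]
          intro l hl
          rw [Finset.mem_Ico] at hl
          exact HahnSeries.coeff_single_of_ne (by omega)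
        · rw [Finset.sum_eq_single i, HahnSeries.coeff_single_same, sub_self]
          · intro l _ hl
            exact HahnSeries.coeff_single_of_ne (Ne.symm hl)
          · intro hn
            exact absurd (Finset.mem_Ico.mpr ⟨hge, hi⟩) hn
      · rw [Finset.sum_eq_zero, sub_zero]
        intro l hl
        rw [Finset.mem_Ico] at hl
        exact HahnSeries.coeff_single_of_ne (by omega)
    have hzN : z.coeff N = y.coeff N := by rw [hzc, if_neg (lt_irrefl N)]
    have hzb : ∀ j : ℕ, BoundedBy A (d * z ^ j) 1 := fun j => by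
      rw [hz, sub_eq_add_neg, add_pow, Finset.mul_sum]
      refine boundedBy_sum _ fun l _ => ?_
      rw [mul_assoc (y ^ l), ← mul_assoc d]
      exact ((h l).mul (((boundedBy_pow_one (boundedBy_neg hLb) _).mul
        (boundedBy_natCast _)).mono (one_mul 1).le)).mono (one_mul 1).le
    have hyN : y.coeff N ≠ 0 := fun h0 => by
      rw [h0, map_zero] at hgt; exact not_lt_bot hgt
    have hz0 : z ≠ 0 := fun h0 => hyN (by rw [← hzN, h0]; rfl)
    have hzo : z.order = N := by
      refine le_antisymm (HahnSeries.order_le_of_coeff_ne_zero (by rwa [hzN])) ?_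
      refine not_lt.mp fun hlt => hz0 (HahnSeries.coeff_order_eq_zero.mp ?_)
      rw [hzc, if_pos hlt]
    set l := d.leadingCoeff with hl
    have hl0 : l ≠ 0 := HahnSeries.leadingCoeff_ne_zero.mpr hd
    have hbound : ∀ j : ℕ, A.valuation l * A.valuation (y.coeff N) ^ j ≤ 1 := fun j => by
      have hc := hzb j (d.order + (j : ℤ) * N)
      have ho : (d * z ^ j).order = d.order + (j : ℤ) * N := by
        rw [HahnSeries.order_mul hd (pow_ne_zero j hz0), order_pow_eq hz0, hzo]
      rw [← ho, ← HahnSeries.leadingCoeff_eq, HahnSeries.leadingCoeff_mul] at hc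
      have hp : (z ^ j).leadingCoeff = z.leadingCoeff ^ j := by
        clear hc ho
        induction j with
        | zero => simp
        | succ j ihj => rw [pow_succ, HahnSeries.leadingCoeff_mul, ihj, pow_succ]
      rwa [hp, map_mul, map_pow, HahnSeries.leadingCoeff_eq (x := z), hzo, hzN] at hc
    set u : K := (y.coeff N)⁻¹ with hu
    have hu1 : A.valuation u < 1 := by
      rw [hu, map_inv₀]
      exact inv_lt_one_of_one_lt₀ hgt
    have huA : u ∈ A := (A.valuation_le_one_iff _).mp hu1.le
    obtain ⟨n', hn'⟩ := arch ⟨u, huA⟩ ((residue_eq_zero_iff hπ ⟨u, huA⟩).mpr hu1) (l * u)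
      (mul_ne_zero hl0 (inv_ne_zero hyN))
    have hvu : 0 < A.valuation u := (Valuation.pos_iff _).mpr (inv_ne_zero hyN)
    have h2 : A.valuation l ≤ A.valuation u ^ n' := by
      have h3 := hbound n'
      have : A.valuation (y.coeff N) = (A.valuation u)⁻¹ := by rw [hu, map_inv₀, inv_inv]
      rw [this, inv_pow, ← div_eq_mul_inv, div_le_one₀ (pow_pos hvu n')] at h3
      exact h3
    have h4 : A.valuation l ≤ A.valuation l * A.valuation u := by
      rw [← map_mul]; exact h2.trans hn'
    exact absurd h4 (not_le.mpr (mul_lt_of_lt_one_right ((Valuation.pos_iff _).mpr hl0) hu1))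

/-- `y` is integral when `y ^ m` is and `u * y` is bounded for a bounded `u ≠ 0`. -/
theorem boundedBy_one_of_pow
    (arch : ∀ a : A, π a = 0 → ∀ b : K, b ≠ 0 → ∃ n : ℕ, A.valuation (a : K) ^ n ≤ A.valuation b)
    (hπ : Function.Surjective π) {m : ℕ} (hm : 0 < m) {y u : LaurentSeries K} (hu : u ≠ 0)
    {c : K} (hc : c ≠ 0) (hbu : BoundedBy A u (A.valuation c))
    (hbuy : BoundedBy A (u * y) (A.valuation c)) (hy : BoundedBy A (y ^ m) 1) :
    BoundedBy A y 1 := by
  have hc' : (c⁻¹) ^ m ≠ 0 := pow_ne_zero _ (inv_ne_zero hc)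
  refine boundedBy_one_of_forall_pow arch hπ (d := (c⁻¹) ^ m • u ^ m) ?_ fun j => ?_
  · rw [smul_eq_algebraMap_mul]
    exact mul_ne_zero ((map_ne_zero _).mpr hc') (pow_ne_zero m hu)
  · have hr : j % m ≤ m := (Nat.mod_lt j hm).le
    have key : (c⁻¹) ^ m • u ^ m * y ^ j =
        (c⁻¹) ^ m • (u ^ (m - j % m) * (u * y) ^ (j % m) * (y ^ m) ^ (j / m)) := by
      rw [smul_eq_algebraMap_mul, smul_eq_algebraMap_mul,
        mul_assoc (algebraMap K (LaurentSeries K) _)]
      congr 1
      rw [mul_pow, ← pow_mul, ← mul_assoc (u ^ (m - j % m)), ← _root_.pow_add,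
        Nat.sub_add_cancel hr,
        mul_assoc, ← _root_.pow_add, Nat.mod_add_div j m]
    rw [key]
    refine (boundedBy_smul (((boundedBy_pow hbu _).mul (boundedBy_pow hbuy _)).mul
      (boundedBy_pow_one hy _)) _).mono ?_
    rw [mul_one, ← _root_.pow_add, Nat.sub_add_cancel hr, map_pow, map_inv₀, ← mul_pow,
      inv_mul_cancel₀ ((A.valuation.ne_zero_iff).mpr hc), one_pow]

/-! ### Series with constant term `1` -/

variable (A) in
/-- Power series with constant term `1` and integral coefficients, as Laurent series. -/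
structure IsOne (y : LaurentSeries K) : Prop where
  pole : PoleLE 0 y
  coeff_zero : y.coeff 0 = 1
  bdd : BoundedBy A y 1

namespace IsOne

variable {y z : LaurentSeries K}

theorem ne_zero (hy : IsOne A y) : y ≠ 0 := fun h => by
  have := hy.coeff_zero
  rw [h] at this
  exact zero_ne_one this

theorem order (hy : IsOne A y) : y.order = 0 := by
  refine le_antisymm (HahnSeries.order_le_of_coeff_ne_zero ?_)
    (by simpa using (poleLE_iff_order hy.ne_zero).mp hy.pole)
  rw [hy.coeff_zero]; exact one_ne_zero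

theorem coeff_zero_mul {R : Type*} [Field R] {y z : LaurentSeries R} (hy : PoleLE 0 y)
    (hy0 : y.coeff 0 = 1) (hz : PoleLE 0 z) (hz0 : z.coeff 0 = 1) : (y * z).coeff 0 = 1 := by
  have ne : ∀ {x : LaurentSeries R}, x.coeff 0 = 1 → x ≠ 0 := fun h h0 => by
    rw [h0] at h; exact zero_ne_one h
  have ord : ∀ {x : LaurentSeries R}, PoleLE 0 x → x.coeff 0 = 1 → x.order = 0 := fun hx h =>
    le_antisymm (HahnSeries.order_le_of_coeff_ne_zero (by rw [h]; exact one_ne_zero))
      (by simpa using (poleLE_iff_order (ne h)).mp hx)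
  have h1 : (y * z).order = 0 := by
    rw [HahnSeries.order_mul (ne hy0) (ne hz0), ord hy hy0, ord hz hz0, add_zero]
  have h2 : (y * z).leadingCoeff = 1 := by
    rw [HahnSeries.leadingCoeff_mul, HahnSeries.leadingCoeff_eq, HahnSeries.leadingCoeff_eq,
      ord hy hy0, ord hz hz0, hy0, hz0, mul_one]
  rwa [HahnSeries.leadingCoeff_eq, h1] at h2

theorem one : IsOne A (1 : LaurentSeries K) where
  pole := fun i hi => by
    rw [HahnSeries.coeff_one, if_neg (by omega)]
  coeff_zero := by simp
  bdd := boundedBy_one_one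

theorem mul (hy : IsOne A y) (hz : IsOne A z) : IsOne A (y * z) where
  pole := by simpa using hy.pole.mul hz.pole
  coeff_zero := coeff_zero_mul hy.pole hy.coeff_zero hz.pole hz.coeff_zero
  bdd := (hy.bdd.mul hz.bdd).mono (one_mul 1).le

theorem pow (hy : IsOne A y) (n : ℕ) : IsOne A (y ^ n) := by
  induction n with
  | zero => rw [pow_zero]; exact one
  | succ n ih => rw [pow_succ]; exact ih.mul hy

theorem inv (hπ : Function.Surjective π) (hy : IsOne A y) : IsOne A y⁻¹ := by
  obtain ⟨g, hg⟩ := exists_red_of_coeff_mem π (boundedBy_one_iff.mp hy.bdd)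
  have hg0 : g.coeff 0 = 1 := by
    obtain ⟨hm, hv⟩ := hg 0
    rw [← hv, ← map_one π]
    exact congrArg π (Subtype.ext hy.coeff_zero)
  have hgne : g ≠ 0 := fun h => by rw [h] at hg0; exact zero_ne_one hg0
  have hgo : g.order ≤ 0 := HahnSeries.order_le_of_coeff_ne_zero (by rw [hg0]; exact one_ne_zero)
  have hinv := exists_red_inv hπ hg hgne fun i hi => hy.pole i (by omega)
  have ho : y⁻¹.order = 0 := by
    have := HahnSeries.order_mul hy.ne_zero (inv_ne_zero hy.ne_zero)
    rw [mul_inv_cancel₀ hy.ne_zero, HahnSeries.order_one, hy.order] at this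
    omega
  refine ⟨(poleLE_iff_order (inv_ne_zero hy.ne_zero)).mpr (by omega), ?_,
    hinv.boundedBy⟩
  have h1 := congrArg HahnSeries.leadingCoeff (mul_inv_cancel₀ hy.ne_zero)
  rw [HahnSeries.leadingCoeff_mul, HahnSeries.leadingCoeff_one, HahnSeries.leadingCoeff_eq,
    HahnSeries.leadingCoeff_eq, hy.order, ho, hy.coeff_zero, one_mul] at h1
  exact h1

theorem zpow (hπ : Function.Surjective π) (hy : IsOne A y) (n : ℤ) : IsOne A (y ^ n) := by
  rcases Int.eq_nat_or_neg n with ⟨j, rfl | rfl⟩
  · rw [zpow_natCast]; exact hy.pow j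
  · rw [zpow_neg, zpow_natCast]; exact (hy.pow j).inv hπ

end IsOne

/-! ### The series norm -/

section Norm

variable {q : ℕ} [NeZero q]

theorem red_seriesNorm {y : LaurentSeries K} {x : LaurentSeries k} (h : Red A π y x) :
    Red A π (seriesNorm q y) (seriesNorm q x) := by
  obtain ⟨z, rfl, rfl⟩ := red_iff_exists.mp h
  exact red_iff_exists.mpr ⟨seriesNorm q z, coeffMap_seriesNorm q _ z, coeffMap_seriesNorm q _ z⟩

theorem boundedBy_seriesNorm (hπ : Function.Surjective π) {y : LaurentSeries K}
    (h : BoundedBy A y 1) : BoundedBy A (seriesNorm q y) 1 := by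
  obtain ⟨x, hx⟩ := exists_red_of_coeff_mem π (boundedBy_one_iff.mp h)
  have := hπ
  exact (red_seriesNorm hx).boundedBy

theorem seriesNorm_eq_coeffMap [Fact q.Prime] [CharP k q] (ρ : k →+* k)
    (hρ : ∀ x : LaurentSeries k, qExpand k q (coeffMap ρ x) = x ^ q) (x : LaurentSeries k) :
    seriesNorm q x = coeffMap ρ x := by
  have : CharP (LaurentSeries k) q :=
    charP_of_injective_algebraMap (algebraMap k (LaurentSeries k)).injective q
  apply frobenius_inj (LaurentSeries k) q
  rw [frobenius_def, frobenius_def, ← seriesNorm_pow, ← hρ x, seriesNorm_qExpand]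

theorem seriesNorm_single (j : ℤ) (c : K) :
    seriesNorm q (HahnSeries.single ((q : ℤ) * j) c) =
      HahnSeries.single ((q : ℤ) * j) (c ^ q) := by
  rw [← qExpand_single, seriesNorm_qExpand, HahnSeries.single_pow, nsmul_eq_mul]

theorem IsOne.seriesNorm [IsAlgClosed K] [CharZero K] (hπ : Function.Surjective π)
    {y : LaurentSeries K} (hy : IsOne A y) : IsOne A (seriesNorm q y) := by
  have : NeZero (q : K) := ⟨Nat.cast_ne_zero.mpr (NeZero.ne q)⟩
  obtain ⟨ζ, hζ⟩ := HasEnoughRootsOfUnity.exists_primitiveRoot K q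
  have hr : ∀ s : Finset (Fin q), PoleLE 0 (∏ b ∈ s,
        rotate (ζ ^ (b : ℕ)) (pow_ne_zero _ (hζ.ne_zero (NeZero.ne q))) y) ∧
      (∏ b ∈ s, rotate (ζ ^ (b : ℕ)) (pow_ne_zero _ (hζ.ne_zero (NeZero.ne q))) y).coeff 0 = 1 := by
    intro s
    induction s using Finset.induction with
    | empty => exact ⟨(IsOne.one (A := A)).pole, by simp⟩
    | insert b s hb ih =>
      rw [Finset.prod_insert hb]
      have h1 : PoleLE 0 (rotate (ζ ^ (b : ℕ)) (pow_ne_zero _ (hζ.ne_zero (NeZero.ne q))) y) :=
        fun i hi => by rw [rotate_coeff, hy.pole i hi, mul_zero]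
      refine ⟨by simpa using h1.mul ih.1, IsOne.coeff_zero_mul h1 ?_ ih.1 ih.2⟩
      rw [rotate_coeff, hy.coeff_zero, zpow_zero, mul_one]
  obtain ⟨h1, h2⟩ := hr Finset.univ
  rw [← qExpand_seriesNorm hζ] at h1 h2
  refine ⟨fun i hi => ?_, ?_, boundedBy_seriesNorm hπ hy.bdd⟩
  · rw [← qExpand_coeff_mul q]
    refine h1 _ ?_
    have : (0 : ℤ) < q := by exact_mod_cast NeZero.pos q
    nlinarith
  · rw [← qExpand_coeff_mul q, mul_zero]
    exact h2

/-- The norm contracts series congruent to `1`. -/
theorem boundedBy_seriesNorm_sub_one {β : LaurentSeries K} {r : A.ValueGroup} (hr : r ≤ 1)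
    (hβ : BoundedBy A β r) :
    BoundedBy A (seriesNorm q (1 + β) - 1) (max (r * r) (r * A.valuation (q : K))) := by
  rcases eq_or_ne r 0 with rfl | hr0
  · obtain rfl : β = 0 := HahnSeries.ext (funext fun i =>
      (map_eq_zero A.valuation).mp (le_antisymm (hβ i) zero_le))
    rw [add_zero, seriesNorm_one, sub_self]
    exact boundedBy_zero _
  obtain ⟨e, he⟩ := A.valuation_surjective r
  have he0 : e ≠ 0 := fun h0 => hr0 (by rw [← he, h0, map_zero])
  have heA : e ∈ A := (A.valuation_le_one_iff _).mp (he ▸ hr)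
  have hαb : ∀ i, (e⁻¹ • β).coeff i ∈ A := fun i => by
    rw [coeff_smulC, ← A.valuation_le_one_iff, map_mul, map_inv₀, he,
      inv_mul_le_iff₀ (zero_lt_iff.mpr hr0), mul_one]
    exact hβ i
  obtain ⟨α, hα⟩ : ∃ α : LaurentSeries A, coeffMap A.subtype α = e⁻¹ • β :=
    ⟨⟨fun i => ⟨_, hαb i⟩, (e⁻¹ • β).isPWO_support.mono fun i hi h0 => hi (Subtype.ext h0)⟩,
      rfl⟩
  obtain ⟨f, hf, hfq⟩ : ∃ f : A, A.valuation (f : K) = max r (A.valuation (q : K)) ∧
      ((f : A) ∣ ⟨e, heA⟩) ∧ (f : A) ∣ (q : A) := by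
    rcases le_total r (A.valuation (q : K)) with hle | hle
    · refine ⟨(q : A), by rw [max_eq_right hle]; rfl, ?_, dvd_rfl⟩
      have hq0 : (q : K) ≠ 0 := fun h0 => by
        rw [h0, map_zero] at hle
        exact hr0 (le_antisymm hle zero_le)
      have hmem : e / (q : K) ∈ A := by
        rw [← A.valuation_le_one_iff, map_div₀, he,
          div_le_one₀ ((Valuation.pos_iff _).mpr hq0)]
        exact hle
      exact ⟨⟨_, hmem⟩, Subtype.ext (by push_cast; rw [mul_div_cancel₀ _ hq0])⟩
    · refine ⟨⟨e, heA⟩, by rw [max_eq_left hle]; exact he, dvd_rfl, ?_⟩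
      have hmem : (q : K) / e ∈ A := by
        rw [← A.valuation_le_one_iff, map_div₀, he, div_le_one₀ (zero_lt_iff.mpr hr0)]
        exact hle
      exact ⟨⟨_, hmem⟩, Subtype.ext (by push_cast; rw [mul_div_cancel₀ _ he0])⟩
  set J : Ideal A := Ideal.span {(⟨e, heA⟩ : A) * f}
  set Φ := Ideal.Quotient.mk J
  have hsum : (1 : LaurentSeries K) + β =
      coeffMap A.subtype (1 + HahnSeries.C (⟨e, heA⟩ : A) * α) := by
    rw [map_add, map_one, map_mul, hα]
    congr 1
    ext i
    simp [he0]
  have hN : coeffMap Φ (seriesNorm q (1 + HahnSeries.C (⟨e, heA⟩ : A) * α)) = 1 := by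
    rw [coeffMap_seriesNorm, map_add, map_one, map_mul,
      show coeffMap Φ (HahnSeries.C (⟨e, heA⟩ : A)) = HahnSeries.C (Φ ⟨e, heA⟩) from
        coeffMap_single Φ 0 _]
    refine seriesNorm_one_add_eq_one q ?_ ?_ _
    · rw [← map_mul, Ideal.Quotient.eq_zero_iff_mem]
      obtain ⟨g, hg⟩ := hfq.1
      exact Ideal.mem_span_singleton.mpr (by rw [hg]; exact ⟨g, by ring⟩)
    · rw [← map_natCast Φ, ← map_mul, Ideal.Quotient.eq_zero_iff_mem]
      obtain ⟨g, hg⟩ := hfq.2
      exact Ideal.mem_span_singleton.mpr (by rw [hg]; exact ⟨g, by ring⟩)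
  intro i
  rw [hsum, ← coeffMap_seriesNorm, ← map_one (coeffMap A.subtype), ← map_sub, coeffMap_coeff]
  have hi : (seriesNorm q (1 + HahnSeries.C (⟨e, heA⟩ : A) * α) - 1).coeff i ∈ J := by
    rw [← Ideal.Quotient.eq_zero_iff_mem, ← coeffMap_coeff Φ, map_sub, map_one, hN, sub_self]
    rfl
  obtain ⟨g, hg⟩ := Ideal.mem_span_singleton.mp hi
  rw [hg]
  show A.valuation (e * (f : K) * (g : K)) ≤ _
  rw [map_mul, map_mul, he, hf]
  refine (mul_le_of_le_one_right zero_le (A.valuation_le_one g)).trans ?_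
  rcases max_choice r (A.valuation (q : K)) with h | h <;> rw [h]
  exacts [le_max_left _ _, le_max_right _ _]

end Norm

end Fermat.Agent.AttachedLocal
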