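import Fermat.Agent.AttachedLocal.EigenClass
import Fermat.Agent.AttachedLocal.Away
import Fermat.Agent.AttachedLocal.OrderFour
import Fermat.Agent.AttachedLocal.RootExists

/-!
# Inertia and Frobenius on the torsion coordinates at a place over `q ∥ N`

The local theory on the two sheets, read on the coordinate vectors of the torsion of `J₀(M q)`.
-/

set_option autoImplicit false

noncomputable section

open ModularCurve AlgebraicCurve Matrix

namespace Fermat.Agent.AttachedLocal

open Fermat.Agent.Cosets (homRank)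
open Fermat.Agent.GalRep (torsCoord torsRho torsRho_mulVec torsCoord_reduction)
open Fermat.Agent.Kummer (Tors)
open Fermat.Agent.Semistable (LevelData ALData galPlace ord_galPlace galPlace_cuspInf
  galPlace_cuspZero wEquiv_arithmeticRingAut
  valuation_apply_of_mem_decomposition isLocalHom_of_surjective'
  zsmul_mem_principal_of_nsmul_eq_zero)

local notation "ℚbar" => AlgebraicClosure ℚ
local notation "Γℚbar" => (AlgebraicClosure ℚ ≃ₐ[ℚ] AlgebraicClosure ℚ)

theorem sub_mem_principal_of_mk_eq {K F : Type*} [Field K] [Field F] [Algebra K F]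
    {D D' : Divisor.degZero (K := K) (F := F)} (h : Pic0.mk D = Pic0.mk D') :
    (D : Divisor K F) - D' ∈ Divisor.principal (K := K) (F := F) := by
  change (D : Pic0 K F) = (D' : Pic0 K F) at h
  rw [← sub_eq_zero, ← QuotientAddGroup.mk_sub, QuotientAddGroup.eq_zero_iff,
    AddSubgroup.mem_addSubgroupOf] at h
  exact h

theorem mk_eq_of_sub_mem_principal {K F : Type*} [Field K] [Field F] [Algebra K F]
    {D D' : Divisor.degZero (K := K) (F := F)}
    (h : (D : Divisor K F) - D' ∈ Divisor.principal (K := K) (F := F)) :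
    Pic0.mk D = Pic0.mk D' := by
  rw [← sub_eq_zero]
  refine (QuotientAddGroup.eq_zero_iff (D - D')).mpr ?_
  rw [AddSubgroup.mem_addSubgroupOf]
  exact h

section Classes

variable {n N : ℕ} [NeZero n] [NeZero N]

/-- A divisor in the class with given coordinates. -/
theorem exists_rep (v : Fin (homRank N) → ZMod n) :
    ∃ (x : Tors N n) (D : Divisor.degZero (K := ℚbar)
      (F := modularFunctionFieldBar N)),
      torsCoord N n x = v ∧ Pic0.mk D = (x : JZero N) := by
  obtain ⟨x, rfl⟩ := (torsCoord N n).surjective v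
  obtain ⟨D, hD⟩ := Pic0.mk_surjective (x : JZero N)
  exact ⟨x, D, rfl, hD⟩

omit [NeZero n] [NeZero N] in
theorem zsmul_rep_mem_principal {x : Tors N n}
    {D : Divisor.degZero (K := ℚbar) (F := modularFunctionFieldBar N)}
    (hD : Pic0.mk D = (x : JZero N)) :
    (n : ℤ) • (D : Divisor ℚbar (modularFunctionFieldBar N)) ∈
      Divisor.principal (K := ℚbar) (F := modularFunctionFieldBar N) := by
  refine zsmul_mem_principal_of_nsmul_eq_zero n D ?_
  have h := Pic0.mem_torsion.mp x.2
  rw [natCast_zsmul] at h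
  rw [hD]
  exact h

omit [NeZero n] [NeZero N] in
/-- The conjugate class. -/
theorem mk_galois (σ : Γℚbar) {x : Tors N n}
    {D : Divisor.degZero (K := ℚbar) (F := modularFunctionFieldBar N)}
    (hD : Pic0.mk D = (x : JZero N)) :
    ((JZero.torsionGaloisRep N n σ x : Tors N n) : JZero N) =
      Pic0.mk (SemilinearAut.degZeroSMulHom (arithmeticGalois (modularFunctionFieldFull N) σ)
        D) := by
  rw [JZero.coe_torsionGaloisRep_apply, ← hD, galois_smul_pic0_def, SemilinearAut.pic0_smul_mk]

end Classes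

variable {k : Type*} [Field k] [IsAlgClosed k] {A : ValuationSubring ℚbar} {π : A →+* k}
  {q M : ℕ} [NeZero q] [NeZero M] [Fact q.Prime] [CharP k q] (L : LevelData A π M)
  (w : ALData q M) (hq : q.Prime) (hA : A.LiesOverPrime q) (hπ : Function.Surjective π)
  (hqM : ¬ q ∣ M)

/-- The sheets. -/
local notation "S₀" => L.sheets w hq hA hπ hqM

/-- The series of the function field have coefficients in number fields. -/
theorem arith_sheets : Arith S₀ := ⟨hA, fun f => numField_of_laurentBaseChange f.2⟩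

/-- A Frobenius element acting on the reduction. -/
def frobElt {φ : Γℚbar} (hφ : A.IsFrobeniusAt φ q) : Frob S₀ where
  τ := φ.toRingEquiv
  g := arithmeticRingAut (modularFunctionFieldFull (M * q)) φ
  P := galPlace φ (M * q)
  ord_P := ord_galPlace φ
  P_inf := galPlace_cuspInf φ (M * q)
  P_zero := galPlace_cuspZero φ w hq
  ι_g := fun f => coe_arithmeticRingAut_apply _ φ f
  w_g := fun f => wEquiv_arithmeticRingAut w hq φ f
  mem := fun _ ha => EC.Reduction.apply_mem_of_mem_decomposition hφ.mem_decompositionSubgroup ha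
  val := valuation_apply_of_mem_decomposition hq hA hφ.mem_decompositionSubgroup
  res := fun a => by
    have := isLocalHom_of_surjective' π hπ
    exact (EC.Reduction.res_frobenius hφ (EC.Reduction.Res.of_mem π a.2)).2

theorem frobElt_act {φ : Γℚbar} (hφ : A.IsFrobeniusAt φ q)
    (D : Divisor ℚbar (modularFunctionFieldBar (M * q))) :
    (frobElt L w hq hA hπ hqM hφ).toSemi.act D =
      arithmeticGalois (modularFunctionFieldFull (M * q)) φ • D := rfl

variable {n : ℕ} [NeZero n]

variable (n) in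
/-- The coordinates of the classes living on the two sheets. -/
def splitVecs : AddSubgroup (Fin (homRank (M * q)) → ZMod n) where
  carrier := {v | ∀ (x : Tors (M * q) n)
    (D : Divisor.degZero (K := ℚbar) (F := modularFunctionFieldBar (M * q))),
    torsCoord (M * q) n x = v → Pic0.mk D = (x : JZero (M * q)) →
      Split S₀ n (D : Divisor ℚbar (modularFunctionFieldBar (M * q)))}
  zero_mem' x D hx hD := by
    rw [LinearEquiv.map_eq_zero_iff] at hx
    subst hx
    refine Split.zero.congr ?_
    have h : Pic0.mk D = Pic0.mk (0 : Divisor.degZero (K := ℚbar)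
        (F := modularFunctionFieldBar (M * q))) := by rw [hD]; rfl
    simpa using neg_mem (sub_mem_principal_of_mk_eq h)
  add_mem' {v v'} hv hv' x D hx hD := by
    obtain ⟨y, E, hy, hE⟩ := exists_rep (N := M * q) v
    obtain ⟨y', E', hy', hE'⟩ := exists_rep (N := M * q) v'
    refine ((hv y E hy hE).add (hv' y' E' hy' hE')).congr
      (sub_mem_principal_of_mk_eq (D := E + E') ?_)
    have he : x = y + y' := (torsCoord (M * q) n).injective (by rw [hx, map_add, hy, hy'])
    show Pic0.mk E + Pic0.mk E' = _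
    rw [hE, hE', hD, he]
    rfl
  neg_mem' {v} hv x D hx hD := by
    obtain ⟨y, E, hy, hE⟩ := exists_rep (N := M * q) v
    refine ((hv y E hy hE).neg (NeZero.pos n)).congr
      (sub_mem_principal_of_mk_eq (D := -E) ?_)
    have he : x = -y := (torsCoord (M * q) n).injective (by rw [hx, map_neg, hy])
    show -(Pic0.mk E) = _
    rw [hE, hD, he]
    rfl

/-- **`τ v - v` lives on the two sheets.** -/
theorem inertia_sub_mem_splitVecs {τ : Γℚbar} (hτ : τ ∈ A.inertiaSubgroupIn ℚ)
    (v : Fin (homRank (M * q)) → ZMod n) :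
    torsRho (M * q) n τ *ᵥ v - v ∈ splitVecs L w hq hA hπ hqM n := by
  obtain ⟨y, E, hy, hE⟩ := exists_rep (N := M * q) v
  intro x D hx hD
  have h := split_inertia (L.inertia w hq hA hπ hqM hτ) (Divisor.mem_degZero.mp E.2)
    (zsmul_rep_mem_principal hE)
  rw [LevelData.inertia_act] at h
  refine h.congr (sub_mem_principal_of_mk_eq
    (D := SemilinearAut.degZeroSMulHom (arithmeticGalois (modularFunctionFieldFull (M * q)) τ) E
      - E) ?_)
  have he : x = JZero.torsionGaloisRep (M * q) n τ y - y := (torsCoord (M * q) n).injective (by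
    rw [hx, map_sub, ← torsRho_mulVec, hy])
  show Pic0.mk _ - Pic0.mk E = _
  rw [← mk_galois τ hE, hE, hD, he]
  rfl

variable {a : ℤ}

/-- **`φ v - a v` lives on the two sheets.** -/
theorem frob_sub_mem_splitVecs (ha : a = 1 ∨ a = -1) {φ : Γℚbar} (hφ : A.IsFrobeniusAt φ q)
    {v : Fin (homRank (M * q)) → ZMod n} (hv : IsNewVec M q hqM a v) :
    torsRho (M * q) n φ *ᵥ v - a • v ∈ splitVecs L w hq hA hπ hqM n := by
  obtain ⟨y, E, hy, hE⟩ := exists_rep (N := M * q) v
  intro x D hx hD
  have h := split_frob (frobElt L w hq hA hπ hqM hφ) (NeZero.pos n) ha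
    (Divisor.mem_degZero.mp E.2) (zsmul_rep_mem_principal hE)
    (relClass_of_isNewVec L w hq hA hπ ha (by rwa [hy]) hE)
  rw [frobElt_act] at h
  refine h.congr (sub_mem_principal_of_mk_eq
    (D := SemilinearAut.degZeroSMulHom (arithmeticGalois (modularFunctionFieldFull (M * q)) φ) E
      - a • E) ?_)
  have he : x = JZero.torsionGaloisRep (M * q) n φ y - a • y :=
    (torsCoord (M * q) n).injective (by rw [hx, map_sub, map_zsmul, ← torsRho_mulVec, hy])
  show Pic0.mk _ - a • Pic0.mk E = _
  rw [← mk_galois φ hE, hE, hD, he]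
  rfl

/-- **Frobenius is `q a` on split classes of order prime to `q`.** -/
theorem frob_eq_of_mem_splitVecs (hnq : ¬ q ∣ n) {φ : Γℚbar} (hφ : A.IsFrobeniusAt φ q)
    (ha : a = 1 ∨ a = -1) {v : Fin (homRank (M * q)) → ZMod n} (hv : IsNewVec M q hqM a v)
    (hs : v ∈ splitVecs L w hq hA hπ hqM n) :
    torsRho (M * q) n φ *ᵥ v = ((q : ℤ) * a) • v := by
  obtain ⟨y, E, hy, hE⟩ := exists_rep (N := M * q) v
  have hnk : (n : k) ≠ 0 := by rwa [Ne, CharP.cast_eq_zero_iff k q]
  have h := frob_sub_smul_mem_principal (frobElt L w hq hA hπ hqM hφ) (NeZero.pos n) hnk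
    (hs y E hy hE) (relClass_of_isNewVec L w hq hA hπ ha (by rwa [hy]) hE)
  rw [frobElt_act] at h
  have he : JZero.torsionGaloisRep (M * q) n φ y = ((q : ℤ) * a) • y := Subtype.ext (by
    rw [mk_galois φ hE, AddSubgroupClass.coe_zsmul, ← hE]
    exact (mk_eq_of_sub_mem_principal (D' := ((q : ℤ) * a) • E) h))
  rw [← hy, torsRho_mulVec, he, map_zsmul]

/-- An inertia element as an element acting on the reduction. -/
theorem exists_inertia_τ : ∀ τ ∈ A.inertiaSubgroupIn ℚ, ∃ σ : Semistable.Sheets.Inertia S₀,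
    ∀ c, σ.τ c = τ c :=
  fun _ hτ => ⟨L.inertia w hq hA hπ hqM hτ, fun _ => rfl⟩

/-- **Inertia acts through `μ_q` on split classes of order `q`.** -/
theorem inertia_eq_of_mem_splitVecs (hn : n = q ^ 1) {τ : Γℚbar}
    (hτ : τ ∈ A.inertiaSubgroupIn ℚ) {ζ : ℚbar} (hζ : IsPrimitiveRoot ζ q) {c : ℕ} (hc : c < q)
    (hτζ : τ ζ = ζ ^ c) (ha : a = 1 ∨ a = -1) {v : Fin (homRank (M * q)) → ZMod n}
    (hv : IsNewVec M q hqM a v) (hs : v ∈ splitVecs L w hq hA hπ hqM n) :
    torsRho (M * q) n τ *ᵥ v = (c : ℤ) • v := by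
  subst hn
  obtain ⟨y, E, hy, hE⟩ := exists_rep (N := M * q) v
  obtain ⟨R, hR⟩ := exists_root (arith_sheets L w hq hA hπ hqM) le_rfl ha (hs y E hy hE)
    (relClass_of_isNewVec L w hq hA hπ ha (by rwa [hy]) hE)
  have h := inertia_sub_smul_mem_principal R (arith_sheets L w hq hA hπ hqM)
    (L.inertia w hq hA hπ hqM hτ) hζ hc hτζ
  have h' : arithmeticGalois (modularFunctionFieldFull (M * q)) τ •
      (E : Divisor ℚbar (modularFunctionFieldBar (M * q))) - (c : ℤ) • (E : Divisor ℚbar _) ∈
      Divisor.principal (K := ℚbar) (F := modularFunctionFieldBar (M * q)) := by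
    have h1 := (L.inertia w hq hA hπ hqM hτ).act_principal hR
    rw [map_sub] at h1
    rw [← LevelData.inertia_act (L := L) (w := w) (hq := hq) (hA := hA) (hπ := hπ) (hqM := hqM) hτ]
    have := add_mem (sub_mem h h1) (AddSubgroup.zsmul_mem _ hR (c : ℤ))
    rw [smul_sub] at this
    convert this using 1
    abel
  have he : JZero.torsionGaloisRep (M * q) (q ^ 1) τ y = (c : ℤ) • y := Subtype.ext (by
    rw [mk_galois τ hE, AddSubgroupClass.coe_zsmul, ← hE]
    exact (mk_eq_of_sub_mem_principal (D' := (c : ℤ) • E) h'))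
  rw [← hy, torsRho_mulVec, he, map_zsmul]

/-- **Inertia moving `i` acts as `-1` on split classes of order `4`.** -/
theorem inertia_eq_neg_of_mem_splitVecs (hq2 : q = 2) (hn : n = q ^ 2) {τ : Γℚbar}
    (hτ : τ ∈ A.inertiaSubgroupIn ℚ) {i : ℚbar} (hi : i ^ 2 = -1) (hτi : τ i = -i)
    (ha : a = 1 ∨ a = -1) {v : Fin (homRank (M * q)) → ZMod n}
    (hv : IsNewVec M q hqM a v) (hs : v ∈ splitVecs L w hq hA hπ hqM n) :
    torsRho (M * q) n τ *ᵥ v = -v := by
  subst hn
  obtain ⟨y, E, hy, hE⟩ := exists_rep (N := M * q) v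
  obtain ⟨R, hR⟩ := exists_root (arith_sheets L w hq hA hπ hqM) one_le_two ha (hs y E hy hE)
    (relClass_of_isNewVec L w hq hA hπ ha (by rwa [hy]) hE)
  subst hq2
  have h := inertia_add_mem_principal R (arith_sheets L w hq hA hπ hqM)
    (exists_inertia_τ L w hq hA hπ hqM) (L.inertia w hq hA hπ hqM hτ) hτ (fun _ => rfl) hi hτi
  have h' : arithmeticGalois (modularFunctionFieldFull (M * 2)) τ •
      (E : Divisor ℚbar (modularFunctionFieldBar (M * 2))) + (E : Divisor ℚbar _) ∈
      Divisor.principal (K := ℚbar) (F := modularFunctionFieldBar (M * 2)) := by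
    have h1 := (L.inertia w hq hA hπ hqM hτ).act_principal hR
    rw [map_sub] at h1
    rw [← LevelData.inertia_act (L := L) (w := w) (hq := hq) (hA := hA) (hπ := hπ) (hqM := hqM) hτ]
    have := sub_mem (sub_mem h h1) hR
    convert this using 1
    abel
  have he : JZero.torsionGaloisRep (M * 2) (2 ^ 2) τ y = -y := Subtype.ext (by
    rw [mk_galois τ hE, NegMemClass.coe_neg, ← hE]
    refine (mk_eq_of_sub_mem_principal (D' := -E) ?_)
    rw [NegMemClass.coe_neg, sub_neg_eq_add]
    exact h')
  rw [← hy, torsRho_mulVec, he, map_neg]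

/-- **A class of smaller order stays on the two sheets.** -/
theorem cast_mem_splitVecs {j n' : ℕ} [NeZero n'] (hn : n * j = n')
    {v : Fin (homRank (M * q)) → ZMod n'}
    (hs : j • v ∈ splitVecs L w hq hA hπ hqM n') :
    ZMod.castHom (Dvd.intro j hn) (ZMod n) ∘ v ∈ splitVecs L w hq hA hπ hqM n := by
  subst hn
  have hj : 0 < j := Nat.pos_of_ne_zero fun h => NeZero.ne (n * j) (by rw [h, mul_zero])
  obtain ⟨y, hy⟩ := (torsCoord (M * q) (n * j)).surjective v
  intro x D hx hD
  have hmem : j • (y : JZero (M * q)) ∈ Tors (M * q) n := by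
    have h := Pic0.mem_torsion.mp y.2
    rw [natCast_zsmul] at h
    rw [Pic0.mem_torsion, natCast_zsmul, smul_smul]
    exact h
  have hxy : x = ⟨j • (y : JZero (M * q)), hmem⟩ := (torsCoord (M * q) n).injective (by
    rw [hx, torsCoord_reduction (M * q) rfl y ⟨j • (y : JZero (M * q)), hmem⟩ rfl, hy])
  have hD' : Pic0.mk D = ((j • y : Tors (M * q) (n * j)) : JZero (M * q)) := by
    rw [hD, hxy]
    rfl
  exact (hs (j • y) D (by rw [map_nsmul, hy]) hD').drop hj (zsmul_rep_mem_principal hD)

end Fermat.Agent.AttachedLocal
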